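import Mathlib
import Fermat.Prelude.Def_AlgebraicCurve_Repartitions

set_option autoImplicit false

/-!
# Basic valuation-theoretic lemmas on places of a function field (prelude vocabulary)

(S18 / RR-general-function-fields, helper52.)  Mathlib + Prelude only, characteristic free.
-/

noncomputable section

open AlgebraicCurve WithZero

namespace Fermat.Agent.RR.H52

variable {K F : Type*} [Field K] [Field F] [Algebra K F]

/-- In `ℤᵐ⁰`, `x < 1` iff `x ≤ exp (-1)`. -/
theorem lt_one_iff_le_exp_neg_one {x : ℤᵐ⁰} : x < 1 ↔ x ≤ exp (-1 : ℤ) := by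
  have h : (exp (-1 : ℤ) : ℤᵐ⁰) * exp 1 = 1 := by
    rw [← exp_add]; simp
  rw [← lt_mul_exp_iff_le (x := x) (y := exp (-1 : ℤ)) exp_ne_zero, h]

/-- In `ℤᵐ⁰`, `1 < x` iff `exp 1 ≤ x`. -/
theorem one_lt_iff_exp_one_le {x : ℤᵐ⁰} : 1 < x ↔ exp (1 : ℤ) ≤ x := by
  rcases eq_or_ne x 0 with rfl | hx
  · simp
  · constructor
    · intro h
      have h1 : x⁻¹ < 1 := by
        rw [inv_lt_one₀ (zero_lt_iff.mpr hx)]; exact h
      have h2 := lt_one_iff_le_exp_neg_one.mp h1
      have h3 : (exp (-1 : ℤ) : ℤᵐ⁰) = (exp (1 : ℤ))⁻¹ := by rw [← exp_neg]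
      rw [h3, inv_le_inv₀ (zero_lt_iff.mpr hx) (zero_lt_iff.mpr exp_ne_zero)] at h2
      exact h2
    · intro h
      refine lt_of_lt_of_le ?_ h
      rw [← exp_zero]
      exact exp_lt_exp.mpr one_pos

variable (v : Place K F)

theorem mem_iff_val_le_one (x : F) : x ∈ v.toValuationSubring ↔ v.adicValuation x ≤ 1 := by
  constructor
  · exact v.adicValuation_le_one_of_mem
  · intro h
    obtain ⟨a, rfl⟩ := IsDiscreteValuationRing.exists_lift_of_le_one
      (A := v.toValuationSubring) (K := F) h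
    exact a.2

theorem not_mem_iff_one_lt_val (x : F) : x ∉ v.toValuationSubring ↔ 1 < v.adicValuation x := by
  rw [mem_iff_val_le_one, not_le]

theorem val_algebraMap {a : K} (ha : a ≠ 0) : v.adicValuation (algebraMap K F a) = 1 := by
  apply le_antisymm (v.adicValuation_algebraMap_le_one a)
  have h1 := v.adicValuation_algebraMap_le_one a⁻¹
  rw [map_inv₀, map_inv₀] at h1
  have h0 : v.adicValuation (algebraMap K F a) ≠ 0 :=
    v.adicValuation_ne_zero (by simpa using ha)
  rwa [inv_le_one₀ (zero_lt_iff.mpr h0)] at h1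

/-- A uniformiser: an element of valuation `exp (-1)`. -/
theorem exists_val_eq_exp_neg_one : ∃ π : F, v.adicValuation π = exp (-1 : ℤ) := by
  obtain ⟨π, hπ⟩ := IsDiscreteValuationRing.exists_irreducible v.toValuationSubring
  exact ⟨π, v.adicValuation_coe_irreducible hπ⟩

theorem exists_val_eq_exp (n : ℤ) : ∃ x : F, v.adicValuation x = exp n := by
  obtain ⟨π, hπ⟩ := exists_val_eq_exp_neg_one v
  refine ⟨π ^ (-n), ?_⟩
  rw [map_zpow₀, hπ, ← exp_zsmul]
  simp

theorem val_eq_exp_neg_ord {f : F} (hf : f ≠ 0) : v.adicValuation f = exp (-v.ord f) :=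
  v.adicValuation_eq_exp_neg_ord hf

/-- Distinct places have incomparable valuation rings. -/
theorem eq_of_le {v w : Place K F} (h : v.toValuationSubring ≤ w.toValuationSubring) : v = w := by
  by_contra hne
  have hne' : v.toValuationSubring ≠ w.toValuationSubring := fun h' => hne (Place.ext h')
  obtain ⟨x, hxw, hxv⟩ : ∃ x, x ∈ w.toValuationSubring ∧ x ∉ v.toValuationSubring := by
    by_contra hcon
    push_neg at hcon
    exact hne' (le_antisymm h hcon)
  -- `x⁻¹` is a nonunit of `O_v`, and a unit of `O_w`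
  have hx0 : x ≠ 0 := fun h0 => hxv (h0 ▸ v.toValuationSubring.zero_mem)
  have hxv' : 1 < v.adicValuation x := (not_mem_iff_one_lt_val v x).mp hxv
  obtain ⟨π, hπ⟩ := exists_val_eq_exp_neg_one v
  have hπ0 : π ≠ 0 := by
    intro h0; rw [h0, map_zero] at hπ; exact exp_ne_zero hπ.symm
  -- every element of `F` is in `O_w`
  apply w.ne_top'
  refine SetLike.ext fun y => ⟨fun _ => ValuationSubring.mem_top y, fun _ => ?_⟩
  -- `π⁻¹ ∈ O_w`: `π⁻¹ = (x ^ k) * unit` hmm; use: `v (x * π^k) = 1` for `k = -ord`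
  rcases eq_or_ne y 0 with rfl | hy0
  · exact w.toValuationSubring.zero_mem
  -- write `v x = exp m` with `m ≥ 1`, `v y = exp l`
  obtain ⟨m, hm⟩ : ∃ m : ℤ, v.adicValuation x = exp m :=
    ⟨log (v.adicValuation x), (exp_log (v.adicValuation_ne_zero hx0)).symm⟩
  obtain ⟨l, hl⟩ : ∃ l : ℤ, v.adicValuation y = exp l :=
    ⟨log (v.adicValuation y), (exp_log (v.adicValuation_ne_zero hy0)).symm⟩
  have hm1 : 1 ≤ m := by
    rw [hm, ← exp_zero, exp_lt_exp] at hxv'
    omega
  -- choose `N ≥ 0` with `l ≤ N * m`; then `v (y / x^N) ≤ 1`, so `y / x^N ∈ O_v ⊆ O_w`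
  set N : ℕ := l.toNat with hN
  have hle : l ≤ (N : ℤ) * m := by
    have : l ≤ (N : ℤ) := Int.self_le_toNat l
    nlinarith
  have h1 : v.adicValuation (y / x ^ N) ≤ 1 := by
    rw [map_div₀, map_pow, hl, hm, ← exp_nsmul, ← exp_sub, ← exp_zero, exp_le_exp]
    simp only [nsmul_eq_mul]
    omega
  have h2 : y / x ^ N ∈ w.toValuationSubring := h ((mem_iff_val_le_one v _).mpr h1)
  have h3 : y = (y / x ^ N) * x ^ N := by
    field_simp
  rw [h3]
  exact w.toValuationSubring.mul_mem _ _ h2 (pow_mem hxw N)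

theorem exists_mem_not_mem {v w : Place K F} (h : v ≠ w) :
    ∃ x, x ∈ v.toValuationSubring ∧ x ∉ w.toValuationSubring := by
  by_contra hcon
  push_neg at hcon
  exact h (eq_of_le hcon)

/-- For two distinct places there is `u` with `v u < 1 < w u`. -/
theorem exists_val_lt_one_lt_val {v w : Place K F} (h : v ≠ w) :
    ∃ u : F, v.adicValuation u < 1 ∧ 1 < w.adicValuation u := by
  obtain ⟨y₁, hy₁v, hy₁w⟩ := exists_mem_not_mem h
  obtain ⟨y₂, hy₂w, hy₂v⟩ := exists_mem_not_mem (Ne.symm h)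
  have h1 : v.adicValuation y₁ ≤ 1 := (mem_iff_val_le_one v _).mp hy₁v
  have h2 : 1 < w.adicValuation y₁ := (not_mem_iff_one_lt_val w _).mp hy₁w
  have h3 : w.adicValuation y₂ ≤ 1 := (mem_iff_val_le_one w _).mp hy₂w
  have h4 : 1 < v.adicValuation y₂ := (not_mem_iff_one_lt_val v _).mp hy₂v
  have hy₂0 : y₂ ≠ 0 := fun h0 => hy₂v (h0 ▸ v.toValuationSubring.zero_mem)
  refine ⟨y₁ / y₂, ?_, ?_⟩
  · rw [map_div₀, div_lt_one₀ (lt_trans zero_lt_one h4)]
    exact lt_of_le_of_lt h1 h4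
  · rw [map_div₀, one_lt_div₀ (zero_lt_iff.mpr (w.adicValuation_ne_zero hy₂0))]
    exact lt_of_le_of_lt h3 h2

end Fermat.Agent.RR.H52
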