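import Mathlib
import Fermat.Prelude.Def_AlgebraicCurve_DivisorClassGroup
import Fermat.Prelude.Def_AlgebraicCurve_Repartitions

/-!
# RR bank, part 1: local tools at a place

`resTot P : F → P.ResidueField` is the residue map extended by zero outside the valuation
ring; `ord`-calculus; membership in the valuation ring.
-/

set_option autoImplicit false

noncomputable section

open AlgebraicCurve WithZero

namespace Fermat.Agent.RR.H76

variable {K F : Type*} [Field K] [Field F] [Algebra K F] (P : Place K F)

/-- membership in the valuation ring of a place, in terms of `ord`. -/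
theorem mem_valSubring_iff {f : F} :
    f ∈ P.toValuationSubring ↔ f = 0 ∨ 0 ≤ P.ord f := by
  constructor
  · intro hf
    exact P.adicValuation_le_one_iff.mp (P.adicValuation_le_one_of_mem hf)
  · rintro (rfl | h)
    · exact zero_mem _
    · rcases eq_or_ne f 0 with rfl | hf
      · exact zero_mem _
      obtain ⟨π, hπ⟩ := IsDiscreteValuationRing.exists_irreducible P.toValuationSubring
      obtain ⟨u, hu⟩ := P.exists_unit_mul_zpow hf hπ
      rw [hu, show P.ord f = (((P.ord f).toNat : ℕ) : ℤ) from (Int.toNat_of_nonneg h).symm,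
        zpow_natCast]
      exact mul_mem (u : P.toValuationSubring).2 (pow_mem (π : P.toValuationSubring).2 _)

theorem mem_valSubring_iff_val {f : F} :
    f ∈ P.toValuationSubring ↔ P.adicValuation f ≤ 1 := by
  rw [mem_valSubring_iff, P.adicValuation_le_one_iff]

/-- every place has a uniformizer. -/
theorem exists_uniformizer : ∃ t : F, t ≠ 0 ∧ P.ord t = 1 := by
  obtain ⟨π, hπ⟩ := IsDiscreteValuationRing.exists_irreducible P.toValuationSubring
  refine ⟨(π : F), ?_, P.ord_coe_irreducible hπ⟩
  simpa [ne_eq, ZeroMemClass.coe_eq_zero] using hπ.ne_zero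

theorem val_lt_one_iff {f : F} : P.adicValuation f < 1 ↔ f = 0 ∨ 0 < P.ord f := by
  rcases eq_or_ne f 0 with rfl | hf
  · simp
  · rw [P.adicValuation_eq_exp_neg_ord hf, ← exp_zero, exp_lt_exp, or_iff_right hf]
    omega

theorem ord_zpow_mul {t f : F} (ht : t ≠ 0) (hf : f ≠ 0) (n : ℤ) :
    P.ord (t ^ n * f) = n * P.ord t + P.ord f := by
  rw [P.ord_mul (zpow_ne_zero n ht) hf, P.ord_zpow]

/-- ultrametric inequality for `ord`. -/
theorem le_ord_add {f g : F} {n : ℤ} (hf : f = 0 ∨ n ≤ P.ord f) (hg : g = 0 ∨ n ≤ P.ord g) :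
    f + g = 0 ∨ n ≤ P.ord (f + g) := by
  have h1 : P.adicValuation f ≤ exp (-n) := by
    rw [P.adicValuation_le_exp_iff]; simpa using hf
  have h2 : P.adicValuation g ≤ exp (-n) := by
    rw [P.adicValuation_le_exp_iff]; simpa using hg
  have h3 : P.adicValuation (f + g) ≤ exp (-n) :=
    (Valuation.map_add _ _ _).trans (max_le h1 h2)
  rw [P.adicValuation_le_exp_iff] at h3
  simpa using h3

/-- The residue map at `P`, extended by zero outside the valuation ring. -/
def resTot (x : F) : P.ResidueField := by
  classical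
  exact if h : x ∈ P.toValuationSubring then IsLocalRing.residue _ ⟨x, h⟩ else 0

theorem resTot_of_mem {x : F} (h : x ∈ P.toValuationSubring) :
    resTot P x = IsLocalRing.residue _ ⟨x, h⟩ := by
  unfold resTot
  rw [dif_pos h]

theorem resTot_add {x y : F} (hx : x ∈ P.toValuationSubring) (hy : y ∈ P.toValuationSubring) :
    resTot P (x + y) = resTot P x + resTot P y := by
  rw [resTot_of_mem P hx, resTot_of_mem P hy, resTot_of_mem P (add_mem hx hy), ← map_add]
  rfl

theorem smul_mem_valSubring (c : K) {x : F} (hx : x ∈ P.toValuationSubring) :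
    c • x ∈ P.toValuationSubring := by
  rw [Algebra.smul_def]
  exact mul_mem (P.algebraMap_mem' c) hx

theorem resTot_smul (c : K) {x : F} (hx : x ∈ P.toValuationSubring) :
    resTot P (c • x) = c • resTot P x := by
  rw [resTot_of_mem P hx, resTot_of_mem P (smul_mem_valSubring P c hx)]
  have h1 : (⟨c • x, smul_mem_valSubring P c hx⟩ : P.toValuationSubring)
      = c • (⟨x, hx⟩ : P.toValuationSubring) := by
    apply Subtype.ext
    show c • x = ((c • (⟨x, hx⟩ : P.toValuationSubring) : P.toValuationSubring) : F)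
    rw [Algebra.smul_def c (⟨x, hx⟩ : P.toValuationSubring), Algebra.smul_def]
    rfl
  rw [h1]
  exact map_smul (IsScalarTower.toAlgHom K P.toValuationSubring P.ResidueField) c ⟨x, hx⟩

theorem resTot_eq_zero_iff {x : F} (hx : x ∈ P.toValuationSubring) :
    resTot P x = 0 ↔ x = 0 ∨ 0 < P.ord x := by
  rw [resTot_of_mem P hx, IsLocalRing.residue_eq_zero_iff, IsLocalRing.mem_maximalIdeal,
    mem_nonunits_iff, ← P.adicValuation_coe_eq_one_iff, ← val_lt_one_iff]
  have h1 : P.adicValuation x ≤ 1 := P.adicValuation_le_one_of_mem hx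
  exact ⟨fun h => lt_of_le_of_ne h1 h, fun h => h.ne⟩

theorem resTot_surjective (r : P.ResidueField) :
    ∃ x : F, x ∈ P.toValuationSubring ∧ resTot P x = r := by
  obtain ⟨a, ha⟩ := IsLocalRing.residue_surjective r
  exact ⟨(a : F), a.2, by rw [resTot_of_mem P a.2]; exact ha⟩

theorem resTot_zero : resTot P 0 = 0 := by
  rw [resTot_of_mem P (zero_mem _)]
  exact map_zero _

end Fermat.Agent.RR.H76
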