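import Mathlib
import Fermat.Agent.RR.H76_Local

/-!
# RR bank, part 2: Riemann-Roch spaces, one-place step

For a divisor `D` and a place `P` with uniformizer `t`, the map
`L(D + P) → κ(P)`, `f ↦ res (t ^ (D P + 1) * f)` is `K`-linear with kernel `L(D)`.
-/

set_option autoImplicit false

noncomputable section

open AlgebraicCurve WithZero

namespace Fermat.Agent.RR.H76

variable {K F : Type*} [Field K] [Field F] [Algebra K F]

/-- `l(D)`. -/
def ell (D : Divisor K F) : ℕ := Module.finrank K ↥(riemannRochSpace D)

theorem riemannRochSpace_mono {D D' : Divisor K F} (h : D ≤ D') :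
    riemannRochSpace D ≤ riemannRochSpace D' := fun _ hf v =>
  (hf v).trans (exp_le_exp.mpr (Finsupp.le_def.mp h v))

/-- The divisor `D + P`. -/
abbrev addP (D : Divisor K F) (P : Place K F) : Divisor K F := D + Finsupp.single P (1 : ℤ)

theorem le_add_single (D : Divisor K F) (P : Place K F) : D ≤ addP D P := by
  have : (0 : Divisor K F) ≤ Finsupp.single P (1 : ℤ) := by
    intro v
    classical
    rw [Finsupp.single_apply]
    split_ifs <;> simp
  simpa [addP] using add_le_add_left this D

theorem add_single_apply_self (D : Divisor K F) (P : Place K F) :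
    (addP D P) P = D P + 1 := by
  simp [addP]

theorem add_single_apply_of_ne (D : Divisor K F) {P v : Place K F} (h : v ≠ P) :
    (addP D P) v = D v := by
  classical
  simp [addP, Finsupp.single_apply, Ne.symm h]

section OneStep

variable (D : Divisor K F) (P : Place K F) {t : F} (ht : t ≠ 0) (ht1 : P.ord t = 1)

include ht ht1 in
theorem zpow_mul_mem_valSubring {f : F} (hf : f = 0 ∨ -(D P + 1) ≤ P.ord f) :
    t ^ (D P + 1) * f ∈ P.toValuationSubring := by
  rw [mem_valSubring_iff]
  rcases eq_or_ne f 0 with rfl | hf0
  · left; simp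
  · right
    rw [ord_zpow_mul P ht hf0, ht1]
    have := hf.resolve_left hf0
    omega

include ht ht1 in
theorem zpow_mul_mem_of_mem_L {f : F} (hf : f ∈ riemannRochSpace (addP D P)) :
    t ^ (D P + 1) * f ∈ P.toValuationSubring := by
  apply zpow_mul_mem_valSubring D P ht ht1
  have := (mem_riemannRochSpace_iff.mp hf) P
  rwa [add_single_apply_self] at this

/-- The leading-coefficient map `L(D + P) → κ(P)`. -/
def lcMap : ↥(riemannRochSpace (addP D P)) →ₗ[K] P.ResidueField where
  toFun f := resTot P (t ^ (D P + 1) * f.1)
  map_add' f g := by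
    have h := resTot_add P (zpow_mul_mem_of_mem_L D P ht ht1 f.2)
      (zpow_mul_mem_of_mem_L D P ht ht1 g.2)
    rw [← mul_add] at h
    exact h
  map_smul' c f := by
    have h := resTot_smul P c (zpow_mul_mem_of_mem_L D P ht ht1 f.2)
    rw [RingHom.id_apply, ← h]
    congr 1
    show t ^ (D P + 1) * (c • (f : F)) = c • (t ^ (D P + 1) * (f : F))
    rw [mul_smul_comm]

theorem lcMap_apply (f : ↥(riemannRochSpace (addP D P))) :
    lcMap D P ht ht1 f = resTot P (t ^ (D P + 1) * f.1) := rfl

theorem lcMap_eq_zero_iff (f : ↥(riemannRochSpace (addP D P))) :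
    lcMap D P ht ht1 f = 0 ↔ (f : F) ∈ riemannRochSpace D := by
  rw [lcMap_apply, resTot_eq_zero_iff P (zpow_mul_mem_of_mem_L D P ht ht1 f.2),
    mem_riemannRochSpace_iff]
  have hf := mem_riemannRochSpace_iff.mp f.2
  constructor
  · intro h v
    by_cases hv : v = P
    · subst hv
      rcases eq_or_ne (f : F) 0 with h0 | h0
      · exact Or.inl h0
      · right
        rcases h with h | h
        · exact absurd ((mul_eq_zero.mp h).resolve_left (zpow_ne_zero _ ht)) h0
        · rw [ord_zpow_mul v ht h0, ht1] at h
          omega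
    · have := hf v
      rwa [add_single_apply_of_ne D hv] at this
  · intro h
    rcases eq_or_ne (f : F) 0 with h0 | h0
    · left; rw [h0, mul_zero]
    · right
      rw [ord_zpow_mul P ht h0, ht1]
      have := (h P).resolve_left h0
      omega

theorem ker_lcMap :
    LinearMap.ker (lcMap D P ht ht1)
      = Submodule.comap (riemannRochSpace (addP D P)).subtype
          (riemannRochSpace D) := by
  ext f
  rw [LinearMap.mem_ker, lcMap_eq_zero_iff, Submodule.mem_comap]
  rfl

/-- `ker (lcMap) ≃ L(D)`. -/
def kerLcMapEquiv :
    ↥(LinearMap.ker (lcMap D P ht ht1)) ≃ₗ[K] ↥(riemannRochSpace D) :=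
  (LinearEquiv.ofEq _ _ (ker_lcMap D P ht ht1)).trans
    (Submodule.comapSubtypeEquivOfLe (riemannRochSpace_mono (le_add_single D P)))

include ht ht1 in
/-- One-place step: finiteness. -/
theorem finiteDimensional_add_single [Module.Finite K P.ResidueField]
    [FiniteDimensional K ↥(riemannRochSpace D)] :
    FiniteDimensional K ↥(riemannRochSpace (addP D P)) := by
  have : Module.Finite K ↥(LinearMap.ker (lcMap D P ht ht1)) :=
    Module.Finite.equiv (kerLcMapEquiv D P ht ht1).symm
  have : Module.Finite K (↥(riemannRochSpace (addP D P)) ⧸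
      LinearMap.ker (lcMap D P ht ht1)) :=
    Module.Finite.equiv (lcMap D P ht ht1).quotKerEquivRange.symm
  exact Module.Finite.of_submodule_quotient (LinearMap.ker (lcMap D P ht ht1))

/-- One-place step: dimension formula. -/
theorem ell_add_single [Module.Finite K P.ResidueField]
    [FiniteDimensional K ↥(riemannRochSpace D)] :
    ell (addP D P)
      = ell D + Module.finrank K ↥(LinearMap.range (lcMap D P ht ht1)) := by
  have := finiteDimensional_add_single D P ht ht1
  have h := LinearMap.finrank_range_add_finrank_ker (lcMap D P ht ht1)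
  rw [(kerLcMapEquiv D P ht ht1).finrank_eq] at h
  unfold ell
  omega

include ht ht1 in
theorem ell_add_single_le [Module.Finite K P.ResidueField]
    [FiniteDimensional K ↥(riemannRochSpace D)] :
    ell (addP D P) ≤ ell D + P.deg := by
  rw [ell_add_single D P ht ht1]
  exact Nat.add_le_add_left (Submodule.finrank_le _) _

end OneStep

end Fermat.Agent.RR.H76
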