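import Mathlib
import Fermat.Agent.RR.H76_LSpace

/-!
# RR bank, part 3: finiteness of `L(D)`, Riemann's inequality, Riemann's theorem

Everything is proved from the hypothesis bundle `FFBase K F`.
-/

set_option autoImplicit false
set_option linter.style.haveILetI false

noncomputable section

open AlgebraicCurve WithZero

namespace Fermat.Agent.RR.H76

variable {K F : Type*} [Field K] [Field F] [Algebra K F]

/-- The basic facts about the places of a function field of one variable that the
Riemann-Roch bank consumes. -/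
structure FFBase (K F : Type*) [Field K] [Field F] [Algebra K F] : Prop where
  finRes : ∀ v : Place K F, Module.Finite K v.ResidueField
  finOrd : ∀ f : F, f ≠ 0 → {v : Place K F | v.ord f ≠ 0}.Finite
  pd : HasPrincipalDivisors K F
  exists_sep : ∃ (B C : Divisor K F) (d : ℕ), 0 ≤ B ∧ 0 ≤ C ∧ 0 < Divisor.degree B ∧
    Divisor.degree B ≤ d ∧ ∀ l : ℕ, (((l + 1) * d : ℕ) : ℤ) ≤ ell (l • B + C)

/-! ### Effective divisors -/

theorem effective_induction {p : Divisor K F → Prop} (h0 : p 0)
    (hstep : ∀ (E : Divisor K F) (P : Place K F), 0 ≤ E → p E → p (addP E P)) :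
    ∀ E : Divisor K F, 0 ≤ E → p E := by
  classical
  intro E
  induction E using Finsupp.induction with
  | zero => exact fun _ => h0
  | single_add a b f ha hb ih =>
    intro hE
    have hfa : f a = 0 := by simpa using ha
    have hb0 : 0 ≤ b := by
      have := hE a
      simpa [hfa] using this
    have hf0 : 0 ≤ f := by
      intro v
      by_cases hv : v = a
      · subst hv; simp [hfa]
      · have := hE v
        simpa [Finsupp.single_apply, Ne.symm hv] using this
    have hpf := ih hf0
    have key : ∀ n : ℕ, 0 ≤ f + Finsupp.single a (n : ℤ) ∧ p (f + Finsupp.single a (n : ℤ)) := by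
      intro n
      induction n with
      | zero => simpa using ⟨hf0, hpf⟩
      | succ n ihn =>
        have e : f + Finsupp.single a ((n + 1 : ℕ) : ℤ)
            = addP (f + Finsupp.single a (n : ℤ)) a := by
          simp only [addP, Nat.cast_add, Nat.cast_one, add_assoc, ← Finsupp.single_add]
        rw [e]
        exact ⟨ihn.1.trans (le_add_single _ _), hstep _ a ihn.1 ihn.2⟩
    have := (key b.toNat).2
    rwa [Int.toNat_of_nonneg hb0, add_comm] at this

theorem degree_nonneg_of_nonneg {E : Divisor K F} (hE : 0 ≤ E) : 0 ≤ Divisor.degree E := by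
  refine effective_induction (p := fun E => 0 ≤ Divisor.degree E) (by simp) ?_ E hE
  intro E P _ h
  simp only [addP, map_add, Divisor.degree_single, one_mul]
  positivity

theorem degree_mono {D D' : Divisor K F} (h : D ≤ D') : Divisor.degree D ≤ Divisor.degree D' := by
  have := degree_nonneg_of_nonneg (sub_nonneg.mpr h)
  rw [map_sub] at this
  linarith

theorem degree_addP (D : Divisor K F) (P : Place K F) :
    Divisor.degree (addP D P) = Divisor.degree D + P.deg := by
  simp [addP]


/-! ### Finiteness and monotonicity of `l(D)` -/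

theorem deg_pos_of_finite (v : Place K F) [Module.Finite K v.ResidueField] : 0 < v.deg :=
  Module.finrank_pos

namespace FFBase

variable (h : FFBase K F)
include h

theorem deg_pos (v : Place K F) : 0 < v.deg :=
  haveI := h.finRes v
  deg_pos_of_finite v

theorem exists_place : Nonempty (Place K F) := by
  obtain ⟨B, C, d, hB, hC, hBpos, hBd, hl⟩ := h.exists_sep
  by_contra hne
  rw [not_nonempty_iff] at hne
  have : B = 0 := Subsingleton.elim _ _
  rw [this, map_zero] at hBpos
  exact lt_irrefl _ hBpos

/-- `L(D) = 0` for `deg D < 0`. -/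
theorem riemannRochSpace_eq_bot_of_degree_neg (D : Divisor K F) (hD : Divisor.degree D < 0) :
    riemannRochSpace D = ⊥ := by
  rw [eq_bot_iff]
  intro f hf
  rw [Submodule.mem_bot]
  by_contra hf0
  obtain ⟨E, hE, hE0⟩ := h.pd.exists_divisor f hf0
  have hDE : 0 ≤ D + E := by
    intro v
    have := (mem_riemannRochSpace_iff.mp hf v).resolve_left hf0
    simp only [Finsupp.coe_zero, Pi.zero_apply, Finsupp.coe_add, Pi.add_apply, hE v]
    omega
  have := degree_nonneg_of_nonneg hDE
  rw [map_add, hE0, add_zero] at this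
  omega

/-- adding an effective divisor: finiteness and the dimension bound. -/
theorem finiteDimensional_add_effective (E : Divisor K F) (hE : 0 ≤ E) :
    ∀ D : Divisor K F, FiniteDimensional K ↥(riemannRochSpace D) →
      FiniteDimensional K ↥(riemannRochSpace (D + E)) ∧
        (ell (D + E) : ℤ) ≤ ell D + Divisor.degree E := by
  refine effective_induction (p := fun E => ∀ D : Divisor K F,
      FiniteDimensional K ↥(riemannRochSpace D) →
      FiniteDimensional K ↥(riemannRochSpace (D + E)) ∧
        (ell (D + E) : ℤ) ≤ ell D + Divisor.degree E) ?_ ?_ E hE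
  · intro D hD
    rw [add_zero, map_zero, add_zero]
    exact ⟨hD, le_rfl⟩
  · intro E P _ ih D hD
    obtain ⟨hfd, hle⟩ := ih D hD
    obtain ⟨t, ht, ht1⟩ := exists_uniformizer P
    have := h.finRes P
    have := hfd
    have e : D + addP E P = addP (D + E) P := by
      simp only [addP, add_assoc]
    rw [e]
    refine ⟨finiteDimensional_add_single (D + E) P ht ht1, ?_⟩
    have h1 := ell_add_single_le (D + E) P ht ht1
    rw [degree_addP]
    have h2 : ((ell (addP (D + E) P) : ℕ) : ℤ) ≤ ((ell (D + E) + P.deg : ℕ) : ℤ) := by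
      exact_mod_cast h1
    push_cast at h2
    linarith

/-- every `L(D)` is finite-dimensional. -/
theorem finiteDimensional_riemannRochSpace (D : Divisor K F) :
    FiniteDimensional K ↥(riemannRochSpace D) := by
  obtain ⟨P0⟩ := h.exists_place
  have hpos : (0 : ℤ) < P0.deg := by exact_mod_cast h.deg_pos P0
  -- choose `m` with `deg D - m * deg P0 < 0`
  set m : ℕ := (Divisor.degree D).toNat + 1 with hm
  set E : Divisor K F := Finsupp.single P0 (m : ℤ) with hE
  have hE0 : 0 ≤ E := by
    intro v
    classical
    rw [hE, Finsupp.single_apply]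
    split_ifs <;> simp
  have hdeg : Divisor.degree (D - E) < 0 := by
    rw [map_sub, hE, Divisor.degree_single]
    have h1 : Divisor.degree D ≤ ((Divisor.degree D).toNat : ℤ) := Int.self_le_toNat _
    have h2 : ((m : ℕ) : ℤ) ≤ (m : ℤ) * P0.deg := by
      have : (1 : ℤ) ≤ P0.deg := hpos
      nlinarith
    rw [hm] at h2 ⊢
    push_cast at h2 ⊢
    linarith
  have hbot := h.riemannRochSpace_eq_bot_of_degree_neg (D - E) hdeg
  have hfd : FiniteDimensional K ↥(riemannRochSpace (D - E)) := by
    rw [hbot]; infer_instance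
  have := (h.finiteDimensional_add_effective E hE0 (D - E) hfd).1
  rwa [sub_add_cancel] at this

/-- `l(D') ≤ l(D) + deg D' - deg D` for `D ≤ D'`. -/
theorem ell_le_of_le {D D' : Divisor K F} (hDD' : D ≤ D') :
    (ell D' : ℤ) ≤ ell D + (Divisor.degree D' - Divisor.degree D) := by
  have := (h.finiteDimensional_add_effective (D' - D) (sub_nonneg.mpr hDD') D
    (h.finiteDimensional_riemannRochSpace D)).2
  rwa [add_sub_cancel, map_sub] at this

/-- `l` is monotone. -/
theorem ell_mono {D D' : Divisor K F} (hDD' : D ≤ D') : ell D ≤ ell D' := by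
  have := h.finiteDimensional_riemannRochSpace D'
  exact Submodule.finrank_mono (riemannRochSpace_mono hDD')

/-- `deg D - l(D)` is monotone. -/
theorem deg_sub_ell_mono {D D' : Divisor K F} (hDD' : D ≤ D') :
    Divisor.degree D - ell D ≤ Divisor.degree D' - ell D' := by
  have := h.ell_le_of_le hDD'
  linarith


/-! ### Shifting by a principal divisor -/

omit h in
theorem mul_mem_riemannRochSpace {D E : Divisor K F} {f : F} (hf : f ≠ 0)
    (hE : ∀ v : Place K F, E v = v.ord f) {g : F} (hg : g ∈ riemannRochSpace D) :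
    g * f ∈ riemannRochSpace (D - E) := by
  rw [mem_riemannRochSpace_iff] at hg ⊢
  intro v
  rcases eq_or_ne g 0 with rfl | hg0
  · left; simp
  · right
    have := (hg v).resolve_left hg0
    rw [v.ord_mul hg0 hf, Finsupp.sub_apply, hE v]
    omega

/-- multiplication by `f` as a linear map `L(D) → L(D - div f)`. -/
def mulL {D E : Divisor K F} {f : F} (hf : f ≠ 0) (hE : ∀ v : Place K F, E v = v.ord f) :
    ↥(riemannRochSpace D) →ₗ[K] ↥(riemannRochSpace (D - E)) where
  toFun g := ⟨g.1 * f, mul_mem_riemannRochSpace hf hE g.2⟩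
  map_add' g g' := by
    apply Subtype.ext
    show (g.1 + g'.1) * f = g.1 * f + g'.1 * f
    ring
  map_smul' c g := by
    apply Subtype.ext
    show (c • g.1) * f = c • (g.1 * f)
    rw [smul_mul_assoc]

omit h in
theorem mulL_injective {D E : Divisor K F} {f : F} (hf : f ≠ 0)
    (hE : ∀ v : Place K F, E v = v.ord f) : Function.Injective (mulL (D := D) hf hE) := by
  intro g g' hgg
  have := congrArg Subtype.val hgg
  apply Subtype.ext
  exact mul_right_cancel₀ hf this

theorem ell_le_ell_sub_principal {D E : Divisor K F} {f : F} (hf : f ≠ 0)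
    (hE : ∀ v : Place K F, E v = v.ord f) : ell D ≤ ell (D - E) := by
  have := h.finiteDimensional_riemannRochSpace (D - E)
  exact LinearMap.finrank_le_finrank_of_injective (mulL_injective (D := D) hf hE)

/-- `l(D - div f) = l(D)`. -/
theorem ell_sub_principal {D E : Divisor K F} {f : F} (hf : f ≠ 0)
    (hE : ∀ v : Place K F, E v = v.ord f) : ell (D - E) = ell D := by
  apply le_antisymm
  · have hE' : ∀ v : Place K F, (-E) v = v.ord f⁻¹ := by
      intro v; rw [Finsupp.neg_apply, hE v, v.ord_inv]
    have := h.ell_le_ell_sub_principal (D := D - E) (inv_ne_zero hf) hE'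
    rwa [sub_neg_eq_add, sub_add_cancel] at this
  · exact h.ell_le_ell_sub_principal hf hE

/-- `l(D + div f) = l(D)`. -/
theorem ell_add_principal {D E : Divisor K F} {f : F} (hf : f ≠ 0)
    (hE : ∀ v : Place K F, E v = v.ord f) : ell (D + E) = ell D := by
  have hE' : ∀ v : Place K F, (-E) v = v.ord f⁻¹ := by
    intro v; rw [Finsupp.neg_apply, hE v, v.ord_inv]
  have := h.ell_sub_principal (D := D) (inv_ne_zero hf) hE'
  rwa [sub_neg_eq_add] at this

omit h in
theorem exists_ne_zero_of_ell_pos {D : Divisor K F} (hD : 0 < ell D) :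
    ∃ z : F, z ≠ 0 ∧ z ∈ riemannRochSpace D := by
  unfold ell at hD
  by_contra hcon
  push Not at hcon
  have hbot : riemannRochSpace D = ⊥ := by
    rw [eq_bot_iff]
    intro z hz
    rw [Submodule.mem_bot]
    by_contra hz0
    exact hcon z hz0 hz
  rw [hbot, finrank_bot] at hD
  exact lt_irrefl _ hD

/-! ### Riemann's inequality -/

theorem exists_riemann_bound : ∃ γ : ℤ, ∀ D : Divisor K F, Divisor.degree D - ell D ≤ γ := by
  obtain ⟨B, C, d, hB, hC, hBpos, hBd, hl⟩ := h.exists_sep
  refine ⟨Divisor.degree C - d, ?_⟩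
  -- Claim 1: multiples of `B`
  have claim1 : ∀ l : ℕ, Divisor.degree (l • B) - ell (l • B) ≤ Divisor.degree C - d := by
    intro l
    have h1 := (h.finiteDimensional_add_effective C hC (l • B)
      (h.finiteDimensional_riemannRochSpace _)).2
    have h2 := hl l
    have h3 : Divisor.degree (l • B) = l * Divisor.degree B := by
      rw [map_nsmul, nsmul_eq_mul]
    have h4 : (l : ℤ) * Divisor.degree B ≤ l * d :=
      mul_le_mul_of_nonneg_left hBd (by positivity)
    push_cast at h2
    rw [h3]
    nlinarith
  intro A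
  -- positive part
  set A1 : Divisor K F := A ⊔ 0 with hA1
  have hAA1 : A ≤ A1 := le_sup_left
  have hA10 : 0 ≤ A1 := le_sup_right
  set l : ℕ := (Divisor.degree C - d + Divisor.degree A1).toNat + 1 with hldef
  have hlbig : Divisor.degree C - d + Divisor.degree A1 < l * Divisor.degree B := by
    have h1 : Divisor.degree C - d + Divisor.degree A1
        ≤ ((Divisor.degree C - d + Divisor.degree A1).toNat : ℤ) := Int.self_le_toNat _
    have h2 : ((l : ℕ) : ℤ) ≤ l * Divisor.degree B := by
      have : (1 : ℤ) ≤ Divisor.degree B := hBpos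
      nlinarith
    rw [hldef] at h2 ⊢
    push_cast at h2 ⊢
    linarith
  have h5 : (ell (l • B) : ℤ) ≤ ell (l • B - A1) + Divisor.degree A1 := by
    have := h.ell_le_of_le (D := l • B - A1) (D' := l • B) (sub_le_self _ hA10)
    rw [map_sub] at this
    linarith
  have h6 : 0 < ell (l • B - A1) := by
    have c1 := claim1 l
    have h3 : Divisor.degree (l • B) = l * Divisor.degree B := by
      rw [map_nsmul, nsmul_eq_mul]
    rw [h3] at c1
    have : (0 : ℤ) < ell (l • B - A1) := by linarith
    exact_mod_cast this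
  obtain ⟨z, hz0, hz⟩ := exists_ne_zero_of_ell_pos h6
  obtain ⟨E, hE, hE0⟩ := h.pd.exists_divisor z hz0
  have hD'le : A1 - E ≤ l • B := by
    intro v
    have := (mem_riemannRochSpace_iff.mp hz v).resolve_left hz0
    rw [Finsupp.sub_apply] at this
    rw [Finsupp.sub_apply, hE v]
    omega
  have e1 := h.deg_sub_ell_mono hAA1
  have e2 := h.deg_sub_ell_mono hD'le
  have e3 : ell (A1 - E) = ell A1 := h.ell_sub_principal hz0 hE
  have e4 : Divisor.degree (A1 - E) = Divisor.degree A1 := by rw [map_sub, hE0, sub_zero]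
  have c1 := claim1 l
  rw [e3, e4] at e2
  linarith

/-- The maximum of `deg D - l(D) + 1`. -/
theorem exists_max_deg_sub_ell : ∃ g : ℤ, (∃ D0 : Divisor K F,
    Divisor.degree D0 - ell D0 + 1 = g) ∧ ∀ D : Divisor K F, Divisor.degree D - ell D + 1 ≤ g := by
  obtain ⟨γ, hγ⟩ := h.exists_riemann_bound
  obtain ⟨g, ⟨D0, hD0⟩, hmax⟩ := Int.exists_greatest_of_bdd
    (P := fun z => ∃ D : Divisor K F, Divisor.degree D - ell D + 1 = z)
    ⟨γ + 1, fun z ⟨D, hD⟩ => by have := hγ D; omega⟩
    ⟨_, 0, rfl⟩
  exact ⟨g, ⟨D0, hD0⟩, fun D => hmax _ ⟨D, rfl⟩⟩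

/-- The Riemann genus of `F/K`: the maximum of `deg D - l(D) + 1`. -/
def gR : ℤ := Classical.choose h.exists_max_deg_sub_ell

theorem exists_eq_gR : ∃ D0 : Divisor K F, Divisor.degree D0 - ell D0 + 1 = h.gR :=
  (Classical.choose_spec h.exists_max_deg_sub_ell).1

/-- **Riemann's inequality**: `l(D) ≥ deg D + 1 - g`. -/
theorem riemann_inequality (D : Divisor K F) : Divisor.degree D + 1 - h.gR ≤ ell D := by
  have := (Classical.choose_spec h.exists_max_deg_sub_ell).2 D
  unfold gR
  linarith

/-- **Riemann's theorem**: `l(D) = deg D + 1 - g` for `deg D` large. -/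
theorem exists_riemann_degree_bound :
    ∃ c : ℤ, ∀ D : Divisor K F, c ≤ Divisor.degree D → (ell D : ℤ) = Divisor.degree D + 1 - h.gR := by
  obtain ⟨D0, hD0⟩ := h.exists_eq_gR
  refine ⟨Divisor.degree D0 + h.gR, fun A hA => ?_⟩
  have h1 := h.riemann_inequality (A - D0)
  rw [map_sub] at h1
  have h2 : 0 < ell (A - D0) := by
    have : (0 : ℤ) < ell (A - D0) := by linarith
    exact_mod_cast this
  obtain ⟨z, hz0, hz⟩ := exists_ne_zero_of_ell_pos h2
  obtain ⟨E, hE, hE0⟩ := h.pd.exists_divisor z hz0
  have hle : D0 ≤ A + E := by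
    intro v
    have := (mem_riemannRochSpace_iff.mp hz v).resolve_left hz0
    rw [Finsupp.sub_apply] at this
    rw [Finsupp.add_apply, hE v]
    omega
  have e1 := h.deg_sub_ell_mono hle
  have e2 : ell (A + E) = ell A := h.ell_add_principal hz0 hE
  rw [e2, map_add, hE0, add_zero] at e1
  have e3 := h.riemann_inequality A
  linarith

end FFBase

end Fermat.Agent.RR.H76
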