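import Mathlib
import Fermat.Agent.RR.H76_Riemann
import Fermat.Agent.RR.H52_PlaceBasic

/-!
# RR bank (FF): degree of the pole divisor, principal divisors, `FFBase`

Stichtenoth 1.4.11: for `z` transcendental over `K`,
`deg (z)_∞ = [F : K(z)] = deg (z)_0`.  Consequences: `HasPrincipalDivisors K F`, the
`exists_sep` field of helper76's `FFBase`, and `FFBase K F` itself.

Everything is proved from ONE named hypothesis bundle `FFInputs K F`
(finite residue fields, finiteness of zeros and poles, `[F : K(z)] < ∞`,
Stichtenoth 1.3.3, existence of a pole of a transcendental element).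
Characteristic free; Mathlib + Prelude + `RR/H76_*` + `RR/H52_PlaceBasic` only.
-/

set_option autoImplicit false
set_option linter.style.haveILetI false

noncomputable section

open AlgebraicCurve WithZero IntermediateField

namespace Fermat.Agent.RR.H43

open Fermat.Agent.RR.H76

variable {K F : Type*} [Field K] [Field F] [Algebra K F]

/-- The inputs from the theory of places that this file consumes. -/
structure FFInputs (K F : Type*) [Field K] [Field F] [Algebra K F] : Prop where
  finRes : ∀ v : Place K F, Module.Finite K v.ResidueField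
  finOrd : ∀ f : F, f ≠ 0 → {v : Place K F | v.ord f ≠ 0}.Finite
  finAdj : ∀ z : F, Transcendental K z → FiniteDimensional K⟮z⟯ F
  zeroDeg : ∀ z : F, Transcendental K z → ∀ s : Finset (Place K F),
    (∀ v ∈ s, 0 < v.ord z) →
      (∑ v ∈ s, v.ord z * (v.deg : ℤ)) ≤ (Module.finrank K⟮z⟯ F : ℤ)
  existsPole : ∀ z : F, Transcendental K z → ∃ v : Place K F, v.ord z < 0
  existsTrans : ∃ t : F, Transcendental K t

/-! ### Algebraic elements have trivial divisor -/

/-- An element algebraic over `K` lies in every valuation ring containing `K`. -/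
theorem mem_valSubring_of_isAlgebraic (v : Place K F) {f : F} (hf : IsAlgebraic K f) :
    f ∈ v.toValuationSubring := by
  have hint : IsIntegral K f := hf.isIntegral
  have hint' : IsIntegral v.toValuationSubring f := hint.tower_top
  obtain ⟨a, ha⟩ := IsIntegrallyClosed.isIntegral_iff.mp hint'
  rw [← ha]
  exact a.2

/-- A nonzero element algebraic over `K` has order `0` at every place. -/
theorem ord_eq_zero_of_isAlgebraic (v : Place K F) {f : F} (hf : IsAlgebraic K f) :
    v.ord f = 0 := by
  rcases eq_or_ne f 0 with rfl | hf0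
  · simp
  have h1 := (mem_valSubring_iff v).mp (mem_valSubring_of_isAlgebraic v hf)
  have h2 := (mem_valSubring_iff v).mp (mem_valSubring_of_isAlgebraic v hf.inv)
  rw [v.ord_inv] at h2
  have h1' := h1.resolve_left hf0
  have h2' := h2.resolve_left (inv_ne_zero hf0)
  omega

/-! ### Degrees as finite sums, positive parts -/

theorem degree_eq_sum (D : Divisor K F) (s : Finset (Place K F)) (hs : D.support ⊆ s) :
    Divisor.degree D = ∑ v ∈ s, D v * (v.deg : ℤ) := by
  have h1 : Divisor.degree D = D.sum fun v n => n * (v.deg : ℤ) := by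
    simp [Divisor.degree, Finsupp.liftAddHom_apply]
  rw [h1]
  exact Finsupp.sum_of_support_subset D hs _ (fun v _ => by simp)

/-- positive part of a divisor. -/
def posD (D : Divisor K F) : Divisor K F := D.mapRange (fun n => max n 0) (by simp)

@[simp]
theorem posD_apply (D : Divisor K F) (v : Place K F) : posD D v = max (D v) 0 := by
  simp [posD]

theorem posD_nonneg (D : Divisor K F) : 0 ≤ posD D := by
  intro v
  simp

theorem posD_sub_posD_neg (D : Divisor K F) : posD D - posD (-D) = D := by
  ext v
  simp only [Finsupp.coe_sub, Pi.sub_apply, posD_apply, Finsupp.coe_neg, Pi.neg_apply]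
  rcases le_total (D v) 0 with h | h
  · rw [max_eq_right h, max_eq_left (by omega)]; omega
  · rw [max_eq_left h, max_eq_right (by omega)]; omega

theorem support_posD_subset (D : Divisor K F) : (posD D).support ⊆ D.support := by
  intro v hv
  rw [Finsupp.mem_support_iff] at hv ⊢
  intro h0
  apply hv
  simp [h0]

/-! ### `K(z⁻¹) = K(z)` -/

theorem adjoin_inv_eq (z : F) : K⟮z⁻¹⟯ = K⟮z⟯ := by
  apply le_antisymm
  · rw [adjoin_simple_le_iff]
    exact inv_mem (mem_adjoin_simple_self K z)
  · rw [adjoin_simple_le_iff]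
    have := inv_mem (mem_adjoin_simple_self K z⁻¹)
    rwa [inv_inv] at this

theorem finrank_congr_field {E E' : IntermediateField K F} (h : E = E') :
    Module.finrank E F = Module.finrank E' F := by
  subst h
  rfl

theorem finrank_adjoin_inv (z : F) : Module.finrank K⟮z⁻¹⟯ F = Module.finrank K⟮z⟯ F :=
  finrank_congr_field (adjoin_inv_eq z)

theorem transcendental_inv {z : F} (hz : Transcendental K z) : Transcendental K z⁻¹ := by
  intro h
  apply hz
  have := h.inv
  rwa [inv_inv] at this

/-- powers of a transcendental element times a `K(z)`-basis are `K`-linearly independent. -/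
theorem linearIndependent_pow_mul {z : F} (hz : Transcendental K z) {ι : Type*}
    {b : ι → F} (hb : LinearIndependent K⟮z⟯ b) :
    LinearIndependent K fun p : ℕ × ι => z ^ p.1 * b p.2 := by
  have hpow : LinearIndependent K fun i : ℕ => (AdjoinSimple.gen K z) ^ i := by
    apply LinearIndependent.of_comp (K⟮z⟯).val.toLinearMap
    have hinj : Function.Injective (Polynomial.aeval (R := K) z) :=
      transcendental_iff_injective.mp hz
    have h1 := (Polynomial.basisMonomials K).linearIndependent.map'
      (Polynomial.aeval (R := K) z).toLinearMap (LinearMap.ker_eq_bot.mpr hinj)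
    have hfun : ((K⟮z⟯).val.toLinearMap ∘ fun i : ℕ => (AdjoinSimple.gen K z) ^ i)
        = (Polynomial.aeval (R := K) z).toLinearMap ∘ (Polynomial.basisMonomials K) := by
      ext i
      simp [Polynomial.aeval_monomial]
    rw [hfun]
    exact h1
  have h2 := linearIndependent_smul hpow hb
  have hfun2 : (fun p : ℕ × ι => z ^ p.1 * b p.2)
      = fun p : ℕ × ι => (AdjoinSimple.gen K z) ^ p.1 • b p.2 := by
    ext p
    rw [Algebra.smul_def]
    simp
  rw [hfun2]
  exact h2

namespace FFInputs

variable (h : FFInputs K F)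
include h

/-- The divisor of `f` (zero for `f = 0`). -/
def divOf (f : F) : Divisor K F := by
  classical
  exact if hf : f = 0 then 0 else Finsupp.ofSupportFinite (fun v => v.ord f) (h.finOrd f hf)

@[simp]
theorem divOf_apply (f : F) (v : Place K F) : h.divOf f v = v.ord f := by
  unfold divOf
  split_ifs with hf
  · subst hf
    simp
  · rfl

theorem divOf_inv (f : F) : h.divOf f⁻¹ = -h.divOf f := by
  ext v
  simp [Place.ord_inv]

/-- the divisor of zeros of `f`. -/
def divZero (f : F) : Divisor K F := posD (h.divOf f)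

/-- the divisor of poles of `f`. -/
def divPole (f : F) : Divisor K F := posD (-h.divOf f)

theorem divZero_apply (f : F) (v : Place K F) : h.divZero f v = max (v.ord f) 0 := by
  simp [divZero]

theorem divPole_apply (f : F) (v : Place K F) : h.divPole f v = max (-v.ord f) 0 := by
  simp [divPole]

theorem divZero_nonneg (f : F) : 0 ≤ h.divZero f := posD_nonneg _

theorem divPole_nonneg (f : F) : 0 ≤ h.divPole f := posD_nonneg _

theorem divPole_eq_divZero_inv (f : F) : h.divPole f = h.divZero f⁻¹ := by
  rw [divPole, divZero, divOf_inv]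

theorem divZero_sub_divPole (f : F) : h.divZero f - h.divPole f = h.divOf f :=
  posD_sub_posD_neg _

/-- Upper bound (Stichtenoth 1.3.3): `deg (z)_0 ≤ [F : K(z)]`. -/
theorem degree_divZero_le {z : F} (hz : Transcendental K z) :
    Divisor.degree (h.divZero z) ≤ (Module.finrank K⟮z⟯ F : ℤ) := by
  classical
  rw [degree_eq_sum (h.divZero z) (h.divOf z).support (support_posD_subset _)]
  have h1 : ∑ v ∈ (h.divOf z).support, h.divZero z v * (v.deg : ℤ)
      = ∑ v ∈ (h.divOf z).support.filter (fun v => 0 < v.ord z), v.ord z * (v.deg : ℤ) := by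
    rw [Finset.sum_filter]
    refine Finset.sum_congr rfl fun v _ => ?_
    rw [divZero_apply]
    split_ifs with hv
    · rw [max_eq_left hv.le]
    · rw [max_eq_right (not_lt.mp hv), zero_mul]
  rw [h1]
  exact h.zeroDeg z hz _ (fun v hv => (Finset.mem_filter.mp hv).2)

theorem degree_divPole_le {z : F} (hz : Transcendental K z) :
    Divisor.degree (h.divPole z) ≤ (Module.finrank K⟮z⟯ F : ℤ) := by
  rw [divPole_eq_divZero_inv, ← finrank_adjoin_inv z]
  exact h.degree_divZero_le (transcendental_inv hz)

/-! ### `L(0)` = constants, finite-dimensional -/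

theorem exists_place : Nonempty (Place K F) := by
  obtain ⟨t, ht⟩ := h.existsTrans
  obtain ⟨v, -⟩ := h.existsPole t ht
  exact ⟨v⟩

theorem isAlgebraic_of_mem_L0 {f : F} (hf : f ∈ riemannRochSpace (0 : Divisor K F)) :
    IsAlgebraic K f := by
  by_contra hna
  have hz : Transcendental K f := hna
  obtain ⟨v, hv⟩ := h.existsPole f hz
  have hf0 : f ≠ 0 := by
    rintro rfl
    exact hz (isAlgebraic_zero)
  have := (mem_riemannRochSpace_iff.mp hf v).resolve_left hf0
  simp only [Finsupp.coe_zero, Pi.zero_apply, neg_zero] at this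
  omega

omit h in
theorem mem_L0_of_isAlgebraic {f : F} (hf : IsAlgebraic K f) :
    f ∈ riemannRochSpace (0 : Divisor K F) := by
  rw [mem_riemannRochSpace_iff]
  intro v
  right
  rw [ord_eq_zero_of_isAlgebraic v hf]
  simp

omit h in
theorem mem_valSubring_of_mem_L {D : Divisor K F} {f : F} (hf : f ∈ riemannRochSpace D)
    (v : Place K F) (hv : D v ≤ 0) : f ∈ v.toValuationSubring := by
  rw [mem_valSubring_iff]
  rcases (mem_riemannRochSpace_iff.mp hf v) with h0 | h1
  · exact Or.inl h0
  · right
    omega

omit h in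
/-- the residue map `L(0) → κ(v)`. -/
def resL0 (v : Place K F) : ↥(riemannRochSpace (0 : Divisor K F)) →ₗ[K] v.ResidueField where
  toFun f := resTot v f.1
  map_add' f g := resTot_add v (mem_valSubring_of_mem_L f.2 v (by simp))
    (mem_valSubring_of_mem_L g.2 v (by simp))
  map_smul' c f := resTot_smul v c (mem_valSubring_of_mem_L f.2 v (by simp))

theorem resL0_injective (v : Place K F) : Function.Injective (resL0 v) := by
  rw [← LinearMap.ker_eq_bot, LinearMap.ker_eq_bot']
  intro f hf
  have hmem := mem_valSubring_of_mem_L f.2 v (by simp)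
  have h1 : resTot v f.1 = 0 := hf
  rw [resTot_eq_zero_iff v hmem] at h1
  rcases h1 with h1 | h1
  · exact Subtype.ext h1
  · have := ord_eq_zero_of_isAlgebraic v (h.isAlgebraic_of_mem_L0 f.2)
    omega

theorem finiteDimensional_L0 : FiniteDimensional K ↥(riemannRochSpace (0 : Divisor K F)) := by
  obtain ⟨v⟩ := h.exists_place
  have := h.finRes v
  exact Module.Finite.of_injective (resL0 v) (h.resL0_injective v)

/-- adding an effective divisor: finiteness and the dimension bound (only `finRes` is used). -/
theorem finiteDimensional_add_effective (E : Divisor K F) (hE : 0 ≤ E) :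
    ∀ D : Divisor K F, FiniteDimensional K ↥(riemannRochSpace D) →
      FiniteDimensional K ↥(riemannRochSpace (D + E)) ∧
        (ell (D + E) : ℤ) ≤ ell D + Divisor.degree E := by
  refine effective_induction (p := fun E => ∀ D : Divisor K F,
      FiniteDimensional K ↥(riemannRochSpace D) →
      FiniteDimensional K ↥(riemannRochSpace (D + E)) ∧
        (ell (D + E) : ℤ) ≤ ell D + Divisor.degree E) ?_ ?_ E hE
  · intro D hD
    rw [add_zero, map_zero, add_zero]
    exact ⟨hD, le_rfl⟩
  · intro E P _ ih D hD
    obtain ⟨hfd, hle⟩ := ih D hD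
    obtain ⟨t, ht, ht1⟩ := exists_uniformizer P
    have := h.finRes P
    have := hfd
    have e : D + addP E P = addP (D + E) P := by
      simp only [addP, add_assoc]
    rw [e]
    refine ⟨finiteDimensional_add_single (D + E) P ht ht1, ?_⟩
    have h1 := ell_add_single_le (D + E) P ht ht1
    rw [degree_addP]
    have h2 : ((ell (addP (D + E) P) : ℕ) : ℤ) ≤ ((ell (D + E) + P.deg : ℕ) : ℤ) := by
      exact_mod_cast h1
    push_cast at h2
    linarith

theorem finiteDimensional_of_nonneg {E : Divisor K F} (hE : 0 ≤ E) :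
    FiniteDimensional K ↥(riemannRochSpace E) := by
  have := (h.finiteDimensional_add_effective E hE 0 h.finiteDimensional_L0).1
  rwa [zero_add] at this

theorem ell_le_of_nonneg {E : Divisor K F} (hE : 0 ≤ E) :
    (ell E : ℤ) ≤ ell (0 : Divisor K F) + Divisor.degree E := by
  have := (h.finiteDimensional_add_effective E hE 0 h.finiteDimensional_L0).2
  rwa [zero_add] at this

/-! ### The lower bound `[F : K(z)] ≤ deg (z)_∞` -/

/-- sum of the pole divisors of a finite family. -/
def poleSum {ι : Type*} [Fintype ι] (b : ι → F) : Divisor K F := ∑ j, h.divPole (b j)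

theorem poleSum_nonneg {ι : Type*} [Fintype ι] (b : ι → F) : 0 ≤ h.poleSum b :=
  Finset.sum_nonneg fun j _ => h.divPole_nonneg (b j)

theorem neg_ord_le_poleSum {ι : Type*} [Fintype ι] (b : ι → F) (j : ι) (v : Place K F) :
    -v.ord (b j) ≤ h.poleSum b v := by
  classical
  have h1 : h.divPole (b j) ≤ h.poleSum b :=
    Finset.single_le_sum (f := fun j => h.divPole (b j))
      (fun i _ => h.divPole_nonneg (b i)) (Finset.mem_univ j)
  have h2 := h1 v
  rw [divPole_apply] at h2
  exact (le_max_left _ _).trans h2

omit h in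
theorem ord_pow (v : Place K F) (f : F) (n : ℕ) : v.ord (f ^ n) = n * v.ord f := by
  have := v.ord_zpow f (n : ℤ)
  rwa [zpow_natCast] at this

theorem pow_mul_mem_L {ι : Type*} [Fintype ι] (b : ι → F) {z : F} (l i : ℕ) (hi : i ≤ l)
    (j : ι) :
    z ^ i * b j ∈ riemannRochSpace (l • h.divPole z + h.poleSum b) := by
  rw [mem_riemannRochSpace_iff]
  intro v
  rcases eq_or_ne (z ^ i * b j) 0 with h0 | h0
  · exact Or.inl h0
  right
  have hz0 : z ^ i ≠ 0 := left_ne_zero_of_mul h0
  have hb0 : b j ≠ 0 := right_ne_zero_of_mul h0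
  rw [v.ord_mul hz0 hb0, ord_pow]
  have h1 := h.neg_ord_le_poleSum b j v
  have h2 : (l • h.divPole z + h.poleSum b) v
      = (l : ℤ) * max (-v.ord z) 0 + h.poleSum b v := by
    simp [divPole_apply]
  rw [h2]
  have h3 : (0 : ℤ) ≤ max (-v.ord z) 0 := le_max_right _ _
  have h4 : -v.ord z ≤ max (-v.ord z) 0 := le_max_left _ _
  have h5 : (i : ℤ) ≤ l := by exact_mod_cast hi
  have h6 : (i : ℤ) * (-v.ord z) ≤ (l : ℤ) * max (-v.ord z) 0 := by
    calc (i : ℤ) * (-v.ord z) ≤ (i : ℤ) * max (-v.ord z) 0 :=
          mul_le_mul_of_nonneg_left h4 (by positivity)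
      _ ≤ (l : ℤ) * max (-v.ord z) 0 := mul_le_mul_of_nonneg_right h5 h3
  linarith

theorem mul_finrank_le_ell {z : F} (hz : Transcendental K z) (l : ℕ) :
    haveI := h.finAdj z hz
    (l + 1) * Module.finrank K⟮z⟯ F
      ≤ ell (l • h.divPole z + h.poleSum (Module.finBasis K⟮z⟯ F)) := by
  haveI := h.finAdj z hz
  set b := Module.finBasis K⟮z⟯ F with hb
  have hE : (0 : Divisor K F) ≤ l • h.divPole z + h.poleSum b :=
    add_nonneg (smul_nonneg (Nat.zero_le l) (h.divPole_nonneg z)) (h.poleSum_nonneg b)
  haveI := h.finiteDimensional_of_nonneg hE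
  -- the family `z^i b_j`, `i ≤ l`
  let w : Fin (l + 1) × Fin (Module.finrank K⟮z⟯ F) →
      ↥(riemannRochSpace (l • h.divPole z + h.poleSum b)) := fun p =>
    ⟨z ^ (p.1 : ℕ) * b p.2, h.pow_mul_mem_L b l p.1 (Nat.lt_succ_iff.mp p.1.2) p.2⟩
  have hw : LinearIndependent K w := by
    apply LinearIndependent.of_comp (Submodule.subtype _)
    have h1 := linearIndependent_pow_mul hz b.linearIndependent
    have h2 := h1.comp (fun p : Fin (l + 1) × Fin (Module.finrank K⟮z⟯ F) => ((p.1 : ℕ), p.2))
      (by
        intro p q hpq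
        simp only [Prod.mk.injEq] at hpq
        exact Prod.ext (Fin.ext hpq.1) hpq.2)
    exact h2
  have := hw.fintype_card_le_finrank
  simpa [ell] using this

theorem finrank_le_degree_divPole {z : F} (hz : Transcendental K z) :
    (Module.finrank K⟮z⟯ F : ℤ) ≤ Divisor.degree (h.divPole z) := by
  haveI := h.finAdj z hz
  by_contra hlt
  rw [not_le] at hlt
  set n : ℤ := (Module.finrank K⟮z⟯ F : ℤ) with hn
  set C := h.poleSum (Module.finBasis K⟮z⟯ F) with hC
  set c : ℤ := Divisor.degree C with hc
  set e0 : ℤ := (ell (0 : Divisor K F) : ℤ) with he0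
  have hc0 : 0 ≤ c := degree_nonneg_of_nonneg (h.poleSum_nonneg _)
  have key : ∀ l : ℕ, (l : ℤ) + n ≤ e0 + c := by
    intro l
    have h1 := h.mul_finrank_le_ell hz l
    have hE : (0 : Divisor K F) ≤ l • h.divPole z + C :=
      add_nonneg (smul_nonneg (Nat.zero_le l) (h.divPole_nonneg z)) (h.poleSum_nonneg _)
    have h2 := h.ell_le_of_nonneg hE
    rw [map_add, map_nsmul] at h2
    have h1' : ((l : ℤ) + 1) * n ≤ (ell (l • h.divPole z + C) : ℤ) := by
      have : (((l + 1) * Module.finrank K⟮z⟯ F : ℕ) : ℤ) ≤ (ell (l • h.divPole z + C) : ℤ) := by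
        exact_mod_cast h1
      push_cast at this
      exact this
    have h3 : (l : ℤ) * Divisor.degree (h.divPole z) ≤ (l : ℤ) * (n - 1) :=
      mul_le_mul_of_nonneg_left (by omega) (by positivity)
    rw [nsmul_eq_mul] at h2
    nlinarith
  have := key ((e0 + c).toNat + 1)
  have h4 : e0 + c ≤ ((e0 + c).toNat : ℤ) := Int.self_le_toNat _
  have hn0 : 0 ≤ n := by positivity
  push_cast at this
  omega

/-- **Stichtenoth 1.4.11**, poles. -/
theorem degree_divPole_eq {z : F} (hz : Transcendental K z) :
    Divisor.degree (h.divPole z) = (Module.finrank K⟮z⟯ F : ℤ) :=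
  le_antisymm (h.degree_divPole_le hz) (h.finrank_le_degree_divPole hz)

/-- **Stichtenoth 1.4.11**, zeros. -/
theorem degree_divZero_eq {z : F} (hz : Transcendental K z) :
    Divisor.degree (h.divZero z) = (Module.finrank K⟮z⟯ F : ℤ) := by
  have h1 := h.degree_divPole_eq (transcendental_inv hz)
  rw [divPole_eq_divZero_inv, inv_inv, finrank_adjoin_inv] at h1
  exact h1

theorem degree_divOf (f : F) : Divisor.degree (h.divOf f) = 0 := by
  by_cases hf : IsAlgebraic K f
  · have : h.divOf f = 0 := by
      ext v
      rw [divOf_apply, ord_eq_zero_of_isAlgebraic v hf]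
      rfl
    rw [this, map_zero]
  · have hz : Transcendental K f := hf
    rw [← h.divZero_sub_divPole, map_sub, h.degree_divZero_eq hz, h.degree_divPole_eq hz,
      sub_self]

/-- **Principal divisors exist and have degree zero.** -/
theorem hasPrincipalDivisors : HasPrincipalDivisors K F :=
  ⟨fun f _ => ⟨h.divOf f, fun v => h.divOf_apply f v, h.degree_divOf f⟩⟩

/-- the `exists_sep` field of `FFBase`. -/
theorem exists_sep : ∃ (B C : Divisor K F) (d : ℕ), 0 ≤ B ∧ 0 ≤ C ∧ 0 < Divisor.degree B ∧
    Divisor.degree B ≤ d ∧ ∀ l : ℕ, (((l + 1) * d : ℕ) : ℤ) ≤ ell (l • B + C) := by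
  obtain ⟨z, hz⟩ := h.existsTrans
  haveI := h.finAdj z hz
  refine ⟨h.divPole z, h.poleSum (Module.finBasis K⟮z⟯ F), Module.finrank K⟮z⟯ F,
    h.divPole_nonneg z, h.poleSum_nonneg _, ?_, (h.degree_divPole_eq hz).le, ?_⟩
  · rw [h.degree_divPole_eq hz]
    exact_mod_cast Module.finrank_pos
  · intro l
    exact_mod_cast h.mul_finrank_le_ell hz l

/-- **The bundle consumed by helper76's Riemann-Roch bank.** -/
theorem ffBase : FFBase K F :=
  ⟨h.finRes, h.finOrd, h.hasPrincipalDivisors, h.exists_sep⟩

/-- constants: all orders vanish iff algebraic over `K`. -/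
theorem forall_ord_eq_zero_iff_isAlgebraic {f : F} :
    (∀ v : Place K F, v.ord f = 0) ↔ IsAlgebraic K f := by
  constructor
  · intro hf
    apply h.isAlgebraic_of_mem_L0
    rw [mem_riemannRochSpace_iff]
    intro v
    right
    rw [hf v]
    simp
  · intro hf v
    exact ord_eq_zero_of_isAlgebraic v hf

theorem ell_zero_le_deg (v : Place K F) : ell (0 : Divisor K F) ≤ v.deg := by
  haveI := h.finRes v
  exact LinearMap.finrank_le_finrank_of_injective (h.resL0_injective v)

end FFInputs

end Fermat.Agent.RR.H43
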