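import Mathlib
import Fermat.Agent.RR.H52_PlaceBasic

set_option autoImplicit false

/-!
# Linear independence over `K⟮x⟯` from a "constant coefficient" criterion

(S18 / RR-general-function-fields, helper52.)  Mathlib + Prelude only, characteristic free.

The common engine of Stichtenoth 1.1.7 (chains in a valuation ring) and 1.3.3 (zero degree):
if for every polynomial relation `∑ Qᵢ(x) yᵢ = 0` all constant coefficients vanish, then the
`yᵢ` are linearly independent over `K⟮x⟯`.
-/

noncomputable section

open Polynomial IntermediateField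

namespace Fermat.Agent.RR.H52

variable {K F : Type*} [Field K] [Field F] [Algebra K F]

/-- If every polynomial relation has vanishing constant coefficients, every polynomial relation
is trivial. -/
theorem poly_rel_eq_zero {x : F} (hx : x ≠ 0) {ι : Type*} [Fintype ι] (y : ι → F)
    (H : ∀ Q : ι → K[X], ∑ i, aeval x (Q i) * y i = 0 → ∀ i, (Q i).coeff 0 = 0)
    (P : ι → K[X]) (hP : ∑ i, aeval x (P i) * y i = 0) : ∀ i, P i = 0 := by
  suffices h : ∀ n : ℕ, ∀ P : ι → K[X], (∀ i, (P i).natDegree ≤ n) →
      ∑ i, aeval x (P i) * y i = 0 → ∀ i, P i = 0 by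
    exact h (Finset.univ.sup fun i => (P i).natDegree) P
      (fun i => Finset.le_sup (f := fun i => (P i).natDegree) (Finset.mem_univ i)) hP
  intro n
  induction n with
  | zero =>
    intro P hdeg hP i
    have h0 := H P hP i
    rw [Polynomial.eq_C_of_natDegree_le_zero (hdeg i), h0, map_zero]
  | succ n ih =>
    intro P hdeg hP
    have h0 := H P hP
    have hdiv : ∀ i, P i = divX (P i) * X := fun i => by
      conv_lhs => rw [← divX_mul_X_add (P i), h0 i, map_zero, add_zero]
    have hP' : ∑ i, aeval x (divX (P i)) * y i = 0 := by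
      have h1 : x * ∑ i, aeval x (divX (P i)) * y i = 0 := by
        rw [Finset.mul_sum, ← hP]
        refine Finset.sum_congr rfl fun i _ => ?_
        conv_rhs => rw [hdiv i]
        rw [map_mul, aeval_X]; ring
      exact (mul_eq_zero.mp h1).resolve_left hx
    have h2 := ih (fun i => divX (P i)) (fun i => by
      rw [natDegree_divX_eq_natDegree_tsub_one]; have := hdeg i; omega) hP'
    intro i
    rw [hdiv i, h2 i, zero_mul]

open scoped IntermediateField.algebraAdjoinAdjoin in
/-- The constant-coefficient criterion for linear independence over `K⟮x⟯`. -/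
theorem linearIndependent_adjoin_simple {x : F} (hx : x ≠ 0) {ι : Type*} [Fintype ι] (y : ι → F)
    (H : ∀ Q : ι → K[X], ∑ i, aeval x (Q i) * y i = 0 → ∀ i, (Q i).coeff 0 = 0) :
    LinearIndependent K⟮x⟯ y := by
  rw [← LinearIndependent.iff_fractionRing (Algebra.adjoin K {x}) K⟮x⟯]
  rw [Fintype.linearIndependent_iff]
  intro g hg i
  have hmem : ∀ i, ∃ P : K[X], aeval x P = (g i : F) := fun i => by
    have h : (g i : F) ∈ (aeval (R := K) x).range := by
      rw [← Algebra.adjoin_singleton_eq_range_aeval]; exact (g i).2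
    exact h
  choose P hPdef using hmem
  have h3 := poly_rel_eq_zero hx y H P (by
    rw [← hg]
    refine Finset.sum_congr rfl fun i _ => ?_
    rw [hPdef i]; rfl)
  apply Subtype.ext
  rw [← hPdef i, h3 i, map_zero]; rfl

/-- Cardinality bound from the constant-coefficient criterion. -/
theorem card_le_finrank_adjoin_simple {x : F} (hx : x ≠ 0) [FiniteDimensional K⟮x⟯ F]
    {ι : Type*} [Fintype ι] (y : ι → F)
    (H : ∀ Q : ι → K[X], ∑ i, aeval x (Q i) * y i = 0 → ∀ i, (Q i).coeff 0 = 0) :
    Fintype.card ι ≤ Module.finrank K⟮x⟯ F :=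
  (linearIndependent_adjoin_simple hx y H).fintype_card_le_finrank

/-! ### Valuation estimates for polynomial expressions -/

section Val

variable {Γ : Type*} [LinearOrderedCommGroupWithZero Γ] (w : Valuation F Γ)

/-- If `w` is trivial on `K` (at most `1`) and `w x ≤ 1` then `w (P(x)) ≤ 1`. -/
theorem val_aeval_le_one (hK : ∀ a : K, w (algebraMap K F a) ≤ 1) {x : F} (hx : w x ≤ 1)
    (P : K[X]) : w (aeval x P) ≤ 1 := by
  rw [aeval_eq_sum_range]
  refine w.map_sum_le fun i _ => ?_
  rw [Algebra.smul_def, map_mul, map_pow]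
  exact mul_le_one' (hK _) (pow_le_one' hx i)

/-- `P(x) - P(0)` is divisible by `x` with integral quotient. -/
theorem val_aeval_sub_coeff_le (hK : ∀ a : K, w (algebraMap K F a) ≤ 1) {x : F} (hx : w x ≤ 1)
    (P : K[X]) : w (aeval x P - algebraMap K F (P.coeff 0)) ≤ w x := by
  have h : aeval x P - algebraMap K F (P.coeff 0) = x * aeval x (divX P) := by
    conv_lhs => rw [← divX_mul_X_add P]
    simp only [map_add, map_mul, aeval_X, aeval_C, coeff_add, coeff_C_zero, mul_coeff_zero,
      coeff_X_zero, mul_zero, zero_add]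
    ring
  rw [h, map_mul]
  calc w x * w (aeval x (divX P)) ≤ w x * 1 :=
        mul_le_mul' le_rfl (val_aeval_le_one w hK hx _)
    _ = w x := mul_one _

end Val

end Fermat.Agent.RR.H52
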