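import Mathlib
import Fermat.Agent.RR.H52_PolyIndep

set_option autoImplicit false

/-!
# Valuation rings of a function field are discrete; existence of places

(S18 / RR-general-function-fields, helper52.)  Mathlib + Prelude only, characteristic free
(Stichtenoth 1.1.6, 1.1.7, 1.1.19, 1.1.20).

Setting: `F/K` with `t : F` transcendental over `K` and `F/K(t)` finite.
-/

noncomputable section

open Polynomial IntermediateField AlgebraicCurve

namespace Fermat.Agent.RR.H52

universe u v

variable {K : Type u} {F : Type v} [Field K] [Field F] [Algebra K F]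

/-! ### Exchange of the separating variable -/

/-- Exchange: if `F/K(x)` is algebraic with `x` transcendental, then `F/K(y)` is algebraic for
every transcendental `y`. -/
theorem isAlgebraic_adjoin_of_transcendental (x : F) (hx : Transcendental K x)
    [Algebra.IsAlgebraic K⟮x⟯ F] {y : F} (hy : Transcendental K y) :
    Algebra.IsAlgebraic K⟮y⟯ F := by
  have hxi : AlgebraicIndependent K (fun _ : PUnit.{v + 1} => x) :=
    algebraicIndependent_unique_type_iff.mpr hx
  have hyi : AlgebraicIndependent K (fun _ : PUnit.{v + 1} => y) :=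
    algebraicIndependent_unique_type_iff.mpr hy
  have hxb : IsTranscendenceBasis K (fun _ : PUnit.{v + 1} => x) := by
    rw [hxi.isTranscendenceBasis_iff_isAlgebraic]
    have hr : Set.range (fun _ : PUnit.{v + 1} => x) = {x} := by
      ext z; simp
    rw [hr]
    open algebraAdjoinAdjoin in
    exact Algebra.IsAlgebraic.trans (Algebra.adjoin K {x}) K⟮x⟯ F
  have htr : Algebra.trdeg K F = 1 := by
    rw [← hxb.cardinalMk_eq_trdeg]; simp
  have hyb : IsTranscendenceBasis K (fun _ : PUnit.{v + 1} => y) :=
    hyi.isTranscendenceBasis_of_trdeg_le_of_finite (by rw [htr]; simp)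
  have := hyb.isAlgebraic_field
  have hr : Set.range (fun _ : PUnit.{v + 1} => y) = {y} := by
    ext z; simp
  rwa [hr] at this

/-- If `F/K(t)` is finite with `t` transcendental, then `F/K(f)` is finite for every
transcendental `f`. -/
theorem finiteDimensional_adjoin_of_transcendental (t : F) [FiniteDimensional K⟮t⟯ F]
    (ht : Transcendental K t) {f : F} (hf : Transcendental K f) :
    FiniteDimensional K⟮f⟯ F := by
  have halg : Algebra.IsAlgebraic K⟮f⟯ F :=
    isAlgebraic_adjoin_of_transcendental t ht hf
  have hint : IsIntegral K⟮f⟯ t := (Algebra.IsAlgebraic.isAlgebraic t).isIntegral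
  let E : IntermediateField K⟮f⟯ F := K⟮f⟯⟮t⟯
  have h1 : FiniteDimensional K⟮f⟯ E := IntermediateField.adjoin.finiteDimensional hint
  have hle : K⟮t⟯ ≤ E.restrictScalars K := by
    rw [IntermediateField.adjoin_simple_le_iff]
    exact IntermediateField.mem_adjoin_simple_self K⟮f⟯ t
  letI : Algebra K⟮t⟯ E :=
    ((algebraMap K⟮t⟯ F).codRestrict E (fun x => hle x.2)).toAlgebra
  have : IsScalarTower K⟮t⟯ E F := IsScalarTower.of_algebraMap_eq (fun x => rfl)
  have h2 : FiniteDimensional E F := Module.Finite.of_restrictScalars_finite K⟮t⟯ E F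
  exact Module.Finite.trans E F

theorem transcendental_inv' {z : F} (hz : Transcendental K z) : Transcendental K z⁻¹ := by
  intro h
  apply hz
  have := h.inv
  rwa [inv_inv] at this

/-! ### Valuation subrings containing `K` -/

section ValSub

variable (O : ValuationSubring F) (hK : ∀ a : K, algebraMap K F a ∈ O)
include hK

/-- Elements algebraic over `K` lie in every valuation subring containing `K`. -/
theorem mem_valuationSubring_of_isAlgebraic {g : F} (hg : IsAlgebraic K g) : g ∈ O := by
  letI : Algebra K O := ((algebraMap K F).codRestrict O.toSubring hK).toAlgebra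
  have : IsScalarTower K O F := IsScalarTower.of_algebraMap_eq fun a => rfl
  have h1 : IsIntegral K g := hg.isIntegral
  have h2 : IsIntegral O g := h1.tower_top
  obtain ⟨y, hy⟩ := IsIntegrallyClosed.algebraMap_eq_of_integral h2
  rw [← hy]
  exact y.2

theorem valuation_algebraMap_le_one (a : K) : O.valuation (algebraMap K F a) ≤ 1 :=
  (O.valuation_le_one_iff _).mpr (hK a)

theorem valuation_algebraMap_eq_one {a : K} (ha : a ≠ 0) : O.valuation (algebraMap K F a) = 1 := by
  apply le_antisymm (valuation_algebraMap_le_one O hK a)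
  have h := valuation_algebraMap_le_one O hK a⁻¹
  rw [map_inv₀, map_inv₀] at h
  have h0 : O.valuation (algebraMap K F a) ≠ 0 :=
    (Valuation.ne_zero_iff _).mpr (by simpa using ha)
  rwa [inv_le_one₀ (zero_lt_iff.mpr h0)] at h

/-- A nonzero nonunit of a valuation subring containing `K` is transcendental over `K`. -/
theorem transcendental_of_mem_nonunits {x : F} (hx0 : x ≠ 0) (hx : x ∈ O.nonunits) :
    Transcendental K x := by
  intro halg
  have h1 := mem_valuationSubring_of_isAlgebraic O hK halg.inv
  rcases (O.mem_nonunits_iff_or).mp hx with h | h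
  · exact hx0 h
  · exact h h1

/-- Stichtenoth 1.1.7: a strictly increasing chain of nonunits above `x` has length at most
`[F : K(x)]`. -/
theorem chain_card_le {x : F} (hx0 : x ≠ 0) [FiniteDimensional K⟮x⟯ F] (n : ℕ) (y : Fin n → F)
    (hmono : StrictMono fun i => O.valuation (y i)) (hlt : ∀ i, O.valuation (y i) < 1)
    (hle : ∀ i, O.valuation x ≤ O.valuation (y i)) : n ≤ Module.finrank K⟮x⟯ F := by
  have key := card_le_finrank_adjoin_simple (K := K) hx0 y ?_
  · simpa using key
  intro Q hQ
  by_contra hne
  push_neg at hne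
  set w := O.valuation with hw
  classical
  let S : Finset (Fin n) := Finset.univ.filter fun i => (Q i).coeff 0 ≠ 0
  have hS : S.Nonempty := by
    obtain ⟨i, hi⟩ := hne
    exact ⟨i, Finset.mem_filter.mpr ⟨Finset.mem_univ _, hi⟩⟩
  set j := S.max' hS with hjdef
  have hj : (Q j).coeff 0 ≠ 0 := (Finset.mem_filter.mp (S.max'_mem hS)).2
  have hjmax : ∀ i, j < i → (Q i).coeff 0 = 0 := fun i hi => by
    by_contra h
    exact absurd (S.le_max' i (Finset.mem_filter.mpr ⟨Finset.mem_univ _, h⟩)) (not_le.mpr hi)
  have hwx : w x < 1 := lt_of_le_of_lt (hle j) (hlt j)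
  have hwx0 : w x ≠ 0 := (Valuation.ne_zero_iff _).mpr hx0
  have hyj0 : w (y j) ≠ 0 := fun h => hwx0 (le_zero_iff.mp (h ▸ hle j))
  have hK1 : ∀ a : K, w (algebraMap K F a) ≤ 1 := valuation_algebraMap_le_one O hK
  have hcj : w (algebraMap K F ((Q j).coeff 0)) = 1 := valuation_algebraMap_eq_one O hK hj
  have hterm_j : w (aeval x (Q j) * y j) = w (y j) := by
    have h1 : w (aeval x (Q j)) = 1 := by
      have h2 := val_aeval_sub_coeff_le w hK1 hwx.le (Q j)
      have h3 : aeval x (Q j) = algebraMap K F ((Q j).coeff 0) +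
          (aeval x (Q j) - algebraMap K F ((Q j).coeff 0)) := by ring
      rw [h3, Valuation.map_add_eq_of_lt_left, hcj]
      rw [hcj]
      exact lt_of_le_of_lt h2 hwx
    rw [map_mul, h1, one_mul]
  have hother : ∀ i ∈ Finset.univ.erase j, w (aeval x (Q i) * y i) < w (y j) := by
    intro i hi
    have hij : i ≠ j := Finset.ne_of_mem_erase hi
    rw [map_mul]
    rcases lt_or_gt_of_ne hij with h | h
    · calc w (aeval x (Q i)) * w (y i) ≤ 1 * w (y i) :=
            mul_le_mul' (val_aeval_le_one w hK1 hwx.le _) le_rfl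
        _ = w (y i) := one_mul _
        _ < w (y j) := hmono h
    · have h0 := hjmax i h
      have h2 := val_aeval_sub_coeff_le w hK1 hwx.le (Q i)
      rw [h0, map_zero, sub_zero] at h2
      calc w (aeval x (Q i)) * w (y i) ≤ w x * w (y i) := mul_le_mul' h2 le_rfl
        _ < w x * 1 := mul_lt_mul_of_pos_left (hlt i) (zero_lt_iff.mpr hwx0)
        _ = w x := mul_one _
        _ ≤ w (y j) := hle j
  have hsum := w.map_sum_lt hyj0 hother
  have hsplit : aeval x (Q j) * y j = - ∑ i ∈ Finset.univ.erase j, aeval x (Q i) * y i := by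
    rw [eq_neg_iff_add_eq_zero,
      Finset.add_sum_erase _ (fun i => aeval x (Q i) * y i) (Finset.mem_univ j)]
    exact hQ
  rw [← hterm_j, hsplit, Valuation.map_neg] at hsum
  exact lt_irrefl _ hsum

/-- Stichtenoth 1.1.6: every valuation subring of `F` containing `K` is a principal ideal ring
(hence a discrete valuation ring unless it is `F`). -/
theorem isPrincipalIdealRing_of_valuationSubring (t : F) (ht : Transcendental K t)
    [FiniteDimensional K⟮t⟯ F] : IsPrincipalIdealRing O := by
  have hwf : WfDvdMonoid O := by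
    refine ⟨wellFounded_iff_isEmpty_descending_chain.mpr ⟨fun ⟨f, hf⟩ => ?_⟩⟩
    set w := O.valuation with hw
    have hne : ∀ n, f (n + 1) ≠ 0 := fun n => (hf n).1
    have hneF : ∀ n, ((f (n + 1) : O) : F) ≠ 0 := fun n => by
      simpa using hne n
    have hstep : ∀ n, w (f n : F) < w (f (n + 1) : F) := by
      intro n
      obtain ⟨-, u, hu, huf⟩ := hf n
      have hu1 : w (u : F) < 1 := by
        rcases O.valuation_lt_one_or_eq_one u with h | h
        · exact h
        · exact absurd ((O.valuation_eq_one_iff u).mpr h) hu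
      have h1 : (f n : F) = (f (n + 1) : F) * (u : F) := by
        rw [huf]; rfl
      rw [h1, map_mul]
      calc w (f (n + 1) : F) * w (u : F) < w (f (n + 1) : F) * 1 :=
            mul_lt_mul_of_pos_left hu1 (zero_lt_iff.mpr ((Valuation.ne_zero_iff _).mpr (hneF n)))
        _ = _ := mul_one _
    have hmono : StrictMono fun n => w (f n : F) := strictMono_nat_of_lt_succ hstep
    have hlt1 : ∀ n, w (f n : F) < 1 := fun n =>
      lt_of_lt_of_le (hstep n) (O.valuation_le_one _)
    have hx0 : ((f 1 : O) : F) ≠ 0 := hneF 0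
    have hxtr : Transcendental K ((f 1 : O) : F) :=
      transcendental_of_mem_nonunits O hK hx0 (O.mem_nonunits_iff.mpr (hlt1 1))
    have := finiteDimensional_adjoin_of_transcendental t ht hxtr
    have key := chain_card_le O hK hx0 (Module.finrank K⟮((f 1 : O) : F)⟯ F + 1)
      (fun i => ((f (i.1 + 1) : O) : F)) ?_ ?_ ?_
    · omega
    · intro a b hab
      exact hmono (by simpa using hab)
    · intro i
      exact hlt1 _
    · intro i
      exact hmono.monotone (by omega : 1 ≤ i.1 + 1)
  exact ((IsBezout.TFAE (R := O)).out 1 3).mpr hwf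

end ValSub

/-- A proper valuation subring of `F` containing `K` is a place. -/
def placeOfValuationSubring (t : F) (ht : Transcendental K t) [FiniteDimensional K⟮t⟯ F]
    (O : ValuationSubring F) (hK : ∀ a : K, algebraMap K F a ∈ O) (hO : O ≠ ⊤) : Place K F :=
  ⟨O, hK, hO, isPrincipalIdealRing_of_valuationSubring O hK t ht⟩

@[simp]
theorem placeOfValuationSubring_toValuationSubring (t : F) (ht : Transcendental K t)
    [FiniteDimensional K⟮t⟯ F] (O : ValuationSubring F) (hK : ∀ a : K, algebraMap K F a ∈ O)
    (hO : O ≠ ⊤) : (placeOfValuationSubring t ht O hK hO).toValuationSubring = O := rfl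

/-! ### Existence of zeros and poles -/

section Exist

variable (t : F) (ht : Transcendental K t) [FiniteDimensional K⟮t⟯ F]
include ht

/-- Stichtenoth 1.1.20 (zeros): a transcendental element has a zero. -/
theorem exists_place_val_lt_one {z : F} (hz : Transcendental K z) :
    ∃ v : Place K F, v.adicValuation z < 1 := by
  have hz0 : z ≠ 0 := fun h => hz (h ▸ isAlgebraic_zero)
  let A : Subring F := (Algebra.adjoin K {z}).toSubring
  have hzA : z ∈ A := Algebra.self_mem_adjoin_singleton K z
  have hI : Ideal.span {(⟨z, hzA⟩ : A)} ≠ ⊤ := by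
    rw [ne_eq, Ideal.span_singleton_eq_top]
    intro hu
    obtain ⟨g, hg⟩ := hu.exists_right_inv
    have hgmem : (g : F) ∈ (aeval (R := K) z).range := by
      rw [← Algebra.adjoin_singleton_eq_range_aeval]; exact g.2
    obtain ⟨P, hP⟩ := hgmem
    replace hP : aeval z P = (g : F) := hP
    have h1 : aeval z (X * P - 1 : K[X]) = 0 := by
      rw [map_sub, map_mul, aeval_X, map_one, hP]
      have := congrArg (Subtype.val) hg
      simpa using sub_eq_zero.mpr this
    have h2 : (X * P - 1 : K[X]) = 0 := by
      by_contra h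
      exact hz ⟨_, h, h1⟩
    have h3 := congrArg (fun p => Polynomial.coeff p 0) h2
    simp at h3
  obtain ⟨B, hAB, hBI⟩ := Ideal.image_subset_nonunits_valuationSubring _ hI
  have hK : ∀ a : K, algebraMap K F a ∈ B := fun a =>
    hAB (Subalgebra.algebraMap_mem (Algebra.adjoin K {z}) a)
  have hzB : z ∈ B.nonunits :=
    hBI ⟨⟨z, hzA⟩, Ideal.subset_span (Set.mem_singleton _), rfl⟩
  have hzinv : z⁻¹ ∉ B := by
    rcases (B.mem_nonunits_iff_or).mp hzB with h | h
    · exact absurd h hz0
    · exact h
  have hB : B ≠ ⊤ := fun h => hzinv (h ▸ ValuationSubring.mem_top _)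
  refine ⟨placeOfValuationSubring t ht B hK hB, ?_⟩
  have h1 := (not_mem_iff_one_lt_val (placeOfValuationSubring t ht B hK hB) z⁻¹).mp hzinv
  rw [map_inv₀] at h1
  have hv0 : (placeOfValuationSubring t ht B hK hB).adicValuation z ≠ 0 :=
    (Valuation.ne_zero_iff _).mpr hz0
  rwa [one_lt_inv₀ (zero_lt_iff.mpr hv0)] at h1

/-- Stichtenoth 1.1.20 (poles): a transcendental element has a pole. -/
theorem exists_place_one_lt_val {z : F} (hz : Transcendental K z) :
    ∃ v : Place K F, 1 < v.adicValuation z := by
  have hz0 : z ≠ 0 := fun h => hz (h ▸ isAlgebraic_zero)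
  obtain ⟨v, hv⟩ := exists_place_val_lt_one t ht (transcendental_inv' hz)
  refine ⟨v, ?_⟩
  rw [map_inv₀] at hv
  have hv0 : v.adicValuation z ≠ 0 := (Valuation.ne_zero_iff _).mpr hz0
  rwa [inv_lt_one₀ (zero_lt_iff.mpr hv0)] at hv

theorem nonempty_place : Nonempty (Place K F) :=
  let ⟨v, _⟩ := exists_place_val_lt_one t ht ht
  ⟨v⟩

/-- An element without poles is algebraic over `K`. -/
theorem isAlgebraic_of_forall_val_le_one {z : F}
    (h : ∀ v : Place K F, v.adicValuation z ≤ 1) : IsAlgebraic K z := by
  by_contra hz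
  obtain ⟨v, hv⟩ := exists_place_one_lt_val t ht (z := z) hz
  exact absurd (h v) (not_le.mpr hv)

/-- An element with `ord = 0` everywhere is algebraic over `K`. -/
theorem isAlgebraic_of_forall_ord_eq_zero {z : F}
    (h : ∀ v : Place K F, v.ord z = 0) : IsAlgebraic K z := by
  rcases eq_or_ne z 0 with rfl | hz0
  · exact isAlgebraic_zero
  refine isAlgebraic_of_forall_val_le_one t ht fun v => ?_
  rw [val_eq_exp_neg_ord v hz0, h v]
  simp

end Exist

end Fermat.Agent.RR.H52
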