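import Mathlib
import Fermat.Agent.RR.H52_PlaceBasic

set_option autoImplicit false

/-!
# Weak approximation for places of a function field (prelude vocabulary)

(S18 / RR-general-function-fields, helper52.)  Pure valuation theory: no hypothesis on `F/K`.

* `exists_val_lt_one_forall_one_lt` : for a place `v` and a finite set `s` of places not containing
  `v` there is `u` with `v u < 1` and `1 < w u` for all `w ∈ s`.
* `exists_approx_one` : ... there is `e` with `v (e - 1) ≤ exp (-N)` and `w e ≤ exp (-N)` for `w ∈ s`.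
* `weak_approximation` : for a finite set `s` of places, targets `x : Place K F → F` and `N : ℤ`
  there is `z` with `v (z - x v) ≤ exp (-N)` for all `v ∈ s`.
-/

noncomputable section

open AlgebraicCurve WithZero

namespace Fermat.Agent.RR.H52

variable {K F : Type*} [Field K] [Field F] [Algebra K F]

/-- In `ℤᵐ⁰`, powers of an element `≠ 0, 1` are pairwise distinct. -/
theorem pow_injective_of_ne_one {g : ℤᵐ⁰} (hg0 : g ≠ 0) (hg1 : g ≠ 1) :
    Function.Injective (fun r : ℕ => g ^ r) := by
  intro a b hab
  simp only at hab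
  obtain ⟨m, hm⟩ : ∃ m : ℤ, g = exp m := ⟨log g, (exp_log hg0).symm⟩
  have hm0 : m ≠ 0 := by
    rintro rfl
    exact hg1 (by rw [hm, exp_zero])
  rw [hm, ← exp_nsmul, ← exp_nsmul, exp_inj] at hab
  simp only [nsmul_eq_mul] at hab
  have := mul_right_cancel₀ hm0 hab
  exact_mod_cast this

/-- **Step 1 of weak approximation.** -/
theorem exists_val_lt_one_forall_one_lt (v : Place K F) (s : Finset (Place K F)) (hv : v ∉ s) :
    ∃ u : F, v.adicValuation u < 1 ∧ ∀ w ∈ s, 1 < w.adicValuation u := by
  classical
  induction s using Finset.induction_on with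
  | empty => exact ⟨0, by simp, by simp⟩
  | insert a s' ha ih =>
    have hva : v ≠ a := fun h => hv (h ▸ Finset.mem_insert_self _ _)
    have hvs' : v ∉ s' := fun h => hv (Finset.mem_insert_of_mem h)
    obtain ⟨y, hyv, hys⟩ := ih hvs'
    by_cases hay : 1 < a.adicValuation y
    · refine ⟨y, hyv, fun w hw => ?_⟩
      rcases Finset.mem_insert.mp hw with rfl | hw'
      · exact hay
      · exact hys w hw'
    · rw [not_lt] at hay
      obtain ⟨z, hzv, hza⟩ := exists_val_lt_one_lt_val hva
      have hz0 : z ≠ 0 := by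
        rintro rfl
        rw [map_zero] at hza
        exact absurd hza (by simp)
      -- bad exponents
      have hbad : ∀ w ∈ s', {r : ℕ | w.adicValuation z ^ r = w.adicValuation y}.Finite := by
        intro w hw
        by_cases hw1 : w.adicValuation z = 1
        · have : {r : ℕ | w.adicValuation z ^ r = w.adicValuation y} = ∅ := by
            ext r
            simp only [Set.mem_setOf_eq, Set.mem_empty_iff_false, iff_false]
            rw [hw1, one_pow]
            exact fun h => absurd (hys w hw) (by rw [← h]; exact lt_irrefl _)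
          rw [this]
          exact Set.finite_empty
        · apply Set.Subsingleton.finite
          intro r₁ hr₁ r₂ hr₂
          exact pow_injective_of_ne_one (w.adicValuation_ne_zero hz0) hw1
            (hr₁.trans hr₂.symm)
      have hfin : (⋃ w ∈ s', {r : ℕ | w.adicValuation z ^ r = w.adicValuation y}).Finite :=
        Set.Finite.biUnion s'.finite_toSet hbad
      obtain ⟨M, hM⟩ := hfin.bddAbove
      set r := M + 1 with hr
      have hr_good : ∀ w ∈ s', w.adicValuation z ^ r ≠ w.adicValuation y := by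
        intro w hw hbadr
        have : r ∈ ⋃ w ∈ s', {r : ℕ | w.adicValuation z ^ r = w.adicValuation y} := by
          simp only [Set.mem_iUnion, Set.mem_setOf_eq]
          exact ⟨w, hw, hbadr⟩
        have := hM this
        omega
      have hr1 : r ≠ 0 := by omega
      refine ⟨y + z ^ r, ?_, fun w hw => ?_⟩
      · refine lt_of_le_of_lt (Valuation.map_add _ _ _) (max_lt hyv ?_)
        rw [map_pow]
        exact pow_lt_one₀ zero_le' hzv hr1
      · rcases Finset.mem_insert.mp hw with rfl | hw'
        · have h1 : (1 : ℤᵐ⁰) < w.adicValuation (z ^ r) := by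
            rw [map_pow]
            exact one_lt_pow₀ hza hr1
          have h2 : w.adicValuation y < w.adicValuation (z ^ r) := lt_of_le_of_lt hay h1
          rw [Valuation.map_add_eq_of_lt_right _ h2]
          exact h1
        · have hne : w.adicValuation y ≠ w.adicValuation (z ^ r) := by
            rw [map_pow]
            exact fun h => hr_good w hw' h.symm
          rw [Valuation.map_add_of_distinct_val _ hne]
          exact lt_of_lt_of_le (hys w hw') (le_max_left _ _)

/-- **Step 2 of weak approximation.** -/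
theorem exists_approx_one (v : Place K F) (s : Finset (Place K F)) (hv : v ∉ s) (N : ℤ) :
    ∃ e : F, v.adicValuation (e - 1) ≤ exp (-N) ∧ ∀ w ∈ s, w.adicValuation e ≤ exp (-N) := by
  obtain ⟨u, huv, hus⟩ := exists_val_lt_one_forall_one_lt v s hv
  set m : ℕ := N.toNat + 1 with hm
  have hm0 : m ≠ 0 := by omega
  have hmN : N ≤ (m : ℤ) := by
    have := Int.self_le_toNat N
    omega
  have hv1 : v.adicValuation (u ^ m) < 1 := by
    rw [map_pow]; exact pow_lt_one₀ zero_le' huv hm0
  have hv2 : v.adicValuation (1 + u ^ m) = 1 := by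
    rw [Valuation.map_add_eq_of_lt_left _ (by rw [map_one]; exact hv1), map_one]
  have hne : 1 + u ^ m ≠ 0 := by
    intro h0
    rw [h0, map_zero] at hv2
    exact zero_ne_one hv2
  have hvle : v.adicValuation (u ^ m) ≤ exp (-N) := by
    rw [map_pow]
    calc v.adicValuation u ^ m ≤ (exp (-1 : ℤ)) ^ m :=
          pow_le_pow_left₀ zero_le' (lt_one_iff_le_exp_neg_one.mp huv) m
      _ = exp (-(m : ℤ)) := by rw [← exp_nsmul]; simp
      _ ≤ exp (-N) := exp_le_exp.mpr (by omega)
  refine ⟨(1 + u ^ m)⁻¹, ?_, fun w hw => ?_⟩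
  · have h1 : (1 + u ^ m)⁻¹ - 1 = -(u ^ m) * (1 + u ^ m)⁻¹ := by
      field_simp
      ring
    rw [h1, map_mul, map_inv₀, hv2, inv_one, mul_one, Valuation.map_neg]
    exact hvle
  · have hw1 : (1 : ℤᵐ⁰) < w.adicValuation (u ^ m) := by
      rw [map_pow]; exact one_lt_pow₀ (hus w hw) hm0
    have hw2 : w.adicValuation (1 + u ^ m) = w.adicValuation (u ^ m) := by
      rw [Valuation.map_add_eq_of_lt_right _ (by rw [map_one]; exact hw1)]
    rw [map_inv₀, hw2, map_pow]
    have hge : exp (m : ℤ) ≤ w.adicValuation u ^ m := by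
      calc exp (m : ℤ) = (exp (1 : ℤ)) ^ m := by rw [← exp_nsmul]; simp
        _ ≤ w.adicValuation u ^ m :=
          pow_le_pow_left₀ zero_le' (one_lt_iff_exp_one_le.mp (hus w hw)) m
    have hpos : (0 : ℤᵐ⁰) < exp (m : ℤ) := zero_lt_iff.mpr exp_ne_zero
    calc (w.adicValuation u ^ m)⁻¹ ≤ (exp (m : ℤ))⁻¹ := by
          rw [inv_le_inv₀ (lt_of_lt_of_le hpos hge) hpos]; exact hge
      _ = exp (-(m : ℤ)) := by rw [exp_neg]
      _ ≤ exp (-N) := exp_le_exp.mpr (by omega)

/-- A uniform bound for finitely many values. -/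
theorem exists_val_le_exp (s : Finset (Place K F)) (x : Place K F → F) :
    ∃ M : ℤ, ∀ v ∈ s, ∀ w ∈ s, w.adicValuation (x v) ≤ exp M := by
  classical
  have key : ∀ p ∈ s ×ˢ s, ∃ m : ℤ, (p.2 : Place K F).adicValuation (x p.1) ≤ exp m := by
    intro p _
    by_cases h0 : x p.1 = 0
    · exact ⟨0, by rw [h0, map_zero]; exact zero_le'⟩
    · exact ⟨log (p.2.adicValuation (x p.1)), by
        rw [exp_log (p.2.adicValuation_ne_zero h0)]⟩
  choose! m hm using key
  obtain ⟨M, hM⟩ := Finset.exists_le ((s ×ˢ s).image m)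
  refine ⟨M, fun v hv w hw => ?_⟩
  have hp : (v, w) ∈ s ×ˢ s := Finset.mem_product.mpr ⟨hv, hw⟩
  refine (hm (v, w) hp).trans (exp_le_exp.mpr ?_)
  exact hM _ (Finset.mem_image_of_mem m hp)

/-- **Weak approximation.** -/
theorem weak_approximation (s : Finset (Place K F)) (x : Place K F → F) (N : ℤ) :
    ∃ z : F, ∀ v ∈ s, v.adicValuation (z - x v) ≤ exp (-N) := by
  classical
  obtain ⟨M, hM⟩ := exists_val_le_exp s x
  have key : ∀ v : Place K F, v ∈ s → ∃ e : F, v.adicValuation (e - 1) ≤ exp (-(N + M)) ∧
      ∀ w ∈ s.erase v, w.adicValuation e ≤ exp (-(N + M)) :=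
    fun v _ => exists_approx_one v (s.erase v) (Finset.notMem_erase v s) (N + M)
  choose! e he1 he2 using key
  refine ⟨∑ v ∈ s, x v * e v, fun w hw => ?_⟩
  have hsplit : ∑ v ∈ s, x v * e v - x w
      = x w * (e w - 1) + ∑ v ∈ s.erase w, x v * e v := by
    rw [← Finset.add_sum_erase s _ hw]
    ring
  rw [hsplit]
  have hbound : exp M * exp (-(N + M)) = (exp (-N) : ℤᵐ⁰) := by
    rw [← exp_add]; congr 1; ring
  refine (Valuation.map_add _ _ _).trans (max_le ?_ ?_)
  · rw [map_mul, ← hbound]
    exact mul_le_mul' (hM w hw w hw) (he1 w hw)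
  · apply Valuation.map_sum_le
    intro v hv
    have hvs : v ∈ s := Finset.mem_of_mem_erase hv
    have hwv : w ∈ s.erase v := Finset.mem_erase.mpr ⟨(Finset.ne_of_mem_erase hv).symm, hw⟩
    rw [map_mul, ← hbound]
    exact mul_le_mul' (hM v hvs w hw) (he2 v hvs w hwv)

end Fermat.Agent.RR.H52
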