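import Mathlib
import Fermat.Agent.RR.H52_WeakApprox
import Fermat.Agent.RR.H52_PlaceExist

set_option autoImplicit false

/-!
# The degree of the zero divisor is at most `[F : K(x)]`  (Stichtenoth 1.3.3)

(S18 / RR-general-function-fields, helper52.)  Mathlib + Prelude only, characteristic free.
Consequences: residue fields of places are finite over `K`, every nonzero function has only
finitely many zeros and poles.
-/

noncomputable section

open Polynomial IntermediateField AlgebraicCurve WithZero

namespace Fermat.Agent.RR.H52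

variable {K F : Type*} [Field K] [Field F] [Algebra K F]

/-! ### One place: expansions in a uniformizer -/

section OnePlace

variable (v : Place K F)

/-- `σ` is *residue independent* at `v`: no nontrivial `K`-combination lies in the maximal
ideal. -/
def ResidueIndep {ι : Type*} [Fintype ι] (σ : ι → F) : Prop :=
  ∀ c : ι → K, v.adicValuation (∑ j, algebraMap K F (c j) * σ j) < 1 → c = 0

theorem val_sum_algebraMap_mul_le_one {ι : Type*} (s : Finset ι) (c : ι → K) (y : ι → F)
    (hy : ∀ j ∈ s, v.adicValuation (y j) ≤ 1) :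
    v.adicValuation (∑ j ∈ s, algebraMap K F (c j) * y j) ≤ 1 := by
  refine Valuation.map_sum_le _ fun j hj => ?_
  rw [map_mul]
  exact mul_le_one' (v.adicValuation_algebraMap_le_one _) (hy j hj)

/-- Lemma C: an expansion `∑_{a<e} ∑_j c_{a j} t^a σ_j` with residue independent `σ` and
uniformizer `t` that vanishes to order `≥ e` has all coefficients zero. -/
theorem coeff_eq_zero_of_val_le {ι : Type*} [Fintype ι] {t : F}
    (ht : v.adicValuation t = exp (-1 : ℤ)) (σ : ι → F)
    (hσ1 : ∀ j, v.adicValuation (σ j) ≤ 1) (hσ : ResidueIndep v σ) :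
    ∀ (e : ℕ) (c : Fin e → ι → K),
      v.adicValuation (∑ a : Fin e, ∑ j, algebraMap K F (c a j) * (t ^ (a : ℕ) * σ j))
        ≤ exp (-(e : ℤ)) → c = 0 := by
  intro e
  induction e with
  | zero =>
    intro c _
    funext a
    exact a.elim0
  | succ e ih =>
    intro c hc
    rw [Fin.sum_univ_succ] at hc
    set U : F := ∑ j, algebraMap K F (c 0 j) * σ j with hU
    set W : F := ∑ a : Fin e, ∑ j, algebraMap K F (c a.succ j) * (t ^ (a : ℕ) * σ j) with hW
    have h1 : (∑ j, algebraMap K F (c 0 j) * (t ^ ((0 : Fin (e + 1)) : ℕ) * σ j)) = U := by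
      simp [hU]
    have h2 : (∑ a : Fin e, ∑ j, algebraMap K F (c a.succ j) * (t ^ ((a.succ : Fin (e + 1)) : ℕ)
        * σ j)) = t * W := by
      rw [hW, Finset.mul_sum]
      refine Finset.sum_congr rfl fun a _ => ?_
      rw [Finset.mul_sum]
      refine Finset.sum_congr rfl fun j _ => ?_
      rw [Fin.val_succ, pow_succ]
      ring
    rw [h1, h2] at hc
    have ht1 : v.adicValuation t ≤ 1 := by rw [ht, ← exp_zero, exp_le_exp]; omega
    have hW1 : v.adicValuation W ≤ 1 := by
      refine Valuation.map_sum_le _ fun a _ => ?_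
      refine val_sum_algebraMap_mul_le_one v _ _ _ fun j _ => ?_
      rw [map_mul, map_pow]
      exact mul_le_one' (pow_le_one' ht1 _) (hσ1 j)
    have htW : v.adicValuation (t * W) ≤ exp (-1 : ℤ) := by
      rw [map_mul, ht]
      calc exp (-1 : ℤ) * v.adicValuation W ≤ exp (-1 : ℤ) * 1 := mul_le_mul' le_rfl hW1
        _ = _ := mul_one _
    have hUlt : v.adicValuation U < 1 := by
      have h3 : U = (U + t * W) - t * W := by ring
      rw [h3]
      refine lt_of_le_of_lt (Valuation.map_sub _ _ _) (max_lt ?_ ?_)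
      · refine lt_of_le_of_lt hc ?_
        rw [← exp_zero, exp_lt_exp]; omega
      · refine lt_of_le_of_lt htW ?_
        rw [← exp_zero, exp_lt_exp]; omega
    have hc0 : c 0 = 0 := hσ (c 0) hUlt
    have hU0 : U = 0 := by
      rw [hU, hc0]; simp
    rw [hU0, zero_add, map_mul, ht] at hc
    have hWe : v.adicValuation W ≤ exp (-(e : ℤ)) := by
      have h4 : exp (-1 : ℤ) * v.adicValuation W ≤ exp (-1 : ℤ) * exp (-(e : ℤ)) := by
        rw [← exp_add]
        convert hc using 2
        push_cast; ring
      exact (mul_le_mul_iff_right₀ (zero_lt_iff.mpr exp_ne_zero)).mp h4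
    have hrest := ih (fun a j => c a.succ j) hWe
    funext a
    refine Fin.cases hc0 (fun a' => ?_) a
    exact congrFun hrest a'

end OnePlace

/-! ### Stichtenoth 1.3.3 in abstract form -/

section Main

variable {x : F} (hx0 : x ≠ 0) [FiniteDimensional K⟮x⟯ F]

include hx0 in
/-- If at each place `v` of the finite set `s` the function `x` vanishes to order `e v` and
`σ v` is a residue independent family of size `f v`, then `∑ e v * f v ≤ [F : K(x)]`. -/
theorem sum_mul_le_finrank (s : Finset (Place K F)) (e f : Place K F → ℕ)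
    (he : ∀ v ∈ s, v.adicValuation x = exp (-(e v : ℤ)))
    (σ : ∀ v : Place K F, Fin (f v) → F)
    (hσ1 : ∀ v ∈ s, ∀ j, v.adicValuation (σ v j) ≤ 1)
    (hσ : ∀ v ∈ s, ResidueIndep v (σ v)) :
    ∑ v ∈ s, e v * f v ≤ Module.finrank K⟮x⟯ F := by
  classical
  choose t ht using fun v : Place K F => exists_val_eq_exp_neg_one v
  have ht1 : ∀ v : Place K F, v.adicValuation (t v) ≤ 1 := fun v => by
    rw [ht v, ← exp_zero, exp_le_exp]; omega
  have hx1 : ∀ v ∈ s, v.adicValuation x ≤ 1 := fun v hv => by
    rw [he v hv, ← exp_zero, exp_le_exp]; omega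
  let N : ℤ := ∑ w ∈ s, (e w : ℤ)
  have hN : ∀ w ∈ s, exp (-N) ≤ w.adicValuation x := by
    intro w hw
    rw [he w hw, exp_le_exp, neg_le_neg_iff]
    exact Finset.single_le_sum (f := fun w => (e w : ℤ)) (fun _ _ => by positivity) hw
  let I := Σ v : s, Fin (e v) × Fin (f v)
  let tgt : I → Place K F → F := fun i w =>
    if w = i.1 then t i.1 ^ (i.2.1 : ℕ) * σ i.1 i.2.2 else 0
  have hex := fun i : I => weak_approximation s (tgt i) N
  choose z hz using hex
  have hza : ∀ i : I, (i.1 : Place K F).adicValuation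
      (z i - t i.1 ^ (i.2.1 : ℕ) * σ i.1 i.2.2) ≤ (i.1 : Place K F).adicValuation x := by
    intro i
    have h := hz i i.1 i.1.2
    simp only [tgt, if_pos rfl] at h
    exact h.trans (hN _ i.1.2)
  have hzb : ∀ i : I, ∀ w ∈ s, w ≠ i.1 → w.adicValuation (z i) ≤ w.adicValuation x := by
    intro i w hw hne
    have h := hz i w hw
    simp only [tgt, if_neg hne, sub_zero] at h
    exact h.trans (hN w hw)
  have htσ1 : ∀ i : I, (i.1 : Place K F).adicValuation
      (t i.1 ^ (i.2.1 : ℕ) * σ i.1 i.2.2) ≤ 1 := by
    intro i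
    rw [map_mul, map_pow]
    exact mul_le_one' (pow_le_one' (ht1 _) _) (hσ1 _ i.1.2 _)
  have hz1 : ∀ i : I, (i.1 : Place K F).adicValuation (z i) ≤ 1 := by
    intro i
    have h3 : z i = (z i - t i.1 ^ (i.2.1 : ℕ) * σ i.1 i.2.2)
        + t i.1 ^ (i.2.1 : ℕ) * σ i.1 i.2.2 := by ring
    rw [h3]
    refine (Valuation.map_add _ _ _).trans (max_le ?_ (htσ1 i))
    exact (hza i).trans (hx1 _ i.1.2)
  have key := card_le_finrank_adjoin_simple (K := K) hx0 z ?_
  · have hcard : Fintype.card I = ∑ v ∈ s, e v * f v := by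
      rw [Fintype.card_sigma]
      simp only [Fintype.card_prod, Fintype.card_fin]
      exact Finset.sum_coe_sort s (fun v => e v * f v)
    rwa [hcard] at key
  intro Q hQ i₀
  obtain ⟨v₀, a₀, j₀⟩ := i₀
  let P₀ : Place K F := v₀
  have hP₀ : P₀ ∈ s := v₀.2
  let c : Fin (e v₀) → Fin (f v₀) → K := fun a j => (Q ⟨v₀, a, j⟩).coeff 0
  have hK1 : ∀ a : K, P₀.adicValuation (algebraMap K F a) ≤ 1 :=
    fun a => P₀.adicValuation_algebraMap_le_one a
  suffices hval : P₀.adicValuation (∑ a : Fin (e v₀), ∑ j : Fin (f v₀),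
      algebraMap K F (c a j) * (t P₀ ^ (a : ℕ) * σ P₀ j)) ≤ exp (-(e v₀ : ℤ)) by
    have hc := coeff_eq_zero_of_val_le P₀ (ht P₀) (σ P₀) (hσ1 P₀ hP₀) (hσ P₀ hP₀) (e v₀) c hval
    exact congrFun (congrFun hc a₀) j₀
  rw [← he P₀ hP₀]
  -- the relation, regrouped
  let G : s → F := fun v => ∑ a : Fin (e v), ∑ j : Fin (f v),
    aeval x (Q ⟨v, a, j⟩) * z ⟨v, a, j⟩
  have hG : ∑ v : s, G v = 0 := by
    rw [← hQ, Fintype.sum_sigma]
    refine Finset.sum_congr rfl fun v _ => ?_
    rw [Fintype.sum_prod_type]
  have hG' : G v₀ + ∑ v ∈ Finset.univ.erase v₀, G v = 0 := by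
    rw [Finset.add_sum_erase _ G (Finset.mem_univ v₀)]; exact hG
  set T : F := ∑ a : Fin (e v₀), ∑ j : Fin (f v₀),
      algebraMap K F (c a j) * (t P₀ ^ (a : ℕ) * σ P₀ j) with hT
  have hTeq : T = (T - G v₀) - ∑ v ∈ Finset.univ.erase v₀, G v := by
    have : ∑ v ∈ Finset.univ.erase v₀, G v = - G v₀ := by
      rw [eq_neg_iff_add_eq_zero, add_comm]; exact hG'
    rw [this]; ring
  rw [hTeq]
  refine (Valuation.map_sub _ _ _).trans (max_le ?_ ?_)
  · -- the part at `v₀`
    have h5 : T - G v₀ = ∑ a : Fin (e v₀), ∑ j : Fin (f v₀),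
        (algebraMap K F (c a j) * (t P₀ ^ (a : ℕ) * σ P₀ j)
          - aeval x (Q ⟨v₀, a, j⟩) * z ⟨v₀, a, j⟩) := by
      simp only [hT, G, Finset.sum_sub_distrib]
    rw [h5]
    refine Valuation.map_sum_le _ fun a _ => Valuation.map_sum_le _ fun j _ => ?_
    have h6 : algebraMap K F (c a j) * (t P₀ ^ (a : ℕ) * σ P₀ j)
          - aeval x (Q ⟨v₀, a, j⟩) * z ⟨v₀, a, j⟩
        = - ((aeval x (Q ⟨v₀, a, j⟩) - algebraMap K F ((Q ⟨v₀, a, j⟩).coeff 0)) * z ⟨v₀, a, j⟩)
          - algebraMap K F (c a j) * (z ⟨v₀, a, j⟩ - t P₀ ^ (a : ℕ) * σ P₀ j) := by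
      simp only [c]; ring
    rw [h6]
    refine (Valuation.map_sub _ _ _).trans (max_le ?_ ?_)
    · rw [Valuation.map_neg, map_mul]
      calc _ ≤ P₀.adicValuation x * 1 :=
            mul_le_mul' (val_aeval_sub_coeff_le _ hK1 (hx1 P₀ hP₀) _) (hz1 ⟨v₀, a, j⟩)
        _ = _ := mul_one _
    · rw [map_mul]
      calc _ ≤ 1 * P₀.adicValuation x := mul_le_mul' (hK1 _) (hza ⟨v₀, a, j⟩)
        _ = _ := one_mul _
  · -- the other places
    refine Valuation.map_sum_le _ fun v hv => ?_
    have hvne : P₀ ≠ (v : Place K F) := by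
      intro h
      exact (Finset.ne_of_mem_erase hv) (Subtype.ext h.symm)
    refine Valuation.map_sum_le _ fun a _ => Valuation.map_sum_le _ fun j _ => ?_
    rw [map_mul]
    calc _ ≤ 1 * P₀.adicValuation x :=
          mul_le_mul' (val_aeval_le_one _ hK1 (hx1 P₀ hP₀) _) (hzb ⟨v, a, j⟩ P₀ hP₀ hvne)
      _ = _ := one_mul _

end Main

/-! ### Residue independence from linear independence in the residue field -/

theorem residueIndep_of_linearIndependent (v : Place K F) {ι : Type*} [Fintype ι]
    (σ : ι → v.toValuationSubring)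
    (h : LinearIndependent K fun i => IsLocalRing.residue v.toValuationSubring (σ i)) :
    ResidueIndep v (fun i => (σ i : F)) := by
  intro c hc
  let y : v.toValuationSubring := ∑ j, algebraMap K v.toValuationSubring (c j) * σ j
  have hy : (y : F) = ∑ j, algebraMap K F (c j) * (σ j : F) := by
    simp [y]
  rw [← hy] at hc
  have hnu : ¬ IsUnit y := fun hu => by
    rw [(v.adicValuation_coe_eq_one_iff y).mpr hu] at hc
    exact lt_irrefl _ hc
  have hres : IsLocalRing.residue _ y = 0 := by
    rw [IsLocalRing.residue_eq_zero_iff]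
    exact hnu
  have hsum : ∑ j, c j • IsLocalRing.residue v.toValuationSubring (σ j) = 0 := by
    rw [← hres]
    simp only [y, map_sum, map_mul]
    refine Finset.sum_congr rfl fun j _ => ?_
    rw [Algebra.smul_def]
    rfl
  exact funext (Fintype.linearIndependent_iff.mp h c hsum)

/-! ### Consequences in a function field of one variable -/

theorem transcendental_of_val_lt_one (v : Place K F) {x : F} (hx0 : x ≠ 0)
    (hx : v.adicValuation x < 1) : Transcendental K x := by
  refine transcendental_of_mem_nonunits v.toValuationSubring v.algebraMap_mem' hx0 ?_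
  rw [ValuationSubring.mem_nonunits_iff_or]
  right
  rw [not_mem_iff_one_lt_val, map_inv₀]
  have hv0 : v.adicValuation x ≠ 0 := (Valuation.ne_zero_iff _).mpr hx0
  rwa [one_lt_inv₀ (zero_lt_iff.mpr hv0)]

theorem val_lt_one_iff_ord_pos (v : Place K F) {x : F} (hx0 : x ≠ 0) :
    v.adicValuation x < 1 ↔ 0 < v.ord x := by
  rw [val_eq_exp_neg_ord v hx0, ← exp_zero, exp_lt_exp]
  omega

theorem one_lt_val_iff_ord_neg (v : Place K F) {x : F} (hx0 : x ≠ 0) :
    1 < v.adicValuation x ↔ v.ord x < 0 := by
  rw [val_eq_exp_neg_ord v hx0, ← exp_zero, exp_lt_exp]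
  omega

section FunField

variable (t : F) (ht : Transcendental K t) [FiniteDimensional K⟮t⟯ F]
include ht

/-- FFBase.finRes: the residue field of every place is finite over `K`. -/
theorem finiteResidue (v : Place K F) : Module.Finite K v.ResidueField := by
  classical
  obtain ⟨π, hπ⟩ := exists_val_eq_exp_neg_one v
  have hπ0 : π ≠ 0 := by
    rw [← Valuation.ne_zero_iff v.adicValuation, hπ]
    exact exp_ne_zero
  have hπlt : v.adicValuation π < 1 := by
    rw [hπ, ← exp_zero, exp_lt_exp]; omega
  have hπtr : Transcendental K π := transcendental_of_val_lt_one v hπ0 hπlt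
  have := finiteDimensional_adjoin_of_transcendental t ht hπtr
  have hb : Module.rank K v.ResidueField ≤ (Module.finrank K⟮π⟯ F : ℕ) := by
    apply rank_le
    intro S hS
    have hlift : ∀ r : v.ResidueField, ∃ a : v.toValuationSubring,
        IsLocalRing.residue v.toValuationSubring a = r := IsLocalRing.residue_surjective
    choose lift hlift' using hlift
    let σ' : Fin S.card → v.toValuationSubring := fun j => lift (S.equivFin.symm j : v.ResidueField)
    have hli : LinearIndependent K fun j => IsLocalRing.residue v.toValuationSubring (σ' j) := by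
      have h1 : (fun j => IsLocalRing.residue v.toValuationSubring (σ' j))
          = (fun i : S => (i : v.ResidueField)) ∘ S.equivFin.symm := by
        funext j
        simp [σ', hlift']
      rw [h1]
      exact hS.comp _ S.equivFin.symm.injective
    have hri := residueIndep_of_linearIndependent v σ' hli
    have key := sum_mul_le_finrank (K := K) hπ0 {v} (fun _ => 1) (fun _ => S.card)
      (fun w _ => by
        rw [Finset.mem_singleton] at *
        subst_vars
        simpa using hπ)
      (fun _ j => (σ' j : F))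
      (fun w _ j => v.adicValuation_le_one_of_mem (σ' j).2 |> fun h => by
        rw [Finset.mem_singleton] at *
        subst_vars
        exact h)
      (fun w hw => by
        rw [Finset.mem_singleton] at hw
        subst hw
        exact hri)
    simpa using key
  exact Module.rank_lt_aleph0_iff.mp (lt_of_le_of_lt hb (Cardinal.natCast_lt_aleph0))

/-- Stichtenoth 1.3.3: for `x` transcendental and `s` a finite set of zeros of `x`,
`∑_{v ∈ s} ord_v(x) · deg v ≤ [F : K(x)]`. -/
theorem sum_ord_mul_deg_le {x : F} (hx : Transcendental K x) (s : Finset (Place K F))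
    (hs : ∀ v ∈ s, 0 < v.ord x) :
    ∑ v ∈ s, (v.ord x).toNat * v.deg ≤ Module.finrank K⟮x⟯ F := by
  classical
  have hx0 : x ≠ 0 := fun h => hx (h ▸ isAlgebraic_zero)
  have := finiteDimensional_adjoin_of_transcendental t ht hx
  have hfin : ∀ v : Place K F, Module.Finite K v.ResidueField := finiteResidue t ht
  have hlift : ∀ (v : Place K F) (r : v.ResidueField), ∃ a : v.toValuationSubring,
      IsLocalRing.residue v.toValuationSubring a = r := fun v => IsLocalRing.residue_surjective
  choose lift hlift' using hlift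
  let σ' : ∀ v : Place K F, Fin v.deg → v.toValuationSubring := fun v j =>
    lift v (Module.finBasis K v.ResidueField j)
  have hli : ∀ v : Place K F,
      LinearIndependent K fun j => IsLocalRing.residue v.toValuationSubring (σ' v j) := by
    intro v
    have h1 : (fun j => IsLocalRing.residue v.toValuationSubring (σ' v j))
        = fun j => Module.finBasis K v.ResidueField j := by
      funext j
      simp [σ', hlift']
    rw [h1]
    exact (Module.finBasis K v.ResidueField).linearIndependent
  exact sum_mul_le_finrank (K := K) hx0 s (fun v => (v.ord x).toNat) (fun v => v.deg)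
    (fun v hv => by
      rw [val_eq_exp_neg_ord v hx0, Int.toNat_of_nonneg (hs v hv).le])
    (fun v j => (σ' v j : F))
    (fun v _ j => v.adicValuation_le_one_of_mem (σ' v j).2)
    (fun v _ => residueIndep_of_linearIndependent v (σ' v) (hli v))

/-- A nonzero function has finitely many zeros. -/
theorem finite_setOf_val_lt_one {x : F} (hx0 : x ≠ 0) :
    {v : Place K F | v.adicValuation x < 1}.Finite := by
  classical
  by_contra hinf
  have hinf' : {v : Place K F | v.adicValuation x < 1}.Infinite := hinf
  obtain ⟨v₀, hv₀⟩ := hinf'.nonempty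
  have hx : Transcendental K x := transcendental_of_val_lt_one v₀ hx0 hv₀
  have := finiteDimensional_adjoin_of_transcendental t ht hx
  obtain ⟨S, hS, hcard⟩ := hinf'.exists_subset_card_eq (Module.finrank K⟮x⟯ F + 1)
  have key := sum_mul_le_finrank (K := K) hx0 S (fun v => (v.ord x).toNat) (fun _ => 1)
    (fun v hv => by
      have h1 : 0 < v.ord x := (val_lt_one_iff_ord_pos v hx0).mp (hS hv)
      rw [val_eq_exp_neg_ord v hx0, Int.toNat_of_nonneg h1.le])
    (fun _ _ => (1 : F))
    (fun v _ _ => by simp)
    (fun v _ c hc => by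
      funext j
      by_contra hne
      have h1 : v.adicValuation (algebraMap K F (c j)) = 1 := val_algebraMap v hne
      have h2 : (∑ j : Fin 1, algebraMap K F (c j) * (1 : F)) = algebraMap K F (c j) := by
        rw [Fin.sum_univ_one, mul_one]
        congr 2
        exact Subsingleton.elim _ _
      rw [h2, h1] at hc
      exact lt_irrefl _ hc)
  have h3 : S.card ≤ ∑ v ∈ S, (v.ord x).toNat * 1 := by
    rw [Finset.card_eq_sum_ones]
    refine Finset.sum_le_sum fun v hv => ?_
    have h1 : 0 < v.ord x := (val_lt_one_iff_ord_pos v hx0).mp (hS hv)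
    have : 1 ≤ (v.ord x).toNat := by omega
    simpa using this
  omega

/-- A nonzero function has finitely many poles. -/
theorem finite_setOf_one_lt_val {x : F} (hx0 : x ≠ 0) :
    {v : Place K F | 1 < v.adicValuation x}.Finite := by
  have h := finite_setOf_val_lt_one t ht (inv_ne_zero hx0)
  refine h.subset fun v hv => ?_
  have hv' : 1 < v.adicValuation x := hv
  show v.adicValuation x⁻¹ < 1
  rw [map_inv₀]
  exact inv_lt_one_of_one_lt₀ hv'

/-- FFBase.finOrd: a nonzero function has finitely many zeros and poles. -/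
theorem finite_ord_ne_zero {f : F} (hf : f ≠ 0) : {v : Place K F | v.ord f ≠ 0}.Finite := by
  refine ((finite_setOf_val_lt_one t ht hf).union (finite_setOf_one_lt_val t ht hf)).subset ?_
  intro v hv
  have hv' : v.ord f ≠ 0 := hv
  rcases lt_or_gt_of_ne hv' with h | h
  · exact Or.inr ((one_lt_val_iff_ord_neg v hf).mpr h)
  · exact Or.inl ((val_lt_one_iff_ord_pos v hf).mpr h)

end FunField

end Fermat.Agent.RR.H52
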