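import Mathlib
import Fermat.Agent.RR.H76_Riemann

/-!
# RR bank, part 4: repartitions, `H1`, Riemann-Roch in Weil's form

From `FFBase K F`: `H1 D` is finite-dimensional and
`l(D) - dim H1(D) = deg D + 1 - gR`; hence `genusFF K F = gR + l(0) - 1`.
-/

set_option autoImplicit false
set_option linter.style.haveILetI false

noncomputable section

open AlgebraicCurve WithZero

namespace Fermat.Agent.RR.H76

variable {K F : Type*} [Field K] [Field F] [Algebra K F]

/-! ### Poles of a repartition -/

theorem FFBase.finite_poles_val (h : FFBase K F) {α : Place K F → F}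
    (hα : α ∈ repartitions K F) :
    {v : Place K F | ¬ v.adicValuation (α v) ≤ 1}.Finite := by
  unfold repartitions at hα
  induction hα using Algebra.adjoin_induction with
  | mem x hx => exact hx
  | algebraMap r =>
    rcases eq_or_ne r 0 with rfl | hr
    · convert Set.finite_empty
      ext v
      simp
    · refine (h.finOrd r hr).subset ?_
      intro v hv
      have : v.ord r < 0 := v.not_adicValuation_le_one_iff.mp hv
      exact ne_of_lt this
  | add x y hx hy hx' hy' =>
    refine (hx'.union hy').subset ?_
    intro v hv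
    by_contra hcon
    simp only [Set.mem_union, Set.mem_ofPred_eq, not_or, not_not] at hcon
    exact hv ((Valuation.map_add _ _ _).trans (max_le hcon.1 hcon.2))
  | mul x y hx hy hx' hy' =>
    refine (hx'.union hy').subset ?_
    intro v hv
    by_contra hcon
    simp only [Set.mem_union, Set.mem_ofPred_eq, not_or, not_not] at hcon
    apply hv
    show v.adicValuation (x v * y v) ≤ 1
    rw [map_mul]
    exact mul_le_one' hcon.1 hcon.2

theorem FFBase.finite_poles (h : FFBase K F) (α : ↥(repartitions K F)) :
    {v : Place K F | v.ord ((α : Place K F → F) v) < 0}.Finite := by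
  have := h.finite_poles_val α.2
  rwa [show {v : Place K F | ¬v.adicValuation ((α : Place K F → F) v) ≤ 1}
        = {v : Place K F | v.ord ((α : Place K F → F) v) < 0} from
      Set.ext fun v => v.not_adicValuation_le_one_iff] at this

/-- build an element of `𝔸(D)` from a function satisfying the local conditions. -/
def mkAdele (D : Divisor K F) (α : Place K F → F)
    (hα : ∀ v : Place K F, α v = 0 ∨ -D v ≤ v.ord (α v)) : ↥(repartitionsOf D) :=
  ⟨⟨α, mem_repartitions_of_forall_le_exp D α
      (fun v => v.adicValuation_le_exp_iff.mpr (hα v))⟩,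
    mem_repartitionsOf_iff.mpr hα⟩

theorem mkAdele_apply (D : Divisor K F) (α : Place K F → F)
    (hα : ∀ v : Place K F, α v = 0 ∨ -D v ≤ v.ord (α v)) (v : Place K F) :
    (((mkAdele D α hα : ↥(repartitionsOf D)) : ↥(repartitions K F)) : Place K F → F) v = α v :=
  rfl

/-- every repartition lies in `𝔸(B + E)` for some effective `E`. -/
theorem FFBase.exists_effective_mem (h : FFBase K F) (B : Divisor K F)
    (α : ↥(repartitions K F)) :
    ∃ E : Divisor K F, 0 ≤ E ∧ α ∈ repartitionsOf (B + E) := by
  classical
  have hfin := h.finite_poles α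
  let f : Place K F → ℤ := fun v => max 0 (-(v.ord ((α : Place K F → F) v)) - B v)
  have hf : ∀ v : Place K F, f v ≠ 0 → v ∈ hfin.toFinset ∪ B.support := by
    intro v hv
    by_contra hcon
    rw [Finset.mem_union, not_or, Set.Finite.mem_toFinset, Finsupp.mem_support_iff,
      not_not, Set.mem_ofPred_eq, not_lt] at hcon
    apply hv
    show max 0 (-(v.ord ((α : Place K F → F) v)) - B v) = 0
    rw [hcon.2]
    have := hcon.1
    rw [max_eq_left]
    omega
  refine ⟨Finsupp.onFinset _ f hf, ?_, ?_⟩
  · intro v
    rw [Finsupp.onFinset_apply]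
    exact le_max_left _ _
  · rw [mem_repartitionsOf_iff]
    intro v
    right
    rw [Finsupp.add_apply, Finsupp.onFinset_apply]
    have : -(v.ord ((α : Place K F → F) v)) - B v ≤ f v := le_max_right _ _
    omega


/-! ### The one-place step on repartitions -/

section OneStep

variable (D : Divisor K F) (P : Place K F) {t : F} (ht : t ≠ 0) (ht1 : P.ord t = 1)

include ht ht1 in
theorem zpow_mul_mem_of_mem_A {α : ↥(repartitions K F)}
    (hα : α ∈ repartitionsOf (addP D P)) :
    t ^ (D P + 1) * (α : Place K F → F) P ∈ P.toValuationSubring := by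
  apply zpow_mul_mem_valSubring D P ht ht1
  have := (mem_repartitionsOf_iff.mp hα) P
  rwa [add_single_apply_self] at this

/-- The leading-coefficient map `𝔸(D + P) → κ(P)`. -/
def adMap : ↥(repartitionsOf (addP D P)) →ₗ[K] P.ResidueField where
  toFun α := resTot P (t ^ (D P + 1) * ((α : ↥(repartitions K F)) : Place K F → F) P)
  map_add' α β := by
    have h := resTot_add P (zpow_mul_mem_of_mem_A D P ht ht1 α.2)
      (zpow_mul_mem_of_mem_A D P ht ht1 β.2)
    rw [← mul_add] at h
    exact h
  map_smul' c α := by
    have h := resTot_smul P c (zpow_mul_mem_of_mem_A D P ht ht1 α.2)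
    rw [RingHom.id_apply, ← h]
    congr 1
    show t ^ (D P + 1) * (c • (((α : ↥(repartitions K F)) : Place K F → F) P))
      = c • (t ^ (D P + 1) * (((α : ↥(repartitions K F)) : Place K F → F) P))
    rw [mul_smul_comm]

theorem adMap_apply (α : ↥(repartitionsOf (addP D P))) :
    adMap D P ht ht1 α
      = resTot P (t ^ (D P + 1) * ((α : ↥(repartitions K F)) : Place K F → F) P) := rfl

theorem adMap_eq_zero_iff (α : ↥(repartitionsOf (addP D P))) :
    adMap D P ht ht1 α = 0 ↔ (α : ↥(repartitions K F)) ∈ repartitionsOf D := by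
  rw [adMap_apply, resTot_eq_zero_iff P (zpow_mul_mem_of_mem_A D P ht ht1 α.2),
    mem_repartitionsOf_iff]
  have hf := mem_repartitionsOf_iff.mp α.2
  set a : Place K F → F := ((α : ↥(repartitions K F)) : Place K F → F) with ha
  constructor
  · intro h v
    by_cases hv : v = P
    · subst hv
      rcases eq_or_ne (a v) 0 with h0 | h0
      · exact Or.inl h0
      · right
        rcases h with h | h
        · exact absurd ((mul_eq_zero.mp h).resolve_left (zpow_ne_zero _ ht)) h0
        · rw [ord_zpow_mul v ht h0, ht1] at h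
          omega
    · have := hf v
      rwa [add_single_apply_of_ne D hv] at this
  · intro h
    rcases eq_or_ne (a P) 0 with h0 | h0
    · left; rw [h0, mul_zero]
    · right
      rw [ord_zpow_mul P ht h0, ht1]
      have := (h P).resolve_left h0
      omega

theorem adMap_surjective : Function.Surjective (adMap D P ht ht1) := by
  classical
  intro c
  obtain ⟨x, hx, hxc⟩ := resTot_surjective P c
  have hx' := (mem_valSubring_iff P).mp hx
  have hcond : ∀ v : Place K F,
      (Pi.single P (t ^ (-(D P + 1)) * x) : Place K F → F) v = 0 ∨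
        -(addP D P) v ≤ v.ord ((Pi.single P (t ^ (-(D P + 1)) * x) : Place K F → F) v) := by
    intro v
    by_cases hv : v = P
    · subst hv
      rw [Pi.single_eq_same, add_single_apply_self]
      rcases eq_or_ne x 0 with rfl | hx0
      · left; simp
      · right
        rw [ord_zpow_mul v ht hx0, ht1]
        have := hx'.resolve_left hx0
        omega
    · left
      exact Pi.single_eq_of_ne hv _
  refine ⟨mkAdele (addP D P) _ hcond, ?_⟩
  rw [adMap_apply, mkAdele_apply, Pi.single_eq_same, ← mul_assoc, ← zpow_add₀ ht,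
    add_neg_cancel, zpow_zero, one_mul]
  exact hxc

/-- an element of `L(D + P)` as a (principal) element of `𝔸(D + P)`. -/
def prAdele (f : ↥(riemannRochSpace (addP D P))) : ↥(repartitionsOf (addP D P)) :=
  mkAdele (addP D P) (fun _ => (f : F)) (mem_riemannRochSpace_iff.mp f.2)

theorem adMap_prAdele (f : ↥(riemannRochSpace (addP D P))) :
    adMap D P ht ht1 (prAdele D P f) = lcMap D P ht ht1 f := rfl

theorem prAdele_mem_principal (f : ↥(riemannRochSpace (addP D P))) :
    ((prAdele D P f : ↥(repartitionsOf (addP D P))) : ↥(repartitions K F))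
      ∈ principalRepartitions K F :=
  mem_principalRepartitions_iff.mpr ⟨(f : F), rfl⟩

/-- **Key lemma**: an element of `𝔸(D + P)` lies in `𝔸(D) + F` iff its leading coefficient
is the leading coefficient of a function in `L(D + P)`. -/
theorem mem_sup_iff_adMap_mem_range (α : ↥(repartitionsOf (addP D P))) :
    (α : ↥(repartitions K F)) ∈ repartitionsOf D ⊔ principalRepartitions K F ↔
      adMap D P ht ht1 α ∈ LinearMap.range (lcMap D P ht ht1) := by
  constructor
  · intro hα
    obtain ⟨β, hβ, φ, hφ, hsum⟩ := Submodule.mem_sup.mp hα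
    obtain ⟨f, hf⟩ := mem_principalRepartitions_iff.mp hφ
    have hβ' : β ∈ repartitionsOf (addP D P) := repartitionsOf_mono (le_add_single D P) hβ
    have hφ' : φ ∈ repartitionsOf (addP D P) := by
      have : φ = (α : ↥(repartitions K F)) - β := by rw [← hsum]; abel
      rw [this]
      exact Submodule.sub_mem _ α.2 hβ'
    have hfL : f ∈ riemannRochSpace (addP D P) := by
      rw [mem_riemannRochSpace_iff]
      intro v
      have := mem_repartitionsOf_iff.mp hφ' v
      rw [hf] at this
      exact this
    have e1 : α = ⟨β, hβ'⟩ + prAdele D P ⟨f, hfL⟩ := by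
      apply Subtype.ext
      apply Subtype.ext
      have : ((φ : ↥(repartitions K F)) : Place K F → F)
          = (((prAdele D P ⟨f, hfL⟩ : ↥(repartitionsOf (addP D P))) :
              ↥(repartitions K F)) : Place K F → F) := hf
      show ((α : ↥(repartitions K F)) : Place K F → F)
        = (β : Place K F → F)
          + (((prAdele D P ⟨f, hfL⟩ : ↥(repartitionsOf (addP D P))) :
              ↥(repartitions K F)) : Place K F → F)
      rw [← this, ← hsum]
      rfl
    rw [e1, map_add, adMap_prAdele,
      (adMap_eq_zero_iff D P ht ht1 ⟨β, hβ'⟩).mpr hβ, zero_add]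
    exact LinearMap.mem_range_self _ _
  · rintro ⟨f, hf⟩
    rw [← adMap_prAdele] at hf
    have h0 : adMap D P ht ht1 (α - prAdele D P f) = 0 := by
      rw [(adMap D P ht ht1).map_sub α (prAdele D P f), hf, sub_self]
    have h1 := (adMap_eq_zero_iff D P ht ht1 _).mp h0
    have h2' : α = (α - prAdele D P f) + prAdele D P f := by abel
    have h2 : (α : ↥(repartitions K F))
        = ((α - prAdele D P f : ↥(repartitionsOf (addP D P))) : ↥(repartitions K F))
          + ((prAdele D P f : ↥(repartitionsOf (addP D P))) : ↥(repartitions K F)) :=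
      congrArg Subtype.val h2'
    rw [h2]
    exact Submodule.add_mem_sup h1 (prAdele_mem_principal D P f)

end OneStep


/-! ### The one-place step on `H1` -/

section OneStepH1

variable (D : Divisor K F) (P : Place K F) {t : F} (ht : t ≠ 0) (ht1 : P.ord t = 1)

theorem sup_le_sup_addP :
    repartitionsOf D ⊔ principalRepartitions K F
      ≤ repartitionsOf (addP D P) ⊔ principalRepartitions K F :=
  sup_le_sup_right (repartitionsOf_mono (le_add_single D P)) _

/-- The canonical surjection `H1 D → H1 (D + P)`. -/
def H1step : H1 D →ₗ[K] H1 (addP D P) := Submodule.factor (sup_le_sup_addP D P)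

theorem H1step_mk (m : ↥(repartitions K F)) :
    H1step D P (Submodule.Quotient.mk m) = Submodule.Quotient.mk m := rfl

theorem H1step_surjective : Function.Surjective (H1step D P) := by
  intro y
  obtain ⟨m, rfl⟩ := Submodule.Quotient.mk_surjective _ y
  exact ⟨Submodule.Quotient.mk m, rfl⟩

/-- `𝔸(D + P) → H1 D`. -/
def toH1 : ↥(repartitionsOf (addP D P)) →ₗ[K] H1 D :=
  (repartitionsOf D ⊔ principalRepartitions K F).mkQ ∘ₗ (repartitionsOf (addP D P)).subtype

theorem toH1_apply (a : ↥(repartitionsOf (addP D P))) :
    toH1 D P a = Submodule.Quotient.mk (a : ↥(repartitions K F)) := rfl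

theorem toH1_eq_zero_iff (a : ↥(repartitionsOf (addP D P))) :
    toH1 D P a = 0 ↔
      (a : ↥(repartitions K F)) ∈ repartitionsOf D ⊔ principalRepartitions K F := by
  rw [toH1_apply, Submodule.Quotient.mk_eq_zero]

theorem ker_H1step : LinearMap.ker (H1step D P) = LinearMap.range (toH1 D P) := by
  ext x
  obtain ⟨m, rfl⟩ := Submodule.Quotient.mk_surjective _ x
  rw [LinearMap.mem_ker, LinearMap.mem_range, H1step_mk, Submodule.Quotient.mk_eq_zero]
  constructor
  · intro hm
    obtain ⟨a, ha, φ, hφ, rfl⟩ := Submodule.mem_sup.mp hm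
    refine ⟨⟨a, ha⟩, ?_⟩
    rw [toH1_apply, Submodule.Quotient.eq]
    have : a - (a + φ) = -φ := by abel
    rw [this]
    exact Submodule.neg_mem _ (Submodule.mem_sup_right hφ)
  · rintro ⟨a, ha⟩
    rw [toH1_apply, Submodule.Quotient.eq] at ha
    have h1 : (a : ↥(repartitions K F))
        ∈ repartitionsOf (addP D P) ⊔ principalRepartitions K F :=
      Submodule.mem_sup_left a.2
    have h2 := sup_le_sup_addP D P ha
    have : m = (a : ↥(repartitions K F)) - ((a : ↥(repartitions K F)) - m) := by abel
    rw [this]
    exact Submodule.sub_mem _ h1 h2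

include ht ht1 in
/-- the connecting map `κ(P) → H1 D`. -/
theorem exists_connecting :
    ∃ ν : P.ResidueField →ₗ[K] H1 D,
      LinearMap.range ν = LinearMap.ker (H1step D P) ∧
        LinearMap.ker ν = LinearMap.range (lcMap D P ht ht1) := by
  obtain ⟨s, hs⟩ := (adMap D P ht ht1).exists_rightInverse_of_surjective
    (LinearMap.range_eq_top.mpr (adMap_surjective D P ht ht1))
  have hs' : ∀ c, adMap D P ht ht1 (s c) = c := fun c => LinearMap.congr_fun hs c
  refine ⟨toH1 D P ∘ₗ s, ?_, ?_⟩
  · rw [ker_H1step]
    apply le_antisymm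
    · rintro _ ⟨c, rfl⟩
      exact ⟨s c, rfl⟩
    · rintro _ ⟨a, rfl⟩
      refine ⟨adMap D P ht ht1 a, ?_⟩
      rw [LinearMap.comp_apply, toH1_apply, toH1_apply, Submodule.Quotient.eq]
      apply Submodule.mem_sup_left
      have h0 : adMap D P ht ht1 (s (adMap D P ht ht1 a) - a) = 0 := by
        rw [(adMap D P ht ht1).map_sub (s (adMap D P ht ht1 a)) a, hs', sub_self]
      exact (adMap_eq_zero_iff D P ht ht1 _).mp h0
  · ext c
    rw [LinearMap.mem_ker, LinearMap.comp_apply, toH1_eq_zero_iff,
      mem_sup_iff_adMap_mem_range D P ht ht1, hs']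

include ht ht1 in
theorem finrank_ker_H1step [Module.Finite K P.ResidueField]
    [FiniteDimensional K ↥(riemannRochSpace D)] :
    Module.finrank K ↥(LinearMap.ker (H1step D P)) + ell (addP D P) = ell D + P.deg := by
  obtain ⟨ν, hν1, hν2⟩ := exists_connecting D P ht ht1
  have h1 := LinearMap.finrank_range_add_finrank_ker ν
  rw [hν1, hν2] at h1
  have h2 := ell_add_single D P ht ht1
  unfold Place.deg
  omega

include ht ht1 in
theorem finite_ker_H1step [Module.Finite K P.ResidueField] :
    Module.Finite K ↥(LinearMap.ker (H1step D P)) := by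
  obtain ⟨ν, hν1, -⟩ := exists_connecting D P ht ht1
  rw [← hν1]
  exact Module.Finite.range ν

include ht ht1 in
/-- finiteness descends one step. -/
theorem finiteDimensional_H1_of_addP [Module.Finite K P.ResidueField]
    (hfd : FiniteDimensional K (H1 (addP D P))) : FiniteDimensional K (H1 D) := by
  have := finite_ker_H1step D P ht ht1
  have : Module.Finite K (H1 D ⧸ LinearMap.ker (H1step D P)) :=
    Module.Finite.equiv
      ((H1step D P).quotKerEquivOfSurjective (H1step_surjective D P)).symm
  exact Module.Finite.of_submodule_quotient (LinearMap.ker (H1step D P))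

include ht ht1 in
/-- the one-step dimension formula. -/
theorem finrank_H1_step [Module.Finite K P.ResidueField]
    [FiniteDimensional K ↥(riemannRochSpace D)] [FiniteDimensional K (H1 D)] :
    Module.finrank K (H1 D) + ell (addP D P)
      = Module.finrank K (H1 (addP D P)) + ell D + P.deg := by
  have h1 := LinearMap.finrank_range_add_finrank_ker (H1step D P)
  rw [LinearMap.range_eq_top.mpr (H1step_surjective D P), finrank_top] at h1
  have h2 := finrank_ker_H1step D P ht ht1
  omega

include ht ht1 in
/-- if the leading-coefficient map on `L(D + P)` is onto, then `𝔸(D + P) ⊆ 𝔸(D) + F`. -/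
theorem repartitionsOf_addP_le_of_surjective
    (hsurj : LinearMap.range (lcMap D P ht ht1) = ⊤) :
    repartitionsOf (addP D P) ≤ repartitionsOf D ⊔ principalRepartitions K F := by
  intro a ha
  have := (mem_sup_iff_adMap_mem_range D P ht ht1 ⟨a, ha⟩).mpr (by rw [hsurj]; trivial)
  exact this

end OneStepH1


/-! ### Vanishing of `H1` on divisors where Riemann's bound is attained -/

namespace FFBase

variable (h : FFBase K F)
include h

/-- `D` attains the maximum of `deg D - l(D) + 1`. -/
def IsGood (D : Divisor K F) : Prop := Divisor.degree D - ell D + 1 = h.gR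

theorem isGood_of_le {B B' : Divisor K F} (hB : h.IsGood B) (hBB' : B ≤ B') : h.IsGood B' := by
  have h1 := h.deg_sub_ell_mono hBB'
  have h2 := h.riemann_inequality B'
  unfold IsGood at hB ⊢
  omega

theorem exists_isGood_ge (D : Divisor K F) : ∃ E : Divisor K F, 0 ≤ E ∧ h.IsGood (D + E) := by
  obtain ⟨D0, hD0⟩ := h.exists_eq_gR
  refine ⟨(D0 - D) ⊔ 0, le_sup_right, h.isGood_of_le hD0 ?_⟩
  have : D0 - D ≤ (D0 - D) ⊔ 0 := le_sup_left
  calc D0 = D + (D0 - D) := by abel
    _ ≤ D + ((D0 - D) ⊔ 0) := by gcongr

theorem range_lcMap_eq_top_of_isGood {B : Divisor K F} (hB : h.IsGood B) (P : Place K F)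
    {t : F} (ht : t ≠ 0) (ht1 : P.ord t = 1) :
    LinearMap.range (lcMap B P ht ht1) = ⊤ := by
  have := h.finRes P
  have := h.finiteDimensional_riemannRochSpace B
  have hB' := h.isGood_of_le hB (le_add_single B P)
  have h1 := ell_add_single B P ht ht1
  have h2 := degree_addP B P
  unfold IsGood at hB hB'
  apply Submodule.eq_top_of_finrank_eq
  have : (Module.finrank K ↥(LinearMap.range (lcMap B P ht ht1)) : ℤ) = P.deg := by
    have h1' : (ell (addP B P) : ℤ)
        = ell B + Module.finrank K ↥(LinearMap.range (lcMap B P ht ht1)) := by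
      exact_mod_cast h1
    omega
  unfold Place.deg at this
  exact_mod_cast this

theorem repartitionsOf_add_le_of_isGood {B : Divisor K F} (hB : h.IsGood B) :
    ∀ E : Divisor K F, 0 ≤ E →
      repartitionsOf (B + E) ≤ repartitionsOf B ⊔ principalRepartitions K F := by
  refine effective_induction (p := fun E =>
    repartitionsOf (B + E) ≤ repartitionsOf B ⊔ principalRepartitions K F) ?_ ?_
  · rw [add_zero]
    exact le_sup_left
  · intro E P hE ih
    obtain ⟨t, ht, ht1⟩ := exists_uniformizer P
    have hgood : h.IsGood (B + E) := h.isGood_of_le hB (le_add_of_nonneg_right hE)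
    have e : B + addP E P = addP (B + E) P := by
      simp only [addP, add_assoc]
    rw [e]
    refine (repartitionsOf_addP_le_of_surjective (B + E) P ht ht1
      (h.range_lcMap_eq_top_of_isGood hgood P ht ht1)).trans ?_
    exact sup_le (ih.trans le_rfl) le_sup_right

theorem sup_eq_top_of_isGood {B : Divisor K F} (hB : h.IsGood B) :
    repartitionsOf B ⊔ principalRepartitions K F = ⊤ := by
  rw [eq_top_iff]
  intro α _
  obtain ⟨E, hE, hα⟩ := h.exists_effective_mem B α
  exact h.repartitionsOf_add_le_of_isGood hB E hE hα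

theorem subsingleton_H1_of_isGood {B : Divisor K F} (hB : h.IsGood B) :
    Subsingleton (H1 B) :=
  Submodule.Quotient.subsingleton_iff.mpr (h.sup_eq_top_of_isGood hB)

/-! ### Descent: Riemann-Roch in Weil's form -/

theorem H1_descent (E : Divisor K F) (hE : 0 ≤ E) :
    ∀ D : Divisor K F, FiniteDimensional K (H1 (D + E)) →
      FiniteDimensional K (H1 D) ∧
        (ell D : ℤ) - Module.finrank K (H1 D) - Divisor.degree D
          = ell (D + E) - Module.finrank K (H1 (D + E)) - Divisor.degree (D + E) := by
  refine effective_induction (p := fun E => ∀ D : Divisor K F,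
      FiniteDimensional K (H1 (D + E)) →
      FiniteDimensional K (H1 D) ∧
        (ell D : ℤ) - Module.finrank K (H1 D) - Divisor.degree D
          = ell (D + E) - Module.finrank K (H1 (D + E)) - Divisor.degree (D + E)) ?_ ?_ E hE
  · intro D hD
    rw [add_zero] at hD ⊢
    exact ⟨hD, rfl⟩
  · intro E P _ ih D hD
    obtain ⟨t, ht, ht1⟩ := exists_uniformizer P
    have := h.finRes P
    have e : D + addP E P = addP (D + E) P := by
      simp only [addP, add_assoc]
    rw [e] at hD ⊢
    have hfd1 : FiniteDimensional K (H1 (D + E)) :=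
      finiteDimensional_H1_of_addP (D + E) P ht ht1 hD
    obtain ⟨hfd0, hform⟩ := ih D hfd1
    refine ⟨hfd0, ?_⟩
    have := h.finiteDimensional_riemannRochSpace (D + E)
    have h1 := finrank_H1_step (D + E) P ht ht1
    have h2 := degree_addP (D + E) P
    have h1' : (Module.finrank K (H1 (D + E)) : ℤ) + ell (addP (D + E) P)
        = Module.finrank K (H1 (addP (D + E) P)) + ell (D + E) + P.deg := by
      exact_mod_cast h1
    omega

/-- `H1 D` is finite-dimensional. -/
theorem finiteDimensional_H1 (D : Divisor K F) : FiniteDimensional K (H1 D) := by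
  obtain ⟨E, hE, hgood⟩ := h.exists_isGood_ge D
  have := h.subsingleton_H1_of_isGood hgood
  exact (h.H1_descent E hE D inferInstance).1

/-- **Riemann-Roch, Weil's form**: `l(D) - dim H1(D) = deg D + 1 - gR`. -/
theorem riemann_roch_weil (D : Divisor K F) :
    (ell D : ℤ) - Module.finrank K (H1 D) = Divisor.degree D + 1 - h.gR := by
  obtain ⟨E, hE, hgood⟩ := h.exists_isGood_ge D
  have hss := h.subsingleton_H1_of_isGood hgood
  have h1 := (h.H1_descent E hE D inferInstance).2
  have h2 : Module.finrank K (H1 (D + E)) = 0 := Module.finrank_zero_of_subsingleton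
  unfold IsGood at hgood
  rw [h2] at h1
  push_cast at h1
  omega

/-- the frozen genus in terms of the Riemann genus. -/
theorem genusFF_eq : (genusFF K F : ℤ) = h.gR + ell (0 : Divisor K F) - 1 := by
  have := h.riemann_roch_weil (0 : Divisor K F)
  rw [map_zero] at this
  unfold genusFF
  omega

theorem genusFF_eq_gR (h0 : ell (0 : Divisor K F) = 1) : (genusFF K F : ℤ) = h.gR := by
  rw [h.genusFF_eq, h0]
  simp

/-- **Riemann-Roch** with the frozen genus, when `l(0) = 1`. -/
theorem riemann_roch_genusFF (h0 : ell (0 : Divisor K F) = 1) (D : Divisor K F) :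
    (ell D : ℤ) - Module.finrank K (H1 D) = Divisor.degree D + 1 - genusFF K F := by
  rw [h.genusFF_eq_gR h0]
  exact h.riemann_roch_weil D

/-- **Riemann's inequality** with the frozen genus. -/
theorem riemann_inequality_genusFF (h0 : ell (0 : Divisor K F) = 1) (D : Divisor K F) :
    Divisor.degree D + 1 - genusFF K F ≤ ell D := by
  rw [h.genusFF_eq_gR h0]
  exact h.riemann_inequality D

/-- **Riemann's theorem** with the frozen genus. -/
theorem exists_degree_bound_genusFF (h0 : ell (0 : Divisor K F) = 1) :
    ∃ c : ℤ, ∀ D : Divisor K F, c ≤ Divisor.degree D →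
      (ell D : ℤ) = Divisor.degree D + 1 - genusFF K F := by
  rw [h.genusFF_eq_gR h0]
  exact h.exists_riemann_degree_bound

/-- `H1 D = 0` for `deg D` large. -/
theorem exists_H1_subsingleton_bound :
    ∃ c : ℤ, ∀ D : Divisor K F, c ≤ Divisor.degree D → Subsingleton (H1 D) := by
  obtain ⟨c, hc⟩ := h.exists_riemann_degree_bound
  refine ⟨c, fun D hD => ?_⟩
  have h1 := hc D hD
  have h2 := h.riemann_roch_weil D
  have := h.finiteDimensional_H1 D
  have h3 : Module.finrank K (H1 D) = 0 := by omega
  exact Module.finrank_zero_iff.mp h3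

end FFBase

/-- the canonical surjection `H1 D → H1 D'` for `D ≤ D'`. -/
def H1map {D D' : Divisor K F} (hDD' : D ≤ D') : H1 D →ₗ[K] H1 D' :=
  Submodule.factor (sup_le_sup_right (repartitionsOf_mono hDD') _)

theorem H1map_surjective {D D' : Divisor K F} (hDD' : D ≤ D') :
    Function.Surjective (H1map hDD') := by
  intro y
  obtain ⟨m, rfl⟩ := Submodule.Quotient.mk_surjective _ y
  exact ⟨Submodule.Quotient.mk m, rfl⟩

end Fermat.Agent.RR.H76
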