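import Mathlib
import Fermat.Agent.RR.H52_ZeroDegree
import Fermat.Agent.RR.H43_PrincipalDivisors
import Fermat.Agent.RR.H76_Weil

set_option autoImplicit false

/-!
# The function-field inputs of the RR bank, unconditionally

(S18 / RR-general-function-fields, helper52.)  Characteristic free.

For `F/K` with `t : F` transcendental over `K` and `F/K(t)` finite, all six fields of
helper43's `FFInputs K F` hold, hence helper76's `FFBase K F`, hence the whole RR bank
(`HasPrincipalDivisors`, Riemann's inequality, Riemann-Roch in Weil form, ...).
-/

noncomputable section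

open Polynomial IntermediateField AlgebraicCurve WithZero

namespace Fermat.Agent.RR.H52

variable {K F : Type*} [Field K] [Field F] [Algebra K F]

section

variable (t : F) (ht : Transcendental K t) [FiniteDimensional K⟮t⟯ F]
include ht

/-- Stichtenoth 1.3.3 with integer coefficients. -/
theorem sum_ord_mul_deg_le_int {x : F} (hx : Transcendental K x) (s : Finset (Place K F))
    (hs : ∀ v ∈ s, 0 < v.ord x) :
    (∑ v ∈ s, v.ord x * (v.deg : ℤ)) ≤ (Module.finrank K⟮x⟯ F : ℤ) := by
  have h := sum_ord_mul_deg_le t ht hx s hs
  have h2 : (∑ v ∈ s, v.ord x * (v.deg : ℤ)) = ((∑ v ∈ s, (v.ord x).toNat * v.deg : ℕ) : ℤ) := by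
    rw [Nat.cast_sum]
    refine Finset.sum_congr rfl fun v hv => ?_
    rw [Nat.cast_mul, Int.toNat_of_nonneg (hs v hv).le]
  rw [h2]
  exact_mod_cast h

/-- A transcendental element has a pole. -/
theorem exists_place_ord_neg {z : F} (hz : Transcendental K z) : ∃ v : Place K F, v.ord z < 0 := by
  have hz0 : z ≠ 0 := fun h => hz (h ▸ isAlgebraic_zero)
  obtain ⟨v, hv⟩ := exists_place_one_lt_val t ht hz
  exact ⟨v, (one_lt_val_iff_ord_neg v hz0).mp hv⟩

/-- A transcendental element has a zero. -/
theorem exists_place_ord_pos {z : F} (hz : Transcendental K z) : ∃ v : Place K F, 0 < v.ord z := by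
  have hz0 : z ≠ 0 := fun h => hz (h ▸ isAlgebraic_zero)
  obtain ⟨v, hv⟩ := exists_place_val_lt_one t ht hz
  exact ⟨v, (val_lt_one_iff_ord_pos v hz0).mp hv⟩

/-- helper43's input bundle holds in every function field of one variable. -/
theorem ffInputs : H43.FFInputs K F where
  finRes := finiteResidue t ht
  finOrd := fun _ hf => finite_ord_ne_zero t ht hf
  finAdj := fun _ hz => finiteDimensional_adjoin_of_transcendental t ht hz
  zeroDeg := fun _ hz s hs => sum_ord_mul_deg_le_int t ht hz s hs
  existsPole := fun _ hz => exists_place_ord_neg t ht hz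
  existsTrans := ⟨t, ht⟩

/-- helper76's hypothesis bundle of the RR bank holds in every function field of one variable. -/
theorem ffBase : H76.FFBase K F := (ffInputs t ht).ffBase

/-- Principal divisors exist and have degree zero, in every function field of one variable
(any characteristic, any constant field). -/
theorem hasPrincipalDivisors : HasPrincipalDivisors K F := (ffInputs t ht).hasPrincipalDivisors

/-- `[F : K(z)] = deg (z)_∞` for every transcendental `z`. -/
theorem degree_divPole_eq {z : F} (hz : Transcendental K z) :
    Divisor.degree ((ffInputs t ht).divPole z) = (Module.finrank K⟮z⟯ F : ℤ) :=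
  (ffInputs t ht).degree_divPole_eq hz

/-- An element is algebraic over `K` iff it has neither zeros nor poles. -/
theorem forall_ord_eq_zero_iff_isAlgebraic {f : F} :
    (∀ v : Place K F, v.ord f = 0) ↔ IsAlgebraic K f :=
  (ffInputs t ht).forall_ord_eq_zero_iff_isAlgebraic

/-- Over an algebraically closed constant field, a function without zeros and poles is a
constant (helper11's `hconst`). -/
theorem exists_eq_algebraMap_of_forall_ord_eq_zero [IsAlgClosed K] {c : F}
    (h : ∀ v : Place K F, v.ord c = 0) : ∃ a : K, c = algebraMap K F a := by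
  have halg : IsAlgebraic K c := (forall_ord_eq_zero_iff_isAlgebraic t ht).mp h
  have hint : IsIntegral K c := halg.isIntegral
  have hdeg : (minpoly K c).degree = 1 :=
    IsAlgClosed.degree_eq_one_of_irreducible K (minpoly.irreducible hint)
  obtain ⟨a, ha⟩ := minpoly.mem_range_of_degree_eq_one K c hdeg
  exact ⟨a, ha.symm⟩

/-- Over an algebraically closed constant field, `L(0) = K`, i.e. `ell 0 = 1`. -/
theorem ell_zero_eq_one [IsAlgClosed K] : H76.ell (0 : Divisor K F) = 1 := by
  have h1 : riemannRochSpace (0 : Divisor K F) = Submodule.span K {(1 : F)} := by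
    apply le_antisymm
    · intro f hf
      have halg : IsAlgebraic K f := (ffInputs t ht).isAlgebraic_of_mem_L0 hf
      have hint : IsIntegral K f := halg.isIntegral
      have hdeg : (minpoly K f).degree = 1 :=
        IsAlgClosed.degree_eq_one_of_irreducible K (minpoly.irreducible hint)
      obtain ⟨a, ha⟩ := minpoly.mem_range_of_degree_eq_one K f hdeg
      rw [Submodule.mem_span_singleton]
      exact ⟨a, by rw [← ha, Algebra.smul_def, mul_one]⟩
    · rw [Submodule.span_le, Set.singleton_subset_iff]
      exact H43.FFInputs.mem_L0_of_isAlgebraic isAlgebraic_one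
  unfold H76.ell
  rw [h1]
  exact finrank_span_singleton one_ne_zero

/-! ### The RR bank, unconditionally (algebraically closed constant field) -/

/-- `deg v = 1` for every place, when `K` is algebraically closed. -/
theorem deg_eq_one [IsAlgClosed K] (v : Place K F) : v.deg = 1 := by
  have hfin : Module.Finite K v.ResidueField := finiteResidue t ht v
  have hsurj : Function.Surjective (algebraMap K v.ResidueField) :=
    (IsAlgClosed.algebraMap_bijective_of_isIntegral (k := K)).2
  have hbot : (⊤ : Submodule K v.ResidueField) = Submodule.span K {(1 : v.ResidueField)} := by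
    apply le_antisymm
    · intro r _
      obtain ⟨a, ha⟩ := hsurj r
      rw [Submodule.mem_span_singleton]
      exact ⟨a, by rw [← ha, Algebra.smul_def, mul_one]⟩
    · exact le_top
  have h1 : Module.finrank K (⊤ : Submodule K v.ResidueField) = 1 := by
    rw [hbot]; exact finrank_span_singleton one_ne_zero
  rw [finrank_top] at h1
  exact h1

theorem finiteDimensional_riemannRochSpace (D : Divisor K F) :
    FiniteDimensional K ↥(riemannRochSpace D) :=
  (ffBase t ht).finiteDimensional_riemannRochSpace D

theorem finiteDimensional_H1 (D : Divisor K F) : FiniteDimensional K (H1 D) :=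
  (ffBase t ht).finiteDimensional_H1 D

/-- **Riemann-Roch (Weil form)** with the frozen `genusFF`, `K` algebraically closed. -/
theorem riemann_roch_genusFF [IsAlgClosed K] (D : Divisor K F) :
    (Module.finrank K ↥(riemannRochSpace D) : ℤ) - Module.finrank K (H1 D)
      = Divisor.degree D + 1 - genusFF K F :=
  (ffBase t ht).riemann_roch_genusFF (ell_zero_eq_one t ht) D

/-- **Riemann's inequality** with the frozen `genusFF`, `K` algebraically closed. -/
theorem riemann_inequality_genusFF [IsAlgClosed K] (D : Divisor K F) :
    Divisor.degree D + 1 - genusFF K F ≤ Module.finrank K ↥(riemannRochSpace D) :=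
  (ffBase t ht).riemann_inequality_genusFF (ell_zero_eq_one t ht) D

/-- **Riemann's theorem** with the frozen `genusFF`, `K` algebraically closed. -/
theorem exists_degree_bound_genusFF [IsAlgClosed K] :
    ∃ c : ℤ, ∀ D : Divisor K F, c ≤ Divisor.degree D →
      (Module.finrank K ↥(riemannRochSpace D) : ℤ) = Divisor.degree D + 1 - genusFF K F :=
  (ffBase t ht).exists_degree_bound_genusFF (ell_zero_eq_one t ht)

theorem exists_H1_subsingleton_bound :
    ∃ c : ℤ, ∀ D : Divisor K F, c ≤ Divisor.degree D → Subsingleton (H1 D) :=
  (ffBase t ht).exists_H1_subsingleton_bound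

end

end Fermat.Agent.RR.H52
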