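import Mathlib
import Fermat.Prelude.Def_AlgebraicCurve_Repartitions
import Fermat.Agent.RR.H52_PlaceBasic

set_option autoImplicit false
set_option linter.style.haveILetI false

/-!
# Existence of places of a function field (prelude vocabulary)

(S18 / RR bank, package `RR-PlaceExist`, helper60; the half of helper52's (FF) offered in #1748.)
Mathlib + Prelude (+ `H52_PlaceBasic`) only, characteristic free.

Setting: `K ⊆ F` fields, `t : F` transcendental over `K` with `F / K(t)` finite.

* `finiteDimensional_adjoin_of_transcendental` : `F / K(x)` is finite for every transcendental `x`.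
* `linearIndependent_of_chain` : Stichtenoth 1.1.7 (chain lemma) in valuation form.
* `isPrincipalIdealRing_of_valuationSubring` : Stichtenoth 1.1.6, every proper valuation subring
  of `F` containing `K` is a PID (hence a DVR); `placeOfValuationSubring`.
* `exists_place_pos_ord`, `exists_place_neg_ord` : a transcendental element has a zero and a pole.
* `isAlgebraic_of_forall_ord_nonneg` : elements without poles are algebraic over `K`.
-/

noncomputable section

open AlgebraicCurve IntermediateField Polynomial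

universe u v

namespace Fermat.Agent.RR.H60

variable {K : Type u} {F : Type v} [Field K] [Field F] [Algebra K F]

/-! ### (0) exchange of the separating element -/

/-- Exchange: if `F/K(x)` is algebraic with `x` transcendental, then `F/K(y)` is algebraic for
every transcendental `y`. -/
theorem isAlgebraic_adjoin_of_transcendental (x : F) (hx : Transcendental K x)
    [Algebra.IsAlgebraic K⟮x⟯ F] {y : F} (hy : Transcendental K y) :
    Algebra.IsAlgebraic K⟮y⟯ F := by
  have hxi : AlgebraicIndependent K (fun _ : PUnit.{v + 1} => x) :=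
    algebraicIndependent_unique_type_iff.mpr hx
  have hyi : AlgebraicIndependent K (fun _ : PUnit.{v + 1} => y) :=
    algebraicIndependent_unique_type_iff.mpr hy
  have hxb : IsTranscendenceBasis K (fun _ : PUnit.{v + 1} => x) := by
    rw [hxi.isTranscendenceBasis_iff_isAlgebraic]
    have hr : Set.range (fun _ : PUnit.{v + 1} => x) = {x} := by
      ext z; simp
    rw [hr]
    open algebraAdjoinAdjoin in
    exact Algebra.IsAlgebraic.trans (Algebra.adjoin K {x}) K⟮x⟯ F
  have htr : Algebra.trdeg K F = 1 := by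
    rw [← hxb.cardinalMk_eq_trdeg]; simp
  have hyb : IsTranscendenceBasis K (fun _ : PUnit.{v + 1} => y) :=
    hyi.isTranscendenceBasis_of_trdeg_le_of_finite (by rw [htr]; simp)
  have := hyb.isAlgebraic_field
  have hr : Set.range (fun _ : PUnit.{v + 1} => y) = {y} := by
    ext z; simp
  rwa [hr] at this

/-- `F` is finite over `K(x)` for every transcendental `x`. -/
theorem finiteDimensional_adjoin_of_transcendental (t : F) (ht : Transcendental K t)
    [FiniteDimensional K⟮t⟯ F] {x : F} (hx : Transcendental K x) : FiniteDimensional K⟮x⟯ F := by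
  haveI : Algebra.IsAlgebraic K⟮t⟯ F := inferInstance
  haveI := isAlgebraic_adjoin_of_transcendental (K := K) t ht hx
  haveI : Algebra.EssFiniteType K K⟮t⟯ :=
    IntermediateField.essFiniteType_iff.mpr
      (IntermediateField.fg_adjoin_of_finite (Set.finite_singleton t))
  haveI : Algebra.EssFiniteType K⟮t⟯ F := inferInstance
  haveI : Algebra.EssFiniteType K F := Algebra.EssFiniteType.comp K K⟮t⟯ F
  haveI : Algebra.EssFiniteType K⟮x⟯ F := Algebra.EssFiniteType.of_comp K K⟮x⟯ F
  exact Algebra.finite_of_essFiniteType_of_isAlgebraic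

/-! ### (1) the chain lemma -/

theorem zpow_mul_ne_of_lt {Γ : Type*} [LinearOrderedCommGroupWithZero Γ] {a b c : Γ}
    (ha0 : a ≠ 0) (ha1 : a < 1) (hab : a ≤ b) (hbc : b < c) (hc : c < 1) (m n : ℤ) :
    a ^ m * b ≠ a ^ n * c := by
  intro h
  have hapos : 0 < a := zero_lt_iff.mpr ha0
  have hb : b = a ^ (n - m) * c := by
    rw [zpow_sub₀ ha0, div_mul_eq_mul_div, eq_div_iff (zpow_ne_zero m ha0), mul_comm, h]
  rcases le_or_gt 1 (n - m) with hk | hk
  · have h1 : a ^ (n - m) ≤ a := by
      have := zpow_le_zpow_right_of_le_one₀ hapos ha1.le hk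
      simpa using this
    have h2 : b < a := by
      calc b = a ^ (n - m) * c := hb
        _ ≤ a * c := mul_le_mul' h1 le_rfl
        _ < a * 1 := by
            exact mul_lt_mul_of_pos_left hc hapos
        _ = a := mul_one a
    exact absurd hab (not_le.mpr h2)
  · have hk' : n - m ≤ 0 := by omega
    have h1 : 1 ≤ a ^ (n - m) := one_le_zpow_of_nonpos₀ hapos ha1.le hk'
    have h2 : c ≤ b := by
      calc c = 1 * c := (one_mul c).symm
        _ ≤ a ^ (n - m) * c := mul_le_mul' h1 le_rfl
        _ = b := hb.symm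
    exact absurd hbc (not_lt.mpr h2)

section Chain

variable (O : ValuationSubring F)

/-- The valuation subring `O ⊇ K` as a `K`-subalgebra of `F`. -/
def toSubalgebra (hK : ∀ a : K, algebraMap K F a ∈ O) : Subalgebra K F :=
  { O.toSubring with algebraMap_mem' := hK }

theorem mem_toSubalgebra (hK : ∀ a : K, algebraMap K F a ∈ O) (z : F) :
    z ∈ toSubalgebra O hK ↔ z ∈ O := Iff.rfl

theorem aeval_mem (hK : ∀ a : K, algebraMap K F a ∈ O) {x : F} (hx : x ∈ O) (q : K[X]) :
    aeval x q ∈ O := by
  have h := Polynomial.aeval_subalgebra_coe q (toSubalgebra O hK) ⟨x, hx⟩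
  have h2 : ((aeval (⟨x, hx⟩ : toSubalgebra O hK) q : toSubalgebra O hK) : F) ∈ O :=
    (aeval (⟨x, hx⟩ : toSubalgebra O hK) q).2
  rw [h] at h2
  exact h2

theorem valuation_algebraMap_eq_one (hK : ∀ a : K, algebraMap K F a ∈ O) {a : K} (ha : a ≠ 0) :
    O.valuation (algebraMap K F a) = 1 := by
  apply le_antisymm ((O.valuation_le_one_iff _).mpr (hK a))
  have h1 : O.valuation (algebraMap K F a⁻¹) ≤ 1 := (O.valuation_le_one_iff _).mpr (hK a⁻¹)
  rw [map_inv₀, map_inv₀] at h1
  have h0 : O.valuation (algebraMap K F a) ≠ 0 :=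
    (Valuation.ne_zero_iff _).mpr (by simpa using ha)
  rwa [inv_le_one₀ (zero_lt_iff.mpr h0)] at h1

/-- A polynomial in a nonunit `x` with nonzero constant term is a unit of `O`. -/
theorem valuation_aeval_eq_one (hK : ∀ a : K, algebraMap K F a ∈ O) {x : F}
    (hx : O.valuation x < 1) {q : K[X]} (hq : q.coeff 0 ≠ 0) :
    O.valuation (aeval x q) = 1 := by
  have hxO : x ∈ O := (O.valuation_le_one_iff x).mp hx.le
  have hdecomp : aeval x q = aeval x q.divX * x + algebraMap K F (q.coeff 0) := by
    conv_lhs => rw [← Polynomial.divX_mul_X_add q]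
    simp
  have h1 : O.valuation (aeval x q.divX * x) < 1 := by
    rw [map_mul]
    have h2 : O.valuation (aeval x q.divX) ≤ 1 :=
      (O.valuation_le_one_iff _).mpr (aeval_mem O hK hxO _)
    calc O.valuation (aeval x q.divX) * O.valuation x
        ≤ 1 * O.valuation x := mul_le_mul' h2 le_rfl
      _ = O.valuation x := one_mul _
      _ < 1 := hx
  rw [hdecomp, Valuation.map_add_eq_of_lt_right _
    (by rw [valuation_algebraMap_eq_one O hK hq]; exact h1),
    valuation_algebraMap_eq_one O hK hq]

/-- The value of a nonzero polynomial in a nonunit `x` is a power of the value of `x`. -/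
theorem exists_valuation_aeval_eq_pow (hK : ∀ a : K, algebraMap K F a ∈ O) {x : F}
    (hx : O.valuation x < 1) {r : K[X]} (hr : r ≠ 0) :
    ∃ m : ℕ, O.valuation (aeval x r) = O.valuation x ^ m := by
  obtain ⟨q, hq, hndvd⟩ := Polynomial.exists_eq_pow_rootMultiplicity_mul_and_not_dvd r hr 0
  rw [map_zero, sub_zero] at hq hndvd
  have hq0 : q.coeff 0 ≠ 0 := fun h => hndvd (Polynomial.X_dvd_iff.mpr h)
  refine ⟨r.rootMultiplicity 0, ?_⟩
  conv_lhs => rw [hq]
  rw [map_mul, map_pow, aeval_X, map_mul, map_pow, valuation_aeval_eq_one O hK hx hq0, mul_one]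

/-- A nonzero nonunit of a valuation subring containing `K` is transcendental over `K`. -/
theorem transcendental_of_valuation_lt_one (hK : ∀ a : K, algebraMap K F a ∈ O) {x : F}
    (hx0 : x ≠ 0) (hx : O.valuation x < 1) : Transcendental K x := by
  rintro ⟨r, hr, hr0⟩
  obtain ⟨m, hm⟩ := exists_valuation_aeval_eq_pow O hK hx hr
  rw [hr0, map_zero] at hm
  exact pow_ne_zero m ((Valuation.ne_zero_iff _).mpr hx0) hm.symm

/-- Elements of `F` algebraic over `K` lie in every valuation subring containing `K`. -/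
theorem mem_of_isAlgebraic (hK : ∀ a : K, algebraMap K F a ∈ O) {z : F} (hz : IsAlgebraic K z) :
    z ∈ O := by
  by_contra hzO
  have hz0 : z ≠ 0 := fun h => hzO (h ▸ O.zero_mem)
  have h1 : 1 < O.valuation z := by
    rw [← not_le, O.valuation_le_one_iff]; exact hzO
  have h2 : O.valuation z⁻¹ < 1 := by
    rw [map_inv₀]
    exact inv_lt_one_of_one_lt₀ h1
  exact transcendental_of_valuation_lt_one O hK (inv_ne_zero hz0) h2 hz.inv

/-- The value of a nonzero element of `K(x)`, `x` a nonunit, is an integral power of the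
value of `x`. -/
theorem exists_valuation_eq_zpow (hK : ∀ a : K, algebraMap K F a ∈ O) {x : F}
    (hx0 : x ≠ 0) (hx : O.valuation x < 1) {g : F} (hg : g ∈ K⟮x⟯) (hg0 : g ≠ 0) :
    ∃ m : ℤ, O.valuation g = O.valuation x ^ m := by
  obtain ⟨r, s, rfl⟩ := (IntermediateField.mem_adjoin_simple_iff K g).mp hg
  have hr : r ≠ 0 := by
    rintro rfl
    simp at hg0
  have hs : s ≠ 0 := by
    rintro rfl
    simp at hg0
  obtain ⟨a, ha⟩ := exists_valuation_aeval_eq_pow O hK hx hr
  obtain ⟨b, hb⟩ := exists_valuation_aeval_eq_pow O hK hx hs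
  refine ⟨(a : ℤ) - b, ?_⟩
  have hx0 : O.valuation x ≠ 0 := (Valuation.ne_zero_iff _).mpr hx0
  rw [map_div₀, ha, hb, zpow_sub₀ hx0, zpow_natCast, zpow_natCast]

/-- **Chain lemma** (Stichtenoth 1.1.7, valuation form): elements whose values increase strictly
inside the interval `[v x, 1)` are linearly independent over `K(x)`. -/
theorem linearIndependent_of_chain (hK : ∀ a : K, algebraMap K F a ∈ O) {x : F} (hx0 : x ≠ 0)
    (hx : O.valuation x < 1) {n : ℕ} (y : Fin n → F)
    (hy : StrictMono fun i => O.valuation (y i))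
    (hlo : ∀ i, O.valuation x ≤ O.valuation (y i)) (hhi : ∀ i, O.valuation (y i) < 1) :
    LinearIndependent K⟮x⟯ y := by
  classical
  rw [Fintype.linearIndependent_iff]
  intro g hg
  by_contra hne
  push Not at hne
  obtain ⟨j₀, hj₀⟩ := hne
  have hvx0 : O.valuation x ≠ 0 := (Valuation.ne_zero_iff _).mpr hx0
  set T : Fin n → F := fun i => (g i : F) * y i with hT
  have hgT : ∀ i, g i • y i = T i := fun i => rfl
  set S : Finset (Fin n) := Finset.univ.filter (fun i => g i ≠ 0) with hS
  have hSne : S.Nonempty := ⟨j₀, by simp [hS, hj₀]⟩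
  have hsum : ∑ i ∈ S, T i = 0 := by
    rw [← hg, hS, Finset.sum_filter]
    refine Finset.sum_congr rfl fun i _ => ?_
    by_cases h : g i = 0
    · simp [h]
    · simp [h, hT, IntermediateField.smul_def]
  -- values of the terms
  have hval : ∀ i ∈ S, ∃ m : ℤ, O.valuation (T i) = O.valuation x ^ m * O.valuation (y i) := by
    intro i hi
    have hgi : g i ≠ 0 := by simpa [hS] using hi
    have hgi' : ((g i : K⟮x⟯) : F) ≠ 0 := by simpa using hgi
    obtain ⟨m, hm⟩ := exists_valuation_eq_zpow O hK hx0 hx (g i).2 hgi'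
    exact ⟨m, by rw [hT]; simp only [map_mul, hm]⟩
  have hdist : ∀ i ∈ S, ∀ j ∈ S, i ≠ j → O.valuation (T i) ≠ O.valuation (T j) := by
    intro i hi j hj hij
    obtain ⟨m, hm⟩ := hval i hi
    obtain ⟨m', hm'⟩ := hval j hj
    rw [hm, hm']
    rcases lt_or_gt_of_ne hij with h | h
    · exact zpow_mul_ne_of_lt hvx0 hx (hlo i) (hy h) (hhi j) m m'
    · exact (zpow_mul_ne_of_lt hvx0 hx (hlo j) (hy h) (hhi i) m' m).symm
  obtain ⟨i₀, hi₀S, hmax⟩ := Finset.exists_max_image S (fun i => O.valuation (T i)) hSne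
  have hTi₀ : T i₀ ≠ 0 := by
    obtain ⟨m, hm⟩ := hval i₀ hi₀S
    intro h0
    rw [h0, map_zero] at hm
    have h1 : O.valuation (y i₀) ≠ 0 := fun h => hvx0 (le_antisymm (h ▸ hlo i₀) zero_le)
    exact mul_ne_zero (zpow_ne_zero m hvx0) h1 hm.symm
  have hlt : ∀ i ∈ S.erase i₀, O.valuation (T i) < O.valuation (T i₀) := by
    intro i hi
    have hiS : i ∈ S := Finset.mem_of_mem_erase hi
    have hne : i ≠ i₀ := Finset.ne_of_mem_erase hi
    exact lt_of_le_of_ne (hmax i hiS) (hdist i hiS i₀ hi₀S hne)
  have h1 : O.valuation (∑ i ∈ S.erase i₀, T i) < O.valuation (T i₀) :=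
    Valuation.map_sum_lt _ ((Valuation.ne_zero_iff _).mpr hTi₀) hlt
  have h2 : T i₀ = -∑ i ∈ S.erase i₀, T i := by
    rw [eq_neg_iff_add_eq_zero, Finset.add_sum_erase S T hi₀S, hsum]
  rw [h2, Valuation.map_neg] at h1
  exact lt_irrefl _ h1


theorem le_finrank_of_chain (t : F) (ht : Transcendental K t) [FiniteDimensional K⟮t⟯ F]
    (hK : ∀ a : K, algebraMap K F a ∈ O) {x : F} (hx0 : x ≠ 0)
    (hx : O.valuation x < 1) {n : ℕ} (y : Fin n → F)
    (hy : StrictMono fun i => O.valuation (y i))
    (hlo : ∀ i, O.valuation x ≤ O.valuation (y i)) (hhi : ∀ i, O.valuation (y i) < 1) :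
    n ≤ Module.finrank K⟮x⟯ F := by
  haveI := finiteDimensional_adjoin_of_transcendental t ht
    (transcendental_of_valuation_lt_one O hK hx0 hx)
  simpa using (linearIndependent_of_chain O hK hx0 hx y hy hlo hhi).fintype_card_le_finrank

end Chain

/-! ### (2) valuation subrings of `F / K` are discrete -/

section DVR

variable (t : F) (ht : Transcendental K t) [FiniteDimensional K⟮t⟯ F]
variable (O : ValuationSubring F) (hK : ∀ a : K, algebraMap K F a ∈ O)

include ht hK in
theorem wfDvdMonoid_of_valuationSubring : WfDvdMonoid O := by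
  refine ⟨wellFounded_iff_isEmpty_descending_chain.mpr ⟨?_⟩⟩
  rintro ⟨f, hf⟩
  have hne : ∀ n, f (n + 1) ≠ 0 := fun n => (hf n).1
  have hstep : ∀ n, O.valuation (f n : F) < O.valuation (f (n + 1) : F) := by
    intro n
    obtain ⟨h0, c, hc, hfc⟩ := hf n
    have hcv : O.valuation (c : F) < 1 := by
      rcases O.valuation_lt_one_or_eq_one c with h | h
      · exact h
      · exact absurd ((O.valuation_eq_one_iff c).mpr h) hc
    have hpos : 0 < O.valuation (f (n + 1) : F) := by
      rw [zero_lt_iff, Valuation.ne_zero_iff]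
      simpa using h0
    rw [hfc]
    push_cast
    rw [map_mul]
    calc O.valuation (f (n + 1) : F) * O.valuation (c : F)
        < O.valuation (f (n + 1) : F) * 1 := mul_lt_mul_of_pos_left hcv hpos
      _ = O.valuation (f (n + 1) : F) := mul_one _
  have hlt1 : ∀ n, O.valuation (f n : F) < 1 := fun n =>
    lt_of_lt_of_le (hstep n) (O.valuation_le_one _)
  have hmono : StrictMono (fun n => O.valuation (f n : F)) := strictMono_nat_of_lt_succ hstep
  set x : F := (f 1 : F) with hxdef
  have hx0 : x ≠ 0 := by simpa [hxdef] using hne 0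
  have hx : O.valuation x < 1 := hlt1 1
  set N := Module.finrank K⟮x⟯ F + 1 with hN
  have h := le_finrank_of_chain O t ht hK hx0 hx (n := N) (fun i => (f (1 + i) : F))
    (fun i j hij => hmono (by
      have : (i : ℕ) < j := hij
      omega))
    (fun i => hmono.monotone (by omega : 1 ≤ 1 + (i : ℕ)))
    (fun i => hlt1 _)
  omega

include ht hK in
/-- **Stichtenoth 1.1.6.** Every valuation subring of `F` containing `K` is a principal ideal
ring. -/
theorem isPrincipalIdealRing_of_valuationSubring : IsPrincipalIdealRing O := by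
  haveI := wfDvdMonoid_of_valuationSubring t ht O hK
  exact ((IsBezout.TFAE (R := O)).out 3 1).mp ‹_›

/-- The place of `F / K` attached to a proper valuation subring containing `K`. -/
def placeOfValuationSubring (hO : O ≠ ⊤) : Place K F where
  toValuationSubring := O
  algebraMap_mem' := hK
  ne_top' := hO
  isPrincipalIdealRing' := isPrincipalIdealRing_of_valuationSubring t ht O hK

@[simp]
theorem placeOfValuationSubring_toValuationSubring (hO : O ≠ ⊤) :
    (placeOfValuationSubring t ht O hK hO).toValuationSubring = O := rfl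

end DVR

/-! ### (3) existence of zeros and poles -/

section Exist

theorem ord_pos_of_inv_not_mem (v : Place K F) {z : F} (hz : z⁻¹ ∉ v.toValuationSubring) :
    0 < v.ord z := by
  have h1 : ¬ v.adicValuation z⁻¹ ≤ 1 := fun h => hz ((H52.mem_iff_val_le_one v _).mpr h)
  have h2 := (v.not_adicValuation_le_one_iff).mp h1
  rw [v.ord_inv] at h2
  omega

theorem ord_neg_of_not_mem (v : Place K F) {z : F} (hz : z ∉ v.toValuationSubring) :
    v.ord z < 0 := by
  have h1 : ¬ v.adicValuation z ≤ 1 := fun h => hz ((H52.mem_iff_val_le_one v _).mpr h)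
  exact (v.not_adicValuation_le_one_iff).mp h1

theorem ord_nonneg_of_mem (v : Place K F) {z : F} (hz : z ∈ v.toValuationSubring) :
    0 ≤ v.ord z := by
  rcases eq_or_ne z 0 with rfl | hz0
  · simp
  · rcases (v.adicValuation_le_one_iff).mp ((H52.mem_iff_val_le_one v _).mp hz) with h | h
    · exact absurd h hz0
    · exact h

theorem transcendental_inv {z : F} (hz : Transcendental K z) : Transcendental K z⁻¹ := by
  intro h
  apply hz
  have := h.inv
  rwa [inv_inv] at this

variable (t : F) (ht : Transcendental K t) [FiniteDimensional K⟮t⟯ F]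

include ht in
/-- **Existence of a zero** (Chevalley + Stichtenoth 1.1.6): a transcendental element has a zero. -/
theorem exists_place_pos_ord {z : F} (hz : Transcendental K z) :
    ∃ v : Place K F, 0 < v.ord z := by
  have hz0 : z ≠ 0 := by
    rintro rfl
    exact hz ⟨X, X_ne_zero, by simp⟩
  set A : Subring F := (Algebra.adjoin K {z}).toSubring with hA
  have hzA : z ∈ A := Algebra.subset_adjoin (Set.mem_singleton z)
  set I : Ideal A := Ideal.span {(⟨z, hzA⟩ : A)} with hI
  have hItop : I ≠ ⊤ := by
    rw [hI, Ne, Ideal.span_singleton_eq_top]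
    intro hu
    obtain ⟨⟨w, hw⟩, hzw⟩ := isUnit_iff_exists_inv.mp hu
    have hw' : w ∈ Algebra.adjoin K {z} := hw
    rw [Algebra.adjoin_singleton_eq_range_aeval] at hw'
    obtain ⟨g, rfl⟩ := hw'
    have hzw' : z * aeval z g = 1 := congrArg Subtype.val hzw
    have h1 : aeval z (X * g - 1) = 0 := by
      simp [hzw']
    refine hz ⟨X * g - 1, ?_, h1⟩
    intro h0
    have := congrArg (fun p => p.coeff 0) h0
    simp at this
  obtain ⟨B, hAB, hIB⟩ := Ideal.image_subset_nonunits_valuationSubring I hItop
  have hK : ∀ a : K, algebraMap K F a ∈ B := fun a =>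
    hAB (Subalgebra.algebraMap_mem (Algebra.adjoin K {z}) a)
  have hzB : z ∈ B.nonunits := hIB ⟨⟨z, hzA⟩, Ideal.subset_span rfl, rfl⟩
  have hzv : B.valuation z < 1 := B.mem_nonunits_iff.mp hzB
  have hzinv : z⁻¹ ∉ B := by
    intro h
    have h1 : B.valuation z⁻¹ ≤ 1 := (B.valuation_le_one_iff _).mpr h
    rw [map_inv₀, inv_le_one₀ (zero_lt_iff.mpr ((Valuation.ne_zero_iff _).mpr hz0))] at h1
    exact absurd hzv (not_lt.mpr h1)
  have hBtop : B ≠ ⊤ := by
    rintro rfl
    exact hzinv (ValuationSubring.mem_top _)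
  exact ⟨placeOfValuationSubring t ht B hK hBtop,
    ord_pos_of_inv_not_mem _ (by simpa using hzinv)⟩

include ht in
/-- **Existence of a pole**: a transcendental element has a pole. -/
theorem exists_place_neg_ord {z : F} (hz : Transcendental K z) :
    ∃ v : Place K F, v.ord z < 0 := by
  obtain ⟨v, hv⟩ := exists_place_pos_ord t ht (transcendental_inv hz)
  rw [v.ord_inv] at hv
  exact ⟨v, by omega⟩

include ht in
/-- An element of `F` without poles is algebraic over `K`. -/
theorem isAlgebraic_of_forall_ord_nonneg {z : F} (h : ∀ v : Place K F, 0 ≤ v.ord z) :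
    IsAlgebraic K z := by
  by_contra hz
  obtain ⟨v, hv⟩ := exists_place_neg_ord t ht hz
  exact absurd (h v) (by omega)

include ht in
/-- An element of `F` without zeros is algebraic over `K`. -/
theorem isAlgebraic_of_forall_ord_nonpos {z : F} (h : ∀ v : Place K F, v.ord z ≤ 0) :
    IsAlgebraic K z := by
  by_contra hz
  obtain ⟨v, hv⟩ := exists_place_pos_ord t ht hz
  exact absurd (h v) (by omega)

/-- Elements algebraic over `K` have order `0` at every place. -/
theorem ord_eq_zero_of_isAlgebraic (v : Place K F) {z : F} (hz : IsAlgebraic K z) :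
    v.ord z = 0 := by
  rcases eq_or_ne z 0 with rfl | hz0
  · simp
  have h1 : 0 ≤ v.ord z :=
    ord_nonneg_of_mem v (mem_of_isAlgebraic v.toValuationSubring v.algebraMap_mem' hz)
  have h2 : 0 ≤ v.ord z⁻¹ :=
    ord_nonneg_of_mem v (mem_of_isAlgebraic v.toValuationSubring v.algebraMap_mem' hz.inv)
  rw [v.ord_inv] at h2
  omega

include ht in
/-- The constants of `F / K` are exactly the elements with trivial divisor. -/
theorem isAlgebraic_iff_forall_ord_eq_zero {z : F} :
    IsAlgebraic K z ↔ ∀ v : Place K F, v.ord z = 0 :=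
  ⟨fun hz v => ord_eq_zero_of_isAlgebraic v hz,
    fun h => isAlgebraic_of_forall_ord_nonneg t ht fun v => (h v).ge⟩

include ht in
/-- `⋂ O_v` is the algebraic closure of `K` in `F`. -/
theorem isAlgebraic_iff_forall_mem {z : F} :
    IsAlgebraic K z ↔ ∀ v : Place K F, z ∈ v.toValuationSubring :=
  ⟨fun hz v => mem_of_isAlgebraic v.toValuationSubring v.algebraMap_mem' hz,
    fun h => isAlgebraic_of_forall_ord_nonneg t ht fun v => ord_nonneg_of_mem v (h v)⟩

end Exist


section Ideal

variable (t : F) (ht : Transcendental K t) [FiniteDimensional K⟮t⟯ F]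

include ht in
/-- **Stichtenoth 1.1.19.** For a subring `A ⊇ K` of `F` and a proper nonzero ideal `I` of `A`
there is a place `v` of `F / K` with `A ⊆ O_v` and `I ⊆ P_v`. -/
theorem exists_place_of_ideal (A : Subring F) (hKA : ∀ a : K, algebraMap K F a ∈ A)
    (I : Ideal A) (hI : I ≠ ⊤) (hI0 : I ≠ ⊥) :
    ∃ v : Place K F, (∀ a ∈ A, a ∈ v.toValuationSubring) ∧
      ∀ a ∈ I, (a : F) ≠ 0 → 0 < v.ord (a : F) := by
  obtain ⟨B, hAB, hIB⟩ := Ideal.image_subset_nonunits_valuationSubring I hI
  have hK : ∀ a : K, algebraMap K F a ∈ B := fun a => hAB (hKA a)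
  have hinv : ∀ a ∈ I, (a : F) ≠ 0 → (a : F)⁻¹ ∉ B := by
    intro a ha ha0 h
    have hzv : B.valuation (a : F) < 1 := B.mem_nonunits_iff.mp (hIB ⟨a, ha, rfl⟩)
    have h1 : B.valuation (a : F)⁻¹ ≤ 1 := (B.valuation_le_one_iff _).mpr h
    rw [map_inv₀, inv_le_one₀ (zero_lt_iff.mpr ((Valuation.ne_zero_iff _).mpr ha0))] at h1
    exact absurd hzv (not_lt.mpr h1)
  obtain ⟨a, haI, ha0⟩ := Submodule.exists_mem_ne_zero_of_ne_bot hI0
  have ha0' : (a : F) ≠ 0 := fun h => ha0 (Subtype.ext h)
  have hBtop : B ≠ ⊤ := by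
    rintro rfl
    exact hinv a haI ha0' (ValuationSubring.mem_top _)
  refine ⟨placeOfValuationSubring t ht B hK hBtop, fun a ha => hAB ha, fun a ha ha0 => ?_⟩
  exact ord_pos_of_inv_not_mem _ (by simpa using hinv a ha ha0)

include ht in
theorem nonempty_place : Nonempty (Place K F) :=
  let ⟨v, _⟩ := exists_place_pos_ord t ht ht
  ⟨v⟩

end Ideal

end Fermat.Agent.RR.H60
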