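import Mathlib
import Fermat.Agent.RR.H43_PrincipalDivisors
import Fermat.Agent.RR.H52_ZeroDegree
import Fermat.Agent.RR.H76_Weil

/-!
# RR bank, part 5: the bank is unconditional for function fields of one variable

For fields `K ⊆ F` with an element `t : F` transcendental over `K` such that `F` is finite over
`K(t)`, the hypothesis bundles `H43.FFInputs K F` and `H76.FFBase K F` hold.  Hence Riemann's
inequality, Riemann's theorem and Riemann-Roch in Weil's form hold for `F / K`.
-/

set_option autoImplicit false
set_option linter.style.haveILetI false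

noncomputable section

open AlgebraicCurve WithZero IntermediateField

namespace Fermat.Agent.RR.H76

variable {K F : Type*} [Field K] [Field F] [Algebra K F]

section

variable (t : F) (ht : Transcendental K t) [FiniteDimensional K⟮t⟯ F]
include ht

/-- the place-theoretic inputs, from helper52's (FF) files. -/
theorem ffInputs_of_transcendental : H43.FFInputs K F where
  finRes := H52.finiteResidue t ht
  finOrd := fun _ hf => H52.finite_ord_ne_zero t ht hf
  finAdj := fun _ hz => H52.finiteDimensional_adjoin_of_transcendental t ht hz
  zeroDeg := by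
    intro z hz s hs
    have h1 := H52.sum_ord_mul_deg_le t ht hz s hs
    have h2 : (∑ v ∈ s, v.ord z * (v.deg : ℤ))
        = ((∑ v ∈ s, (v.ord z).toNat * v.deg : ℕ) : ℤ) := by
      push_cast
      refine Finset.sum_congr rfl fun v hv => ?_
      rw [Int.toNat_of_nonneg (hs v hv).le]
    rw [h2]
    exact_mod_cast h1
  existsPole := by
    intro z hz
    have hz0 : z ≠ 0 := fun h => hz (h ▸ isAlgebraic_zero)
    obtain ⟨v, hv⟩ := H52.exists_place_one_lt_val t ht hz
    exact ⟨v, (H52.one_lt_val_iff_ord_neg v hz0).mp hv⟩
  existsTrans := ⟨t, ht⟩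

/-- **The RR bank is unconditional** for a function field of one variable. -/
theorem ffBase_of_transcendental : FFBase K F :=
  (ffInputs_of_transcendental t ht).ffBase

end


/-! ### Algebraically closed constant field -/

/-- over an algebraically closed constant field, `L(0) = K`. -/
theorem mem_L0_iff_of_isAlgClosed [IsAlgClosed K] (h : H43.FFInputs K F) {f : F} :
    f ∈ riemannRochSpace (0 : Divisor K F) ↔ f ∈ (algebraMap K F).range := by
  constructor
  · intro hf
    have halg : IsAlgebraic K f := h.isAlgebraic_of_mem_L0 hf
    exact halg.isIntegral.mem_range_algebraMap_of_minpoly_splits (IsAlgClosed.splits _)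
  · rintro ⟨a, rfl⟩
    exact H43.FFInputs.mem_L0_of_isAlgebraic (isAlgebraic_algebraMap a)

/-- over an algebraically closed constant field, `l(0) = 1`. -/
theorem ell_zero_eq_one_of_isAlgClosed [IsAlgClosed K] (h : H43.FFInputs K F) :
    ell (0 : Divisor K F) = 1 := by
  have hL : riemannRochSpace (0 : Divisor K F) = Submodule.span K {(1 : F)} := by
    ext f
    rw [mem_L0_iff_of_isAlgClosed h, Submodule.mem_span_singleton]
    constructor
    · rintro ⟨a, rfl⟩
      exact ⟨a, by rw [Algebra.smul_def, mul_one]⟩
    · rintro ⟨a, rfl⟩
      exact ⟨a, by rw [Algebra.smul_def, mul_one]⟩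
  unfold ell
  rw [hL]
  exact finrank_span_singleton one_ne_zero

section

variable [IsAlgClosed K] (t : F) (ht : Transcendental K t) [FiniteDimensional K⟮t⟯ F]
include ht

theorem ell_zero_eq_one : ell (0 : Divisor K F) = 1 :=
  ell_zero_eq_one_of_isAlgClosed (ffInputs_of_transcendental t ht)

/-- the Riemann genus is the frozen genus. -/
theorem genusFF_eq_gR_of_transcendental :
    (genusFF K F : ℤ) = (ffBase_of_transcendental t ht).gR :=
  (ffBase_of_transcendental t ht).genusFF_eq_gR (ell_zero_eq_one t ht)

/-- **Riemann-Roch (Weil form)**, unconditional, frozen genus. -/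
theorem riemann_roch (D : Divisor K F) :
    (ell D : ℤ) - Module.finrank K (H1 D) = Divisor.degree D + 1 - genusFF K F :=
  (ffBase_of_transcendental t ht).riemann_roch_genusFF (ell_zero_eq_one t ht) D

/-- **Riemann's inequality**, unconditional, frozen genus. -/
theorem riemann_inequality (D : Divisor K F) :
    Divisor.degree D + 1 - genusFF K F ≤ ell D :=
  (ffBase_of_transcendental t ht).riemann_inequality_genusFF (ell_zero_eq_one t ht) D

/-- **Riemann's theorem**, unconditional, frozen genus. -/
theorem exists_degree_bound :
    ∃ c : ℤ, ∀ D : Divisor K F, c ≤ Divisor.degree D →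
      (ell D : ℤ) = Divisor.degree D + 1 - genusFF K F :=
  (ffBase_of_transcendental t ht).exists_degree_bound_genusFF (ell_zero_eq_one t ht)

/-- `L(D) ≠ 0` as soon as `deg D ≥ genusFF`. -/
theorem exists_ne_zero_mem_of_genusFF_le_degree (D : Divisor K F)
    (hD : (genusFF K F : ℤ) ≤ Divisor.degree D) :
    ∃ f : F, f ≠ 0 ∧ f ∈ riemannRochSpace D := by
  have h1 := riemann_inequality t ht D
  have h2 : 0 < ell D := by
    have : (0 : ℤ) < ell D := by linarith
    exact_mod_cast this
  exact FFBase.exists_ne_zero_of_ell_pos h2

end

end Fermat.Agent.RR.H76
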