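import Mathlib
import Fermat.Agent.RR.H76_Inst
import Fermat.Agent.S24.H40_M123

/-!
# RR bank, part 6: the instance `F = modularFunctionFieldBar N` over `ℚ̄`

`FFBase`, `FFInputs`, `l(0) = 1`, Riemann's inequality, Riemann's theorem and Riemann-Roch
(Weil form, with the frozen `genusFF`) for the function field of `X₀(N)` over `ℚ̄`,
unconditionally (inputs: S24's `transcendental_jBar`, `finiteDimensional_FN`).
-/

set_option autoImplicit false
set_option linter.style.haveILetI false

noncomputable section

open AlgebraicCurve ModularCurve IntermediateField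

namespace Fermat.Agent.RR.H76

open Fermat.Agent.S24

variable (N : ℕ) [NeZero N]

theorem ffInputs_FN : H43.FFInputs (AlgebraicClosure ℚ) (modularFunctionFieldBar N) := by
  haveI : FiniteDimensional Qbar⟮jBar N⟯ (FN N) := H40.finiteDimensional_FN N
  exact ffInputs_of_transcendental (K := Qbar) (F := FN N) (jBar N) (H40.transcendental_jBar N)

theorem ffBase_FN : FFBase (AlgebraicClosure ℚ) (modularFunctionFieldBar N) :=
  (ffInputs_FN N).ffBase

theorem hasPrincipalDivisors_FN :
    HasPrincipalDivisors (AlgebraicClosure ℚ) (modularFunctionFieldBar N) :=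
  (ffInputs_FN N).hasPrincipalDivisors

theorem ell_zero_FN :
    ell (0 : Divisor (AlgebraicClosure ℚ) (modularFunctionFieldBar N)) = 1 :=
  ell_zero_eq_one_of_isAlgClosed (ffInputs_FN N)

theorem genusFF_FN_eq_gR :
    (genusFF (AlgebraicClosure ℚ) (modularFunctionFieldBar N) : ℤ) = (ffBase_FN N).gR :=
  (ffBase_FN N).genusFF_eq_gR (ell_zero_FN N)

/-- **Riemann-Roch (Weil form)** for the function field of `X₀(N)` over `ℚ̄`. -/
theorem riemann_roch_FN (D : Divisor (AlgebraicClosure ℚ) (modularFunctionFieldBar N)) :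
    (ell D : ℤ) - Module.finrank (AlgebraicClosure ℚ) (H1 D)
      = Divisor.degree D + 1 - genusFF (AlgebraicClosure ℚ) (modularFunctionFieldBar N) :=
  (ffBase_FN N).riemann_roch_genusFF (ell_zero_FN N) D

/-- **Riemann's inequality** for the function field of `X₀(N)` over `ℚ̄`. -/
theorem riemann_inequality_FN (D : Divisor (AlgebraicClosure ℚ) (modularFunctionFieldBar N)) :
    Divisor.degree D + 1 - genusFF (AlgebraicClosure ℚ) (modularFunctionFieldBar N) ≤ ell D :=
  (ffBase_FN N).riemann_inequality_genusFF (ell_zero_FN N) D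

/-- **Riemann's theorem** for the function field of `X₀(N)` over `ℚ̄`. -/
theorem exists_degree_bound_FN :
    ∃ c : ℤ, ∀ D : Divisor (AlgebraicClosure ℚ) (modularFunctionFieldBar N),
      c ≤ Divisor.degree D →
      (ell D : ℤ)
        = Divisor.degree D + 1 - genusFF (AlgebraicClosure ℚ) (modularFunctionFieldBar N) :=
  (ffBase_FN N).exists_degree_bound_genusFF (ell_zero_FN N)

/-- `L(D) ≠ 0` as soon as `deg D ≥ g`, for the function field of `X₀(N)` over `ℚ̄`. -/
theorem exists_ne_zero_mem_FN (D : Divisor (AlgebraicClosure ℚ) (modularFunctionFieldBar N))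
    (hD : (genusFF (AlgebraicClosure ℚ) (modularFunctionFieldBar N) : ℤ) ≤ Divisor.degree D) :
    ∃ f : ↥(modularFunctionFieldBar N), f ≠ 0 ∧ f ∈ riemannRochSpace D := by
  have h1 := riemann_inequality_FN N D
  have h2 : 0 < ell D := by
    have : (0 : ℤ) < ell D := by linarith
    exact_mod_cast this
  exact FFBase.exists_ne_zero_of_ell_pos h2

theorem finiteDimensional_H1_FN (D : Divisor (AlgebraicClosure ℚ) (modularFunctionFieldBar N)) :
    FiniteDimensional (AlgebraicClosure ℚ) (H1 D) :=
  (ffBase_FN N).finiteDimensional_H1 D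

theorem finiteDimensional_L_FN (D : Divisor (AlgebraicClosure ℚ) (modularFunctionFieldBar N)) :
    FiniteDimensional (AlgebraicClosure ℚ) ↥(riemannRochSpace D) :=
  (ffBase_FN N).finiteDimensional_riemannRochSpace D

end Fermat.Agent.RR.H76
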