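import Mathlib
import Fermat.Agent.RR.H43_PrincipalDivisors
import Fermat.Agent.RR.H52_ZeroDegree

/-!
# RR bank: `FFBase K F` UNCONDITIONALLY for a function field of one variable

`K ⊆ F` fields, `t : F` transcendental over `K` with `F / K(t)` finite.  Then all inputs of
`H43.FFInputs` hold (helper52's `H52_ZeroDegree`, `H52_PlaceExist`), hence helper76's `FFBase K F`,
`HasPrincipalDivisors K F`, and `deg (z)_∞ = [F : K(z)] = deg (z)_0`.  Characteristic free.
-/

set_option autoImplicit false

noncomputable section

open AlgebraicCurve IntermediateField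

namespace Fermat.Agent.RR.H43

open Fermat.Agent.RR

variable {K F : Type*} [Field K] [Field F] [Algebra K F]

section FunField

variable (t : F) (ht : Transcendental K t) [FiniteDimensional K⟮t⟯ F]
include ht

/-- All place-theoretic inputs hold in a function field of one variable. -/
theorem ffInputs : FFInputs K F where
  finRes := H52.finiteResidue t ht
  finOrd := fun _ hf => H52.finite_ord_ne_zero t ht hf
  finAdj := fun _ hz => H52.finiteDimensional_adjoin_of_transcendental t ht hz
  zeroDeg := by
    intro z hz s hs
    have h1 := H52.sum_ord_mul_deg_le t ht hz s hs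
    have h2 : (∑ v ∈ s, v.ord z * (v.deg : ℤ))
        = ((∑ v ∈ s, (v.ord z).toNat * v.deg : ℕ) : ℤ) := by
      push_cast
      refine Finset.sum_congr rfl fun v hv => ?_
      rw [Int.toNat_of_nonneg (hs v hv).le]
    rw [h2]
    exact_mod_cast h1
  existsPole := by
    intro z hz
    have hz0 : z ≠ 0 := fun h => hz (h ▸ isAlgebraic_zero)
    obtain ⟨v, hv⟩ := H52.exists_place_one_lt_val t ht hz
    exact ⟨v, (H52.one_lt_val_iff_ord_neg v hz0).mp hv⟩
  existsTrans := ⟨t, ht⟩

/-- **`FFBase K F`, unconditional**: the whole Riemann-Roch bank of helper76 applies. -/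
theorem ffBase : H76.FFBase K F := (ffInputs t ht).ffBase

/-- **Principal divisors exist and have degree `0`.** -/
theorem hasPrincipalDivisors : HasPrincipalDivisors K F := (ffInputs t ht).hasPrincipalDivisors

/-- **Stichtenoth 1.4.11** (poles): `deg (z)_∞ = [F : K(z)]`. -/
theorem degree_divPole_eq {z : F} (hz : Transcendental K z) :
    Divisor.degree ((ffInputs t ht).divPole z) = (Module.finrank K⟮z⟯ F : ℤ) :=
  (ffInputs t ht).degree_divPole_eq hz

/-- **Stichtenoth 1.4.11** (zeros): `deg (z)_0 = [F : K(z)]`. -/
theorem degree_divZero_eq {z : F} (hz : Transcendental K z) :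
    Divisor.degree ((ffInputs t ht).divZero z) = (Module.finrank K⟮z⟯ F : ℤ) :=
  (ffInputs t ht).degree_divZero_eq hz

/-- Parameter form of 1.4.11: any divisor `B` with `B v = max (-ord_v z) 0` has degree
`[F : K(z)]`. -/
theorem degree_eq_finrank_of_forall_eq_pole {z : F} (hz : Transcendental K z)
    (B : Divisor K F) (hB : ∀ v : Place K F, B v = max (-v.ord z) 0) :
    Divisor.degree B = (Module.finrank K⟮z⟯ F : ℤ) := by
  have : B = (ffInputs t ht).divPole z := by
    ext v
    rw [hB v, FFInputs.divPole_apply]
  rw [this]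
  exact degree_divPole_eq t ht hz

/-- Parameter form of 1.4.11 for zeros. -/
theorem degree_eq_finrank_of_forall_eq_zero {z : F} (hz : Transcendental K z)
    (B : Divisor K F) (hB : ∀ v : Place K F, B v = max (v.ord z) 0) :
    Divisor.degree B = (Module.finrank K⟮z⟯ F : ℤ) := by
  have : B = (ffInputs t ht).divZero z := by
    ext v
    rw [hB v, FFInputs.divZero_apply]
  rw [this]
  exact degree_divZero_eq t ht hz

/-- constants: all orders vanish iff algebraic over `K`. -/
theorem forall_ord_eq_zero_iff_isAlgebraic {f : F} :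
    (∀ v : Place K F, v.ord f = 0) ↔ IsAlgebraic K f :=
  (ffInputs t ht).forall_ord_eq_zero_iff_isAlgebraic

/-- If `K` is algebraically closed in `F` (e.g. `K` algebraically closed), then `l(0) = 1`. -/
theorem ell_zero_eq_one (hK : ∀ f : F, IsAlgebraic K f → f ∈ (algebraMap K F).range) :
    H76.ell (0 : Divisor K F) = 1 := by
  have hL : riemannRochSpace (0 : Divisor K F) = Submodule.span K {(1 : F)} := by
    ext f
    rw [Submodule.mem_span_singleton]
    constructor
    · intro hf
      obtain ⟨a, ha⟩ := hK f ((ffInputs t ht).isAlgebraic_of_mem_L0 hf)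
      exact ⟨a, by rw [← ha, Algebra.smul_def, mul_one]⟩
    · rintro ⟨a, rfl⟩
      apply FFInputs.mem_L0_of_isAlgebraic
      rw [Algebra.smul_def, mul_one]
      exact isAlgebraic_algebraMap a
  unfold H76.ell
  rw [hL]
  exact finrank_span_singleton one_ne_zero

end FunField

end Fermat.Agent.RR.H43
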