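import Mathlib
import Fermat.Agent.RR.H52_FFInst
import Fermat.Agent.S18.H16_FbarBasics

set_option autoImplicit false

/-!
# The RR bank on the characteristic-`ℓ` fibre `Fk = modularFunctionFieldFullC K N`

(S18 / RR-general-function-fields, helper52.)  Instantiates `H52_FFInst` at
`t := jK K N` using helper16's `H16_FbarBasics` (`transcendental_jK`, `finiteDimensional_fullC`).
`K` any field of characteristic `ℓ`, `ℓ ∤ N`.
-/

noncomputable section

open AlgebraicCurve ModularCurve IntermediateField

namespace Fermat.Agent.RR.H52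

open Fermat.Agent.S18

section

variable (N : ℕ) [NeZero N] (ℓ : ℕ) [Fact ℓ.Prime] (hℓN : ¬ ℓ ∣ N) (K : Type) [Field K] [CharP K ℓ]
include hℓN

theorem ffInputs_fullC : H43.FFInputs K (modularFunctionFieldFullC K N) :=
  haveI := H16.finiteDimensional_fullC N ℓ hℓN K
  ffInputs (H16.jK K N) (H16.transcendental_jK K N)

theorem ffBase_fullC : H76.FFBase K (modularFunctionFieldFullC K N) :=
  (ffInputs_fullC N ℓ hℓN K).ffBase

theorem hasPrincipalDivisors_fullC : HasPrincipalDivisors K (modularFunctionFieldFullC K N) :=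
  (ffInputs_fullC N ℓ hℓN K).hasPrincipalDivisors

theorem finiteResidue_fullC (v : Place K (modularFunctionFieldFullC K N)) :
    Module.Finite K v.ResidueField :=
  (ffInputs_fullC N ℓ hℓN K).finRes v

theorem finite_ord_ne_zero_fullC {f : modularFunctionFieldFullC K N} (hf : f ≠ 0) :
    {v : Place K (modularFunctionFieldFullC K N) | v.ord f ≠ 0}.Finite :=
  (ffInputs_fullC N ℓ hℓN K).finOrd f hf

/-- `deg (j̄)_∞ = ψ(N)` on the characteristic-`ℓ` fibre. -/
theorem degree_divPole_jK :
    Divisor.degree ((ffInputs_fullC N ℓ hℓN K).divPole (H16.jK K N)) = (dedekindPsi N : ℤ) := by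
  rw [(ffInputs_fullC N ℓ hℓN K).degree_divPole_eq (H16.transcendental_jK K N),
    H16.finrank_fullC N ℓ hℓN K]

theorem forall_ord_eq_zero_iff_isAlgebraic_fullC {f : modularFunctionFieldFullC K N} :
    (∀ v : Place K (modularFunctionFieldFullC K N), v.ord f = 0) ↔ IsAlgebraic K f :=
  (ffInputs_fullC N ℓ hℓN K).forall_ord_eq_zero_iff_isAlgebraic

/-! ### `K` algebraically closed -/

theorem exists_eq_algebraMap_of_forall_ord_eq_zero_fullC [IsAlgClosed K]
    {c : modularFunctionFieldFullC K N}
    (h : ∀ v : Place K (modularFunctionFieldFullC K N), v.ord c = 0) :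
    ∃ a : K, c = algebraMap K (modularFunctionFieldFullC K N) a :=
  haveI := H16.finiteDimensional_fullC N ℓ hℓN K
  exists_eq_algebraMap_of_forall_ord_eq_zero (H16.jK K N) (H16.transcendental_jK K N) h

theorem ell_zero_eq_one_fullC [IsAlgClosed K] :
    H76.ell (0 : Divisor K (modularFunctionFieldFullC K N)) = 1 :=
  haveI := H16.finiteDimensional_fullC N ℓ hℓN K
  ell_zero_eq_one (H16.jK K N) (H16.transcendental_jK K N)

theorem deg_eq_one_fullC [IsAlgClosed K] (v : Place K (modularFunctionFieldFullC K N)) :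
    v.deg = 1 :=
  haveI := H16.finiteDimensional_fullC N ℓ hℓN K
  deg_eq_one (H16.jK K N) (H16.transcendental_jK K N) v

theorem riemann_roch_fullC [IsAlgClosed K] (D : Divisor K (modularFunctionFieldFullC K N)) :
    (Module.finrank K ↥(riemannRochSpace D) : ℤ) - Module.finrank K (H1 D)
      = Divisor.degree D + 1 - genusFF K (modularFunctionFieldFullC K N) :=
  haveI := H16.finiteDimensional_fullC N ℓ hℓN K
  riemann_roch_genusFF (H16.jK K N) (H16.transcendental_jK K N) D

theorem riemann_inequality_fullC [IsAlgClosed K] (D : Divisor K (modularFunctionFieldFullC K N)) :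
    Divisor.degree D + 1 - genusFF K (modularFunctionFieldFullC K N)
      ≤ Module.finrank K ↥(riemannRochSpace D) :=
  haveI := H16.finiteDimensional_fullC N ℓ hℓN K
  riemann_inequality_genusFF (H16.jK K N) (H16.transcendental_jK K N) D

theorem exists_degree_bound_fullC [IsAlgClosed K] :
    ∃ c : ℤ, ∀ D : Divisor K (modularFunctionFieldFullC K N), c ≤ Divisor.degree D →
      (Module.finrank K ↥(riemannRochSpace D) : ℤ)
        = Divisor.degree D + 1 - genusFF K (modularFunctionFieldFullC K N) :=
  haveI := H16.finiteDimensional_fullC N ℓ hℓN K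
  exists_degree_bound_genusFF (H16.jK K N) (H16.transcendental_jK K N)

theorem genusFF_fullC_eq_gR [IsAlgClosed K] :
    (genusFF K (modularFunctionFieldFullC K N) : ℤ) = (ffBase_fullC N ℓ hℓN K).gR :=
  (ffBase_fullC N ℓ hℓN K).genusFF_eq_gR (ell_zero_eq_one_fullC N ℓ hℓN K)

end

end Fermat.Agent.RR.H52
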