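/-
RR bank (S18 / S37 / S29), package FF-PlaceExist (helper23; split of helper52's (FF), #1748).

Function fields of one variable in the prelude vocabulary (`AlgebraicCurve.Place`), characteristic
free.  Setting: `K ⊆ F` fields, `t : F` with `[FiniteDimensional K⟮t⟯ F]`.

* `val_aeval_eq_pow`, `transcendental_of_val_lt_one`, `exists_val_mul_pow_eq_pow` : valuations of
  elements of `K(x)` when `0 < w x < 1` and the constants are units;
* `linearIndependent_of_strictMono_val` : the CHAIN LEMMA (Stichtenoth 1.1.7), valuation form;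
* `isAlgebraic_adjoin_of_transcendental`, `finiteDimensional_adjoin_of_transcendental` :
  `[F : K(x)] < ∞` for every transcendental `x` (transcendence degree one);
* `isPrincipalIdealRing_of_valuationSubring` : every valuation ring of `F/K` is a DVR
  (Stichtenoth 1.1.6); `placeOfValuationSubring`;
* `exists_place_pos_ord`, `exists_place_neg_ord` : a transcendental element has a zero and a pole;
* `isAlgebraic_of_forall_ord_nonneg`, `isAlgebraic_iff_forall_ord_eq_zero` : the elements without
  poles are the constants (algebraic over `K`).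
-/
import Mathlib
import Fermat.Prelude.Def_AlgebraicCurve_Repartitions

set_option autoImplicit false
set_option linter.style.haveILetI false

open Polynomial IntermediateField AlgebraicCurve WithZero

noncomputable section

namespace Fermat.Agent.RR.H23

universe u v

variable {K : Type u} {F : Type v} [Field K] [Field F] [Algebra K F]

/-! ### Valuations of rational functions of an element of small valuation -/

section Val

variable {Γ₀ : Type*} [LinearOrderedCommGroupWithZero Γ₀] (w : Valuation F Γ₀)

/-- Valuation of a polynomial expression in an element of valuation `< 1`, when the constants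
are units. -/
theorem val_aeval_eq_pow (hK : ∀ a : K, a ≠ 0 → w (algebraMap K F a) = 1) {x : F} (hx0 : x ≠ 0)
    (hx1 : w x < 1) {φ : K[X]} (hφ : φ ≠ 0) :
    w (aeval x φ) = w x ^ φ.natTrailingDegree := by
  classical
  have hpos : 0 < w x := zero_lt_iff.mpr ((Valuation.ne_zero_iff w).mpr hx0)
  have hterm : ∀ e ∈ φ.support, w (algebraMap K F (φ.coeff e) * x ^ e) = w x ^ e := by
    intro e he
    rw [map_mul, hK _ (mem_support_iff.mp he), one_mul, map_pow]
  rw [aeval_def, eval₂_eq_sum, Polynomial.sum_def]
  have hj : φ.natTrailingDegree ∈ φ.support := natTrailingDegree_mem_support_of_nonzero hφ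
  rw [Valuation.map_sum_eq_of_lt w hj, hterm _ hj]
  intro i hi
  rw [Finset.mem_sdiff, Finset.mem_singleton] at hi
  rw [hterm _ hi.1, hterm _ hj]
  have hlt : φ.natTrailingDegree < i :=
    lt_of_le_of_ne (natTrailingDegree_le_of_mem_supp i hi.1) (Ne.symm hi.2)
  exact pow_lt_pow_right_of_lt_one₀ hpos hx1 hlt

/-- An element of valuation in `(0, 1)` is transcendental over a field of constants which are
units. -/
theorem transcendental_of_val_lt_one (hK : ∀ a : K, a ≠ 0 → w (algebraMap K F a) = 1) {x : F}
    (hx0 : x ≠ 0) (hx1 : w x < 1) : Transcendental K x := by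
  rintro ⟨φ, hφ, h⟩
  have h1 := val_aeval_eq_pow w hK hx0 hx1 hφ
  rw [h, map_zero] at h1
  exact (pow_ne_zero _ ((Valuation.ne_zero_iff w).mpr hx0)) h1.symm

/-- The valuation of a nonzero element of `K(x)` is a quotient of powers of the valuation of
`x`. -/
theorem exists_val_mul_pow_eq_pow (hK : ∀ a : K, a ≠ 0 → w (algebraMap K F a) = 1) {x : F}
    (hx0 : x ≠ 0) (hx1 : w x < 1) {c : F} (hc : c ∈ K⟮x⟯) (hc0 : c ≠ 0) :
    ∃ m n : ℕ, w c * w x ^ n = w x ^ m := by
  obtain ⟨r, s, rfl⟩ := (mem_adjoin_simple_iff K c).mp hc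
  have hs : aeval x s ≠ 0 := by
    intro h
    rw [h, div_zero] at hc0
    exact hc0 rfl
  have hr : aeval x r ≠ 0 := by
    intro h
    rw [h, zero_div] at hc0
    exact hc0 rfl
  have hs0 : s ≠ 0 := by
    rintro rfl
    exact hs (map_zero _)
  have hr0 : r ≠ 0 := by
    rintro rfl
    exact hr (map_zero _)
  refine ⟨r.natTrailingDegree, s.natTrailingDegree, ?_⟩
  rw [map_div₀, val_aeval_eq_pow w hK hx0 hx1 hr0, val_aeval_eq_pow w hK hx0 hx1 hs0]
  have hne : w x ^ s.natTrailingDegree ≠ 0 := pow_ne_zero _ ((Valuation.ne_zero_iff w).mpr hx0)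
  rw [div_mul_cancel₀ _ hne]

/-- Arithmetic in a linearly ordered group with zero: for `0 < a ≤ b < c < 1` the elements
`a ^ p * b` and `a ^ q * c` are different. -/
theorem pow_mul_ne_pow_mul {a b c : Γ₀} (ha0 : 0 < a) (ha1 : a < 1) (hab : a ≤ b) (hbc : b < c)
    (hc1 : c < 1) (p q : ℕ) : a ^ p * b ≠ a ^ q * c := by
  have hb0 : 0 < b := lt_of_lt_of_le ha0 hab
  have hpow : ∀ k : ℕ, 0 < a ^ k := fun k => pow_pos ha0 k
  rcases lt_trichotomy p q with h | h | h
  · -- `q ≥ p + 1`
    have h1 : a ^ q ≤ a ^ (p + 1) := pow_le_pow_of_le_one ha0.le ha1.le h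
    have h2 : a ^ q * c < a ^ p * b :=
      calc a ^ q * c ≤ a ^ (p + 1) * c := mul_le_mul_left h1 c
        _ < a ^ (p + 1) * 1 := by
            exact mul_lt_mul_of_pos_left hc1 (hpow _)
        _ = a ^ p * a := by rw [mul_one, pow_succ]
        _ ≤ a ^ p * b := mul_le_mul_right hab _
    exact fun h3 => absurd h3 (ne_of_gt h2)
  · subst h
    intro h3
    exact (ne_of_lt hbc) (mul_left_cancel₀ (ne_of_gt (hpow p)) h3)
  · -- `p ≥ q + 1`
    have h1 : a ^ p ≤ a ^ (q + 1) := pow_le_pow_of_le_one ha0.le ha1.le h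
    have hab' : a * b < c :=
      calc a * b < 1 * b := mul_lt_mul_of_pos_right ha1 hb0
        _ = b := one_mul b
        _ < c := hbc
    have h2 : a ^ p * b < a ^ q * c :=
      calc a ^ p * b ≤ a ^ (q + 1) * b := mul_le_mul_left h1 b
        _ = a ^ q * (a * b) := by rw [pow_succ, mul_assoc]
        _ < a ^ q * c := mul_lt_mul_of_pos_left hab' (hpow _)
    exact ne_of_lt h2

/-- Two terms `c * y`, `c' * y'` with `c, c' ∈ K(x)ˣ` and `w x ≤ w y < w y' < 1` have different
valuations. -/
theorem val_mul_ne_val_mul (hK : ∀ a : K, a ≠ 0 → w (algebraMap K F a) = 1) {x : F}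
    (hx0 : x ≠ 0) (hx1 : w x < 1) {c c' : F} (hc : c ∈ K⟮x⟯) (hc0 : c ≠ 0) (hc' : c' ∈ K⟮x⟯)
    (hc0' : c' ≠ 0) {y y' : F} (hxy : w x ≤ w y) (hyy' : w y < w y') (hy1 : w y' < 1) :
    w (c * y) ≠ w (c' * y') := by
  have hpos : 0 < w x := zero_lt_iff.mpr ((Valuation.ne_zero_iff w).mpr hx0)
  obtain ⟨m, n, h1⟩ := exists_val_mul_pow_eq_pow w hK hx0 hx1 hc hc0
  obtain ⟨m', n', h2⟩ := exists_val_mul_pow_eq_pow w hK hx0 hx1 hc' hc0'
  intro h
  rw [map_mul, map_mul] at h
  apply pow_mul_ne_pow_mul hpos hx1 hxy hyy' hy1 (m + n') (m' + n)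
  have hne : w x ^ (n + n') ≠ 0 := pow_ne_zero _ (ne_of_gt hpos)
  calc w x ^ (m + n') * w y = (w c * w x ^ n) * w x ^ n' * w y := by rw [h1, pow_add]
    _ = (w c * w y) * (w x ^ n * w x ^ n') := by ac_rfl
    _ = (w c' * w y') * (w x ^ n * w x ^ n') := by rw [h]
    _ = (w c' * w x ^ n') * w x ^ n * w y' := by ac_rfl
    _ = w x ^ (m' + n) * w y' := by rw [h2, pow_add]

/-- **Chain lemma** (Stichtenoth 1.1.7, valuation form): elements `y 0, …, y (n-1)` with
`w x ≤ w (y 0) < w (y 1) < … < 1` are linearly independent over `K(x)`. -/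
theorem linearIndependent_of_strictMono_val (hK : ∀ a : K, a ≠ 0 → w (algebraMap K F a) = 1)
    {x : F} (hx0 : x ≠ 0) (hx1 : w x < 1) {n : ℕ} (y : Fin n → F)
    (hmono : StrictMono fun i => w (y i)) (hlow : ∀ i, w x ≤ w (y i)) (hup : ∀ i, w (y i) < 1) :
    LinearIndependent K⟮x⟯ y := by
  classical
  have hpos : 0 < w x := zero_lt_iff.mpr ((Valuation.ne_zero_iff w).mpr hx0)
  have hy0 : ∀ i, y i ≠ 0 := fun i h => by
    have := hlow i
    rw [h, map_zero] at this
    exact absurd (lt_of_lt_of_le hpos this) (lt_irrefl _)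
  rw [Fintype.linearIndependent_iff]
  intro g hg
  by_contra hcon
  push Not at hcon
  -- the set of indices with nonzero coefficient
  set s : Finset (Fin n) := Finset.univ.filter fun i => g i ≠ 0 with hs
  have hsne : s.Nonempty := by
    obtain ⟨i, hi⟩ := hcon
    exact ⟨i, by simp [hs, hi]⟩
  obtain ⟨j, hjs, hjmax⟩ := Finset.exists_max_image s (fun i => w (g i • y i)) hsne
  have hgj : g j ≠ 0 := (Finset.mem_filter.mp hjs).2
  have hsmul : ∀ i, g i • y i = (g i : F) * y i := fun i => rfl
  have hdist : ∀ i ∈ s, i ≠ j → w (g i • y i) ≠ w (g j • y j) := by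
    intro i his hij
    have hgi : g i ≠ 0 := (Finset.mem_filter.mp his).2
    have hgiF : (g i : F) ≠ 0 := fun h => hgi (Subtype.ext h)
    have hgjF : (g j : F) ≠ 0 := fun h => hgj (Subtype.ext h)
    rw [hsmul, hsmul]
    rcases lt_or_gt_of_ne hij with h | h
    · exact val_mul_ne_val_mul w hK hx0 hx1 (g i).2 hgiF (g j).2 hgjF (hlow i) (hmono h) (hup j)
    · exact (val_mul_ne_val_mul w hK hx0 hx1 (g j).2 hgjF (g i).2 hgiF (hlow j) (hmono h)
        (hup i)).symm
  have hjne : w (g j • y j) ≠ 0 := by
    rw [hsmul, (Valuation.ne_zero_iff w)]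
    exact mul_ne_zero (fun h => hgj (Subtype.ext h)) (hy0 j)
  have hval : w (∑ i, g i • y i) = w (g j • y j) := by
    apply Valuation.map_sum_eq_of_lt w (Finset.mem_univ j)
    intro i hi
    rw [Finset.mem_sdiff, Finset.mem_singleton] at hi
    by_cases hgi : g i = 0
    · rw [hgi, zero_smul, map_zero]
      exact zero_lt_iff.mpr hjne
    · have his : i ∈ s := by simp [hs, hgi]
      exact lt_of_le_of_ne (hjmax i his) (hdist i his hi.2)
  rw [hg, map_zero] at hval
  exact hjne hval.symm

end Val

/-! ### Transcendence degree one -/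

section Trdeg

open scoped IntermediateField.algebraAdjoinAdjoin

/-- In a field `F` algebraic over `K(t)`, `F` is algebraic over `K(x)` for every `x`
transcendental over `K`. -/
theorem isAlgebraic_adjoin_of_transcendental (t : F) [Algebra.IsAlgebraic K⟮t⟯ F] {x : F}
    (hx : Transcendental K x) : Algebra.IsAlgebraic K⟮x⟯ F := by
  have h1 : Algebra.IsAlgebraic (Algebra.adjoin K ({t} : Set F)) F :=
    (IsFractionRing.comap_isAlgebraic_iff (A := Algebra.adjoin K ({t} : Set F))
      (K := K⟮t⟯) (C := F)).mpr inferInstance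
  have h2 : Algebra.trdeg K F ≤ 1 := by
    have := Algebra.IsAlgebraic.trdeg_le_cardinalMk K ({t} : Set F)
    simpa using this
  have hind : AlgebraicIndependent K (fun _ : PUnit.{v + 1} => x) :=
    (algebraicIndependent_unique_type_iff (ι := PUnit.{v + 1})).mpr hx
  have hbasis : IsTranscendenceBasis K (fun _ : PUnit.{v + 1} => x) :=
    hind.isTranscendenceBasis_of_trdeg_le_of_finite (by simpa using h2)
  have h3 := hbasis.isAlgebraic_field
  have hr : Set.range (fun _ : PUnit.{v + 1} => x) = {x} := Set.range_const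
  rw [hr] at h3
  exact h3

end Trdeg

/-- In a field `F` finite over `K(t)`, `F` is finite over `K(x)` for every `x` transcendental
over `K`. -/
theorem finiteDimensional_adjoin_of_transcendental (t : F) [FiniteDimensional K⟮t⟯ F] {x : F}
    (hx : Transcendental K x) : FiniteDimensional K⟮x⟯ F := by
  haveI : Algebra.IsAlgebraic K⟮t⟯ F := Algebra.IsAlgebraic.of_finite _ _
  haveI alg : Algebra.IsAlgebraic K⟮x⟯ F := isAlgebraic_adjoin_of_transcendental t hx
  let L : IntermediateField K⟮x⟯ F := K⟮x⟯⟮t⟯
  haveI hL : FiniteDimensional K⟮x⟯ L :=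
    adjoin.finiteDimensional (alg.isAlgebraic t).isIntegral
  have hle : K⟮t⟯ ≤ L.restrictScalars K :=
    adjoin_simple_le_iff.mpr (mem_adjoin_simple_self K⟮x⟯ t)
  let f : K⟮t⟯ →+* L := (algebraMap K⟮t⟯ F).codRestrict L (fun a => hle a.2)
  letI : Algebra K⟮t⟯ L := f.toAlgebra
  haveI : IsScalarTower K⟮t⟯ L F := IsScalarTower.of_algebraMap_eq (fun _ => rfl)
  haveI : Module.Finite L F := Module.Finite.of_restrictScalars_finite K⟮t⟯ L F
  exact Module.Finite.trans L F

/-! ### Valuation rings are discrete -/

section DVR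

variable (O : ValuationSubring F)

/-- The constants are units of a valuation ring containing them. -/
theorem valuation_algebraMap_eq_one (hK : ∀ a : K, algebraMap K F a ∈ O) (a : K) (ha : a ≠ 0) :
    O.valuation (algebraMap K F a) = 1 := by
  apply le_antisymm ((O.valuation_le_one_iff _).mpr (hK a))
  have h1 : O.valuation (algebraMap K F a⁻¹) ≤ 1 := (O.valuation_le_one_iff _).mpr (hK a⁻¹)
  rw [map_inv₀, map_inv₀] at h1
  have h0 : O.valuation (algebraMap K F a) ≠ 0 :=
    (Valuation.ne_zero_iff _).mpr (by simpa using ha)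
  rwa [inv_le_one₀ (zero_lt_iff.mpr h0)] at h1

/-- **Every valuation ring of a function field `F/K` of one variable is a discrete valuation
ring** (Stichtenoth 1.1.6): here in the form "is a principal ideal ring". -/
theorem isPrincipalIdealRing_of_valuationSubring (t : F) [FiniteDimensional K⟮t⟯ F]
    (hK : ∀ a : K, algebraMap K F a ∈ O) : IsPrincipalIdealRing O := by
  have hK' := valuation_algebraMap_eq_one O hK
  have hiff : IsPrincipalIdealRing O ↔ WfDvdMonoid O := (IsBezout.TFAE (R := O)).out 1 3
  refine hiff.mpr ⟨?_⟩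
  rw [wellFounded_iff_isEmpty_descending_chain]
  refine ⟨fun ⟨f, hf⟩ => ?_⟩
  -- the chain `f 1, f 2, …` has strictly increasing valuations in `(0, 1)`
  have hne : ∀ n, f (n + 1) ≠ 0 := fun n => (hf n).1
  have hstep : ∀ n, O.valuation (f n : F) < O.valuation (f (n + 1) : F) := by
    intro n
    obtain ⟨_, c, hc, hfc⟩ := hf n
    have hc1 : O.valuation (c : F) < 1 := by
      rcases O.valuation_lt_one_or_eq_one c with h | h
      · exact h
      · exact absurd ((O.valuation_eq_one_iff c).mpr h) hc
    have h0 : 0 < O.valuation (f (n + 1) : F) :=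
      zero_lt_iff.mpr ((Valuation.ne_zero_iff _).mpr (fun h => hne n (Subtype.ext h)))
    rw [hfc]
    push_cast
    rw [map_mul]
    calc O.valuation (f (n + 1) : F) * O.valuation (c : F)
        < O.valuation (f (n + 1) : F) * 1 := mul_lt_mul_of_pos_left hc1 h0
      _ = _ := mul_one _
  have hmono : StrictMono fun n => O.valuation (f n : F) := strictMono_nat_of_lt_succ hstep
  have hlt1 : ∀ n, O.valuation (f n : F) < 1 := fun n =>
    lt_of_lt_of_le (hstep n) (O.valuation_le_one _)
  set x : F := (f 1 : F) with hx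
  have hx0 : x ≠ 0 := fun h => hne 0 (Subtype.ext h)
  have hxtr : Transcendental K x := transcendental_of_val_lt_one O.valuation hK' hx0 (hlt1 1)
  haveI := finiteDimensional_adjoin_of_transcendental t hxtr
  set N := Module.finrank K⟮x⟯ F with hN
  have hli := linearIndependent_of_strictMono_val O.valuation hK' hx0 (hlt1 1)
    (fun i : Fin (N + 1) => (f (1 + i) : F))
    (fun i j hij => hmono (by simpa using hij))
    (fun i => hmono.monotone (by omega)) (fun i => hlt1 _)
  have := hli.fintype_card_le_finrank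
  simp only [Fintype.card_fin] at this
  omega

end DVR

/-! ### Places -/

section Places

variable (t : F) [FiniteDimensional K⟮t⟯ F]

/-- The place of `F/K` attached to a nontrivial valuation ring containing the constants. -/
def placeOfValuationSubring (O : ValuationSubring F) (hK : ∀ a : K, algebraMap K F a ∈ O)
    (hO : O ≠ ⊤) : Place K F :=
  ⟨O, hK, hO, isPrincipalIdealRing_of_valuationSubring O t hK⟩

@[simp] theorem placeOfValuationSubring_toValuationSubring (O : ValuationSubring F)
    (hK : ∀ a : K, algebraMap K F a ∈ O) (hO : O ≠ ⊤) :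
    (placeOfValuationSubring t O hK hO).toValuationSubring = O := rfl

/-- Positive order at a place = nonunit of its valuation ring. -/
theorem ord_pos_iff (v : Place K F) {z : F} (hz : z ≠ 0) :
    0 < v.ord z ↔ z ∈ v.toValuationSubring.nonunits := by
  rw [ValuationSubring.mem_nonunits_iff_exists_mem_maximalIdeal]
  have hexp : v.adicValuation z < 1 ↔ 0 < v.ord z := by
    rw [v.adicValuation_eq_exp_neg_ord hz, ← exp_zero, exp_lt_exp]
    omega
  rw [← hexp]
  constructor
  · intro h
    have hmem : z ∈ v.toValuationSubring :=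
      (IsDiscreteValuationRing.exists_lift_of_le_one (A := v.toValuationSubring) (K := F)
        h.le).elim fun a ha => ha ▸ a.2
    refine ⟨hmem, ?_⟩
    have h1 := v.adicValuation_coe ⟨z, hmem⟩
    rw [← v.heightOneSpectrum_asIdeal, ← IsDedekindDomain.HeightOneSpectrum.intValuation_lt_one_iff_mem, ← h1]
    exact h
  · rintro ⟨hmem, hmax⟩
    have h1 := v.adicValuation_coe ⟨z, hmem⟩
    rw [← v.heightOneSpectrum_asIdeal, ← IsDedekindDomain.HeightOneSpectrum.intValuation_lt_one_iff_mem, ← h1]
      at hmax
    exact hmax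

/-- A transcendental element is not a unit of the polynomial ring it generates. -/
theorem span_singleton_ne_top_of_transcendental {z : F} (hz : Transcendental K z) :
    Ideal.span {(⟨z, Algebra.self_mem_adjoin_singleton K z⟩ :
      (Algebra.adjoin K ({z} : Set F)).toSubring)} ≠ ⊤ := by
  intro h
  rw [Ideal.span_singleton_eq_top] at h
  obtain ⟨b, hb⟩ := isUnit_iff_exists_inv.mp h
  have hbmem : (b : F) ∈ (aeval (R := K) z).range := by
    rw [← Algebra.adjoin_singleton_eq_range_aeval]
    exact b.2
  obtain ⟨ψ, hψ⟩ := hbmem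
  have h1 : z * (b : F) = 1 := congrArg Subtype.val hb
  have h2 : aeval z (X * ψ - 1) = 0 := by
    rw [map_sub, map_mul, aeval_X, map_one]
    have : aeval z ψ = (b : F) := hψ
    rw [this, h1, sub_self]
  have h3 := (transcendental_iff.mp hz) _ h2
  have h4 := congrArg (fun p => p.coeff 0) h3
  simp at h4

include t

/-- **A transcendental element has a zero**. -/
theorem exists_place_pos_ord {z : F} (hz : Transcendental K z) : ∃ v : Place K F, 0 < v.ord z := by
  have hz0 : z ≠ 0 := fun h => hz (h ▸ isAlgebraic_zero)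
  obtain ⟨B, hAB, hB⟩ := Ideal.image_subset_nonunits_valuationSubring _
    (span_singleton_ne_top_of_transcendental hz)
  have hK : ∀ a : K, algebraMap K F a ∈ B := fun a =>
    hAB (Subalgebra.algebraMap_mem (Algebra.adjoin K ({z} : Set F)) a)
  have hzB : z ∈ B.nonunits :=
    hB ⟨⟨z, Algebra.self_mem_adjoin_singleton K z⟩, Ideal.subset_span rfl, rfl⟩
  have hBtop : B ≠ ⊤ := by
    rintro rfl
    rw [ValuationSubring.mem_nonunits_iff] at hzB
    have h1 : (⊤ : ValuationSubring F).valuation z⁻¹ ≤ 1 :=
      ((⊤ : ValuationSubring F).valuation_le_one_iff _).mpr (ValuationSubring.mem_top _)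
    rw [map_inv₀, inv_le_one₀ (zero_lt_iff.mpr ((Valuation.ne_zero_iff _).mpr hz0))] at h1
    exact absurd hzB (not_lt.mpr h1)
  exact ⟨placeOfValuationSubring t B hK hBtop,
    (ord_pos_iff (placeOfValuationSubring t B hK hBtop) hz0).mpr hzB⟩

/-- **A transcendental element has a pole**. -/
theorem exists_place_neg_ord {z : F} (hz : Transcendental K z) : ∃ v : Place K F, v.ord z < 0 := by
  have hzi : Transcendental K z⁻¹ := fun h => hz (by simpa using h.inv)
  obtain ⟨v, hv⟩ := exists_place_pos_ord t hzi
  refine ⟨v, ?_⟩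
  rw [v.ord_inv] at hv
  omega

/-- An element with no pole is algebraic over the constants. -/
theorem isAlgebraic_of_forall_ord_nonneg {z : F} (h : ∀ v : Place K F, 0 ≤ v.ord z) :
    IsAlgebraic K z := by
  by_contra hz
  obtain ⟨v, hv⟩ := exists_place_neg_ord t (z := z) hz
  exact absurd (h v) (not_le.mpr hv)

/-- An element with no zero is algebraic over the constants. -/
theorem isAlgebraic_of_forall_ord_nonpos {z : F} (h : ∀ v : Place K F, v.ord z ≤ 0) :
    IsAlgebraic K z := by
  by_contra hz
  obtain ⟨v, hv⟩ := exists_place_pos_ord t (z := z) hz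
  exact absurd (h v) (not_le.mpr hv)

end Places

/-! ### Constants -/

section Constants

/-- The constants are units at every place. -/
theorem adicValuation_algebraMap_eq_one (v : Place K F) (a : K) (ha : a ≠ 0) :
    v.adicValuation (algebraMap K F a) = 1 := by
  apply le_antisymm (v.adicValuation_algebraMap_le_one a)
  have h1 := v.adicValuation_algebraMap_le_one a⁻¹
  rw [map_inv₀, map_inv₀] at h1
  have h0 : v.adicValuation (algebraMap K F a) ≠ 0 :=
    v.adicValuation_ne_zero (by simpa using ha)
  rwa [inv_le_one₀ (zero_lt_iff.mpr h0)] at h1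

/-- An element with a zero is transcendental over the constants. -/
theorem transcendental_of_ord_pos (v : Place K F) {z : F} (hz : 0 < v.ord z) :
    Transcendental K z := by
  have hz0 : z ≠ 0 := by
    rintro rfl
    simp at hz
  refine transcendental_of_val_lt_one v.adicValuation (adicValuation_algebraMap_eq_one v) hz0 ?_
  rw [v.adicValuation_eq_exp_neg_ord hz0, ← exp_zero, exp_lt_exp]
  omega

/-- Algebraic elements have order `0` at every place. -/
theorem ord_eq_zero_of_isAlgebraic (v : Place K F) {z : F} (hz : IsAlgebraic K z) :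
    v.ord z = 0 := by
  rcases lt_trichotomy (v.ord z) 0 with h | h | h
  · have h1 : 0 < v.ord z⁻¹ := by
      rw [v.ord_inv]
      omega
    exact absurd hz.inv (transcendental_of_ord_pos v h1)
  · exact h
  · exact absurd hz (transcendental_of_ord_pos v h)

/-- **The constants**: an element is algebraic over `K` iff it has neither zeros nor poles. -/
theorem isAlgebraic_iff_forall_ord_eq_zero (t : F) [FiniteDimensional K⟮t⟯ F] {z : F} :
    IsAlgebraic K z ↔ ∀ v : Place K F, v.ord z = 0 :=
  ⟨fun hz v => ord_eq_zero_of_isAlgebraic v hz,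
    fun h => isAlgebraic_of_forall_ord_nonneg t fun v => (h v).ge⟩

end Constants

end Fermat.Agent.RR.H23
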