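import Mathlib
import Fermat.Prelude.Def_AlgebraicCurve_Repartitions
import Fermat.Agent.RR.H52_PlaceBasic
import Fermat.Agent.RR.H60_PlaceExist

set_option autoImplicit false
set_option linter.style.haveILetI false

/-!
# Finiteness of residue fields of places (prelude vocabulary)

(S18 / RR bank, package `RR-FF-finiteResidue`, helper60.)  Characteristic free.

* `exists_sub_algebraMap_valuation_lt_one` : the residue field of `K(x) ∩ O` at a nonunit `x` is `K`.
* `linearIndependent_of_residue` : Stichtenoth 1.1.15, `K`-independent residues lift to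
  `K(x)`-independent elements.
* `finiteResidue`, `deg_le_finrank`, `one_le_deg`.
-/

noncomputable section

open AlgebraicCurve IntermediateField Polynomial

universe u v

namespace Fermat.Agent.RR.H60

variable {K : Type u} {F : Type v} [Field K] [Field F] [Algebra K F]

section Residue

variable (O : ValuationSubring F)

/-- A polynomial in a nonunit `x` is congruent to its constant term modulo the maximal ideal. -/
theorem valuation_aeval_sub_coeff_zero_lt_one (hK : ∀ a : K, algebraMap K F a ∈ O) {x : F}
    (hx : O.valuation x < 1) (q : K[X]) :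
    O.valuation (aeval x q - algebraMap K F (q.coeff 0)) < 1 := by
  have hxO : x ∈ O := (O.valuation_le_one_iff x).mp hx.le
  have hdecomp : aeval x q - algebraMap K F (q.coeff 0) = aeval x q.divX * x := by
    conv_lhs => rw [← Polynomial.divX_mul_X_add q]
    simp
  rw [hdecomp, map_mul]
  have h2 : O.valuation (aeval x q.divX) ≤ 1 :=
    (O.valuation_le_one_iff _).mpr (aeval_mem O hK hxO _)
  calc O.valuation (aeval x q.divX) * O.valuation x
      ≤ 1 * O.valuation x := mul_le_mul' h2 le_rfl
    _ = O.valuation x := one_mul _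
    _ < 1 := hx

/-- The residue field of `K(x) ∩ O` at a nonunit `x` of `O` is `K`: every element of `K(x)` which
lies in `O` is congruent to a constant modulo the maximal ideal of `O`. -/
theorem exists_sub_algebraMap_valuation_lt_one (hK : ∀ a : K, algebraMap K F a ∈ O) {x : F}
    (hx0 : x ≠ 0) (hx : O.valuation x < 1) {g : F} (hg : g ∈ K⟮x⟯) (hgO : O.valuation g ≤ 1) :
    ∃ a : K, O.valuation (g - algebraMap K F a) < 1 := by
  rcases eq_or_ne g 0 with rfl | hg0
  · exact ⟨0, by simp⟩
  obtain ⟨r, s, rfl⟩ := (IntermediateField.mem_adjoin_simple_iff K g).mp hg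
  have hr : r ≠ 0 := by
    rintro rfl
    simp at hg0
  have hs : s ≠ 0 := by
    rintro rfl
    simp at hg0
  have hvx0 : O.valuation x ≠ 0 := (Valuation.ne_zero_iff _).mpr hx0
  have hvxpos : 0 < O.valuation x := zero_lt_iff.mpr hvx0
  obtain ⟨r', hr', hrn⟩ := Polynomial.exists_eq_pow_rootMultiplicity_mul_and_not_dvd r hr 0
  obtain ⟨s', hs', hsn⟩ := Polynomial.exists_eq_pow_rootMultiplicity_mul_and_not_dvd s hs 0
  rw [map_zero, sub_zero] at hr' hrn hs' hsn
  have hr0 : r'.coeff 0 ≠ 0 := fun h => hrn (Polynomial.X_dvd_iff.mpr h)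
  have hs0 : s'.coeff 0 ≠ 0 := fun h => hsn (Polynomial.X_dvd_iff.mpr h)
  set a := r.rootMultiplicity 0 with ha
  set b := s.rootMultiplicity 0 with hb
  have hvr' : O.valuation (aeval x r') = 1 := valuation_aeval_eq_one O hK hx hr0
  have hvs' : O.valuation (aeval x s') = 1 := valuation_aeval_eq_one O hK hx hs0
  have hs'ne : aeval x s' ≠ 0 := by
    intro h; rw [h, map_zero] at hvs'; exact zero_ne_one hvs'
  have hx0' : x ≠ 0 := hx0
  have hre : aeval x r = x ^ a * aeval x r' := by
    conv_lhs => rw [hr']
    simp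
  have hse : aeval x s = x ^ b * aeval x s' := by
    conv_lhs => rw [hs']
    simp
  -- the value of `g` is `v(x)^(a-b)`, so `b ≤ a`
  have hval : O.valuation (aeval x r / aeval x s) = O.valuation x ^ ((a : ℤ) - b) := by
    rw [hre, hse, map_div₀, map_mul, map_mul, map_pow, map_pow, hvr', hvs', mul_one, mul_one,
      zpow_sub₀ hvx0, zpow_natCast, zpow_natCast]
  have hba : b ≤ a := by
    by_contra hlt
    push Not at hlt
    have h1 : (1 : O.ValueGroup) < O.valuation x ^ ((a : ℤ) - b) := by
      have h2 : ((a : ℤ) - b) < 0 := by omega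
      have := zpow_right_strictAnti₀ hvxpos hx h2
      simpa using this
    rw [← hval] at h1
    exact absurd hgO (not_le.mpr h1)
  obtain ⟨c, hc⟩ := Nat.exists_eq_add_of_le hba
  -- `g = x ^ c * r'(x) / s'(x)`
  have hg' : aeval x r / aeval x s = x ^ c * aeval x r' / aeval x s' := by
    rw [hre, hse, hc, pow_add]
    field_simp
  clear_value a b
  rcases Nat.eq_zero_or_pos c with rfl | hcpos
  · -- congruent to `r'(0) / s'(0)`
    refine ⟨r'.coeff 0 / s'.coeff 0, ?_⟩
    rw [hg', pow_zero, one_mul]
    have hs0F : algebraMap K F (s'.coeff 0) ≠ 0 := by simpa using hs0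
    have hcomp : aeval x r' / aeval x s' - algebraMap K F (r'.coeff 0 / s'.coeff 0)
        = ((aeval x r' - algebraMap K F (r'.coeff 0)) * algebraMap K F (s'.coeff 0)
            - algebraMap K F (r'.coeff 0) * (aeval x s' - algebraMap K F (s'.coeff 0)))
          / (aeval x s' * algebraMap K F (s'.coeff 0)) := by
      rw [map_div₀]
      field_simp
      ring
    rw [hcomp, map_div₀, map_mul, hvs', valuation_algebraMap_eq_one O hK hs0, mul_one, div_one]
    refine lt_of_le_of_lt (Valuation.map_sub _ _ _) (max_lt ?_ ?_)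
    · rw [map_mul, valuation_algebraMap_eq_one O hK hs0, mul_one]
      exact valuation_aeval_sub_coeff_zero_lt_one O hK hx r'
    · rw [map_mul, valuation_algebraMap_eq_one O hK hr0, one_mul]
      exact valuation_aeval_sub_coeff_zero_lt_one O hK hx s'
  · refine ⟨0, ?_⟩
    rw [map_zero, sub_zero, hg', map_div₀, map_mul, map_pow, hvr', hvs', mul_one, div_one]
    exact pow_lt_one₀ zero_le hx hcpos.ne'

end Residue

section PlaceRes

variable (v : Place K F)

local notation "𝒪" => Place.toValuationSubring v

theorem valuation_lt_one_of_ord_pos {x : F} (hx : 0 < v.ord x) :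
    v.toValuationSubring.valuation x < 1 := by
  have hx0 : x ≠ 0 := by
    rintro rfl
    simp at hx
  have hinv : x⁻¹ ∉ v.toValuationSubring := by
    intro h
    have := ord_nonneg_of_mem v h
    rw [v.ord_inv] at this
    omega
  by_contra hge
  push Not at hge
  apply hinv
  rw [← v.toValuationSubring.valuation_le_one_iff, map_inv₀]
  exact inv_le_one_of_one_le₀ hge

theorem ord_pos_of_valuation_lt_one {x : F} (hx0 : x ≠ 0)
    (hx : v.toValuationSubring.valuation x < 1) : 0 < v.ord x := by
  apply ord_pos_of_inv_not_mem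
  intro h
  have h1 : v.toValuationSubring.valuation x⁻¹ ≤ 1 :=
    (v.toValuationSubring.valuation_le_one_iff _).mpr h
  rw [map_inv₀, inv_le_one₀ (zero_lt_iff.mpr ((Valuation.ne_zero_iff _).mpr hx0))] at h1
  exact absurd hx (not_lt.mpr h1)

/-- **Stichtenoth 1.1.15.** If `x` vanishes at the place `v`, then elements of `O_v` whose
residues are linearly independent over `K` are linearly independent over `K(x)`. -/
theorem linearIndependent_of_residue {x : F} (hx : 0 < v.ord x) {ι : Type*}
    (z : ι → v.toValuationSubring)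
    (hz : LinearIndependent K fun i => IsLocalRing.residue v.toValuationSubring (z i)) :
    LinearIndependent K⟮x⟯ fun i => ((z i : v.toValuationSubring) : F) := by
  classical
  have hx0 : x ≠ 0 := by
    rintro rfl
    simp at hx
  have hK : ∀ a : K, algebraMap K F a ∈ 𝒪 := v.algebraMap_mem'
  have hxv : (𝒪).valuation x < 1 := valuation_lt_one_of_ord_pos v hx
  rw [linearIndependent_iff']
  intro s g hsum i hi
  by_contra hgi
  set S' := s.filter (fun i => g i ≠ 0) with hS'def
  have hS' : S'.Nonempty := ⟨i, by simp [hS'def, hi, hgi]⟩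
  obtain ⟨i₀, hi₀, hmax⟩ := Finset.exists_max_image S' (fun i => (𝒪).valuation (g i : F)) hS'
  have hi₀s : i₀ ∈ s := (Finset.mem_filter.mp hi₀).1
  have hgi₀ : g i₀ ≠ 0 := (Finset.mem_filter.mp hi₀).2
  have hgi₀F : ((g i₀ : K⟮x⟯) : F) ≠ 0 := by simpa using hgi₀
  set h : ι → F := fun j => (g j : F) / (g i₀ : F) with hh
  have hhmem : ∀ j, h j ∈ K⟮x⟯ := fun j => div_mem (g j).2 (g i₀).2
  have hhO : ∀ j ∈ s, (𝒪).valuation (h j) ≤ 1 := by
    intro j hj
    by_cases hgj : g j = 0
    · simp [hh, hgj]
    · have h1 := hmax j (Finset.mem_filter.mpr ⟨hj, hgj⟩)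
      rw [hh, map_div₀]
      exact (div_le_one₀ (zero_lt_iff.mpr ((Valuation.ne_zero_iff _).mpr hgi₀F))).mpr h1
  have hh0 : h i₀ = 1 := div_self hgi₀F
  have hsum' : ∑ j ∈ s, h j * ((z j : 𝒪) : F) = 0 := by
    have h1 : ∑ j ∈ s, h j * ((z j : 𝒪) : F)
        = (∑ j ∈ s, g j • ((z j : 𝒪) : F)) / (g i₀ : F) := by
      rw [Finset.sum_div]
      refine Finset.sum_congr rfl fun j _ => ?_
      simp only [hh, IntermediateField.smul_def, smul_eq_mul]
      ring
    rw [h1, hsum, zero_div]
  have hex : ∀ j, ∃ a : K, j ∈ s → (𝒪).valuation (h j - algebraMap K F a) < 1 := by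
    intro j
    by_cases hj : j ∈ s
    · obtain ⟨a, ha⟩ := exists_sub_algebraMap_valuation_lt_one 𝒪 hK hx0 hxv (hhmem j) (hhO j hj)
      exact ⟨a, fun _ => ha⟩
    · exact ⟨0, fun h => absurd h hj⟩
  choose a ha using hex
  -- the coefficients as elements of `𝒪`
  set hcf : ι → 𝒪 := fun j => if hj : j ∈ s then
    ⟨h j, ((𝒪).valuation_le_one_iff _).mp (hhO j hj)⟩ else 0 with hcfdef
  have hcfcoe : ∀ j ∈ s, ((hcf j : 𝒪) : F) = h j := by
    intro j hj
    simp [hcfdef, hj]
  have hsumO : ∑ j ∈ s, hcf j * z j = 0 := by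
    apply Subtype.ext
    push_cast
    rw [← hsum']
    exact Finset.sum_congr rfl fun j hj => by rw [hcfcoe j hj]
  have hresj : ∀ j ∈ s, IsLocalRing.residue 𝒪 (hcf j)
      = algebraMap K (IsLocalRing.ResidueField 𝒪) (a j) := by
    intro j hj
    have h1 : algebraMap K (IsLocalRing.ResidueField 𝒪) (a j)
        = IsLocalRing.residue 𝒪 (algebraMap K 𝒪 (a j)) := rfl
    rw [h1]
    refine Ideal.Quotient.eq.mpr ?_
    rw [(𝒪).valuation_lt_one_iff]
    push_cast
    rw [hcfcoe j hj]
    exact ha j hj
  have hres : ∑ j ∈ s, a j • IsLocalRing.residue 𝒪 (z j) = 0 := by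
    have h1 := congrArg (IsLocalRing.residue 𝒪) hsumO
    rw [map_sum, map_zero] at h1
    rw [← h1]
    refine Finset.sum_congr rfl fun j hj => ?_
    rw [map_mul, hresj j hj, Algebra.smul_def]
  have ha0 := (linearIndependent_iff'.mp hz) s a hres
  have h1 := ha i₀ hi₀s
  rw [hh0, ha0 i₀ hi₀s, map_zero, sub_zero, map_one] at h1
  exact lt_irrefl _ h1

end PlaceRes

section Fin

variable (t : F) (ht : Transcendental K t) [FiniteDimensional K⟮t⟯ F] (v : Place K F)

include ht in
/-- **Stichtenoth 1.1.15.** `dim_K (O_v / P_v) ≤ [F : K(x)]` for every `x` vanishing at `v`. -/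
theorem rank_residueField_le {x : F} (hx : 0 < v.ord x) :
    Module.rank K v.ResidueField ≤ (Module.finrank K⟮x⟯ F : ℕ) := by
  have hx0 : x ≠ 0 := by
    rintro rfl
    simp at hx
  haveI : FiniteDimensional K⟮x⟯ F := finiteDimensional_adjoin_of_transcendental t ht
    (transcendental_of_valuation_lt_one v.toValuationSubring v.algebraMap_mem' hx0
      (valuation_lt_one_of_ord_pos v hx))
  refine rank_le fun s hs => ?_
  have hsurj := IsLocalRing.residue_surjective (R := v.toValuationSubring)
  choose z hz using fun i : s => hsurj (i : v.ResidueField)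
  have hli : LinearIndependent K fun i : s => IsLocalRing.residue v.toValuationSubring (z i) := by
    simpa [hz] using hs
  have := (linearIndependent_of_residue v hx z hli).fintype_card_le_finrank
  simpa using this

include ht in
/-- Residue fields of places of `F / K` are finite over `K`. -/
theorem finiteResidue : Module.Finite K v.ResidueField := by
  obtain ⟨π, hπ⟩ := IsDiscreteValuationRing.exists_irreducible v.toValuationSubring
  have hx : 0 < v.ord (π : F) := by rw [v.ord_coe_irreducible hπ]; exact one_pos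
  rw [← Module.rank_lt_aleph0_iff]
  exact lt_of_le_of_lt (rank_residueField_le t ht v hx) Cardinal.natCast_lt_aleph0

include ht in
theorem place_finiteResidue : v.FiniteResidue := ⟨finiteResidue t ht v⟩

include ht in
/-- `deg v ≤ [F : K(x)]` for every `x` vanishing at `v`. -/
theorem deg_le_finrank {x : F} (hx : 0 < v.ord x) : v.deg ≤ Module.finrank K⟮x⟯ F :=
  Module.finrank_le_of_rank_le (rank_residueField_le t ht v hx)

include ht in
theorem one_le_deg : 1 ≤ v.deg := by
  haveI := finiteResidue t ht v
  exact Module.finrank_pos (R := K) (M := v.ResidueField)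

end Fin


end Fermat.Agent.RR.H60
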