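import Mathlib
import Fermat.Agent.RR.H52_WeakApprox

set_option autoImplicit false

/-!
# The moving lemma for divisor classes (prelude vocabulary)

(Stage 3 / blueprint package P8, helper83.)  Generic fields `K`, `F`; Mathlib + Prelude + the
weak approximation theorem of `RR/H52_WeakApprox` only.

* `exists_ord_eq` : for a finite set `s` of places and prescribed orders `n v` there is `z ≠ 0`
  with `v.ord z = n v` for all `v ∈ s` (no hypothesis on `F/K`).
* `exists_principal_agreeing` : with `[HasPrincipalDivisors K F]`, a principal divisor of degree `0`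
  with prescribed coefficients on `s`.
* `exists_rep_disjoint` : every class of `Pic0 K F` has a degree-zero representative whose support
  is disjoint from a given finite set of places.
-/

noncomputable section

open AlgebraicCurve WithZero

namespace Fermat.Agent.RR.H83

variable {K F : Type*} [Field K] [Field F] [Algebra K F]

/-- Prescribed orders at finitely many places. -/
theorem exists_ord_eq (s : Finset (Place K F)) (n : Place K F → ℤ) :
    ∃ z : F, z ≠ 0 ∧ ∀ v ∈ s, v.ord z = n v := by
  classical
  rcases s.eq_empty_or_nonempty with rfl | hs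
  · exact ⟨1, one_ne_zero, by simp⟩
  -- targets
  have hx : ∀ v : Place K F, ∃ x : F, v.adicValuation x = exp (-(n v)) := fun v =>
    Fermat.Agent.RR.H52.exists_val_eq_exp v _
  choose x hx using hx
  -- a bound
  set N : ℤ := (s.sup' hs n) + 1 with hN
  obtain ⟨z, hz⟩ := Fermat.Agent.RR.H52.weak_approximation s x N
  have hval : ∀ v ∈ s, v.adicValuation z = exp (-(n v)) := by
    intro v hv
    have h1 : v.adicValuation (z - x v) < v.adicValuation (x v) := by
      refine lt_of_le_of_lt (hz v hv) ?_
      rw [hx v, exp_lt_exp]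
      have : n v ≤ s.sup' hs n := Finset.le_sup' n hv
      omega
    rw [Valuation.map_eq_of_sub_lt _ h1, hx v]
  have hz0 : z ≠ 0 := by
    obtain ⟨v, hv⟩ := hs
    rintro rfl
    have := hval v hv
    rw [map_zero] at this
    exact exp_ne_zero this.symm
  refine ⟨z, hz0, fun v hv => ?_⟩
  unfold Place.ord
  rw [hval v hv, log_exp, neg_neg]

/-- A principal divisor of degree `0` with prescribed coefficients on a finite set of places. -/
theorem exists_principal_agreeing [HasPrincipalDivisors K F] (s : Finset (Place K F))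
    (n : Place K F → ℤ) :
    ∃ E : Divisor K F, E ∈ Divisor.principal (K := K) (F := F) ∧ Divisor.degree E = 0 ∧
      ∀ v ∈ s, E v = n v := by
  obtain ⟨z, hz0, hz⟩ := exists_ord_eq s n
  obtain ⟨E, hE, hdeg⟩ := HasPrincipalDivisors.exists_divisor (K := K) z hz0
  exact ⟨E, ⟨z, hz0, hE⟩, hdeg, fun v hv => by rw [hE v, hz v hv]⟩

/-- **Moving lemma**: every class of `Pic0 K F` has a degree-zero representative whose support is
disjoint from a given finite set of places. -/
theorem exists_rep_disjoint [HasPrincipalDivisors K F] (x : Pic0 K F) (s : Finset (Place K F)) :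
    ∃ D : Divisor.degZero (K := K) (F := F), Pic0.mk D = x ∧
      ∀ v ∈ s, (D : Divisor K F) v = 0 := by
  obtain ⟨D0, rfl⟩ := Pic0.mk_surjective x
  obtain ⟨E, hEp, hEdeg, hE⟩ := exists_principal_agreeing s (fun v => -(D0 : Divisor K F) v)
  have hE0 : E ∈ Divisor.degZero (K := K) (F := F) := hEdeg
  refine ⟨D0 + ⟨E, hE0⟩, ?_, fun v hv => ?_⟩
  · rw [Pic0.mk_add]
    have : Pic0.mk (⟨E, hE0⟩ : Divisor.degZero (K := K) (F := F)) = 0 := by
      unfold Pic0.mk
      rw [QuotientAddGroup.eq_zero_iff]
      exact hEp
    rw [this, add_zero]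
  · show ((D0 : Divisor K F) + E) v = 0
    rw [Finsupp.add_apply, hE v hv]
    ring

/-- `Set.Finite` form of the moving lemma. -/
theorem exists_rep_disjoint_of_finite [HasPrincipalDivisors K F] (x : Pic0 K F)
    (S : Set (Place K F)) (hS : S.Finite) :
    ∃ D : Divisor.degZero (K := K) (F := F), Pic0.mk D = x ∧
      ∀ v ∈ S, (D : Divisor K F) v = 0 := by
  obtain ⟨D, hD, h⟩ := exists_rep_disjoint x hS.toFinset
  exact ⟨D, hD, fun v hv => h v (hS.mem_toFinset.mpr hv)⟩

/-- The degree-zero divisors whose support avoids `S`. -/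
def degZeroOff (S : Set (Place K F)) : AddSubgroup (Divisor.degZero (K := K) (F := F)) where
  carrier := {D | ∀ v ∈ S, (D : Divisor K F) v = 0}
  zero_mem' := fun v _ => rfl
  add_mem' := by
    intro D E hD hE v hv
    show ((D : Divisor K F) + (E : Divisor K F)) v = 0
    rw [Finsupp.add_apply, hD v hv, hE v hv, add_zero]
  neg_mem' := by
    intro D hD v hv
    show (-(D : Divisor K F)) v = 0
    rw [Finsupp.neg_apply, hD v hv, neg_zero]

theorem mem_degZeroOff {S : Set (Place K F)} {D : Divisor.degZero (K := K) (F := F)} :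
    D ∈ degZeroOff S ↔ ∀ v ∈ S, (D : Divisor K F) v = 0 := Iff.rfl

/-- The classes of degree-zero divisors supported off a finite set exhaust `Pic0`. -/
theorem map_mk_degZeroOff_eq_top [HasPrincipalDivisors K F] (S : Set (Place K F))
    (hS : S.Finite) :
    (degZeroOff S).map
      (QuotientAddGroup.mk' ((Divisor.principal (K := K) (F := F)).addSubgroupOf
        (Divisor.degZero (K := K) (F := F)))) = ⊤ := by
  rw [eq_top_iff]
  intro x _
  obtain ⟨D, hD, h⟩ := exists_rep_disjoint_of_finite x S hS
  exact ⟨D, h, hD⟩

/-- Two additive maps out of `Pic0` agree as soon as they agree on the classes of divisors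
supported off a fixed finite set. -/
theorem hom_ext_off [HasPrincipalDivisors K F] {M : Type*} [AddCommGroup M]
    (S : Set (Place K F)) (hS : S.Finite) (φ ψ : Pic0 K F →+ M)
    (h : ∀ D : Divisor.degZero (K := K) (F := F), (∀ v ∈ S, (D : Divisor K F) v = 0) →
      φ (Pic0.mk D) = ψ (Pic0.mk D)) : φ = ψ := by
  refine DFunLike.ext _ _ fun x => ?_
  obtain ⟨D, rfl, hD⟩ := exists_rep_disjoint_of_finite x S hS
  exact h D hD

end Fermat.Agent.RR.H83
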